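import Fermat.Agent.CFT.Euler.Rational

/-!
# Artin induction for additive functions

An additive function of representations over `ℤ/p` vanishing on the permutation representations
on the cosets of cyclic subgroups vanishes on the trivial representation.
-/

set_option autoImplicit false

noncomputable section

namespace Fermat.CFT.Euler

open scoped Classical

variable {p : ℕ} [Fact p.Prime] {G : Type} [Group G] [Finite G]

/-- The action on a set of cosets. -/
def cosetAct (H : Subgroup G) : G →* Equiv.Perm (G ⧸ H) := MulAction.toPermHom G (G ⧸ H)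

/-- The functions on `G` realised as a difference of two permutation characters with equal
values of `Φ`. -/
def balanced (Φ : RepFun p G) : AddSubgroup (G → ℤ) where
  carrier := {f | ∃ (X Y : Type) (_ : Fintype X) (_ : DecidableEq X) (_ : Fintype Y)
    (_ : DecidableEq Y) (a : G →* Equiv.Perm X) (b : G →* Equiv.Perm Y),
    (∀ g, f g + (permMat b g).trace = (permMat a g).trace) ∧
      Φ.toFun _ (permRep p a) = Φ.toFun _ (permRep p b)}
  zero_mem' := ⟨Empty, Empty, inferInstance, inferInstance, inferInstance, inferInstance, 1, 1,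
    fun g => zero_add _, rfl⟩
  add_mem' := by
    rintro f f' ⟨X, Y, iX, dX, iY, dY, a, b, h, e⟩ ⟨X', Y', iX', dX', iY', dY', a', b', h', e'⟩
    refine ⟨X ⊕ X', Y ⊕ Y', inferInstance, inferInstance, inferInstance, inferInstance,
      sumAct a a', sumAct b b', fun g => ?_, by rw [permRep_sum, permRep_sum, e, e']⟩
    rw [trace_permMat_sum, trace_permMat_sum, ← h g, ← h' g, Pi.add_apply]
    ring
  neg_mem' := by
    rintro f ⟨X, Y, iX, dX, iY, dY, a, b, h, e⟩
    exact ⟨Y, X, iY, dY, iX, dX, b, a, fun g => by rw [Pi.neg_apply, ← h g]; ring, e.symm⟩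

variable [Fintype G]

/-- The number of `y` for which the conjugate `y⁻¹ * g * y` generates `D`. -/
def genCount (D : Subgroup G) (g : G) : ℤ :=
  (Finset.univ.filter fun y : G => Subgroup.zpowers (y⁻¹ * g * y) = D).card

/-- The trace of `g` on the cosets of `C` times the order of `C` counts the conjugators of `g`
into `C`. -/
lemma card_mul_trace_cosetAct (C : Subgroup G) (g : G) :
    (Nat.card C : ℤ) * (permMat (cosetAct C) g).trace =
      (Finset.univ.filter fun y : G => y⁻¹ * g * y ∈ C).card := by
  rw [trace_permMat, Finset.card_eq_sum_card_fiberwise (f := (QuotientGroup.mk : G → G ⧸ C))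
    (t := Finset.univ) (fun _ _ => Finset.mem_univ _), Nat.cast_sum, ← Finset.sum_boole,
    Finset.mul_sum]
  refine Finset.sum_congr rfl fun x _ => ?_
  obtain ⟨z, rfl⟩ := QuotientGroup.mk_surjective x
  have key : ∀ y : G, (QuotientGroup.mk y : G ⧸ C) = QuotientGroup.mk z →
      (y⁻¹ * g * y ∈ C ↔ cosetAct C g (QuotientGroup.mk z) = QuotientGroup.mk z) := by
    intro y hy
    rw [← hy]
    change _ ↔ (QuotientGroup.mk (g * y) : G ⧸ C) = QuotientGroup.mk y
    rw [eq_comm, QuotientGroup.eq, mul_assoc]
  split_ifs with h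
  · rw [Finset.filter_filter, mul_one, Nat.cast_inj]
    rw [← Nat.card_eq_finsetCard]
    refine Nat.card_congr
      { toFun := fun c => ⟨z * c, ?_⟩
        invFun := fun y => ⟨z⁻¹ * y, ?_⟩
        left_inv := fun c => Subtype.ext (inv_mul_cancel_left _ _)
        right_inv := fun y => Subtype.ext (mul_inv_cancel_left _ _) }
    · have : (QuotientGroup.mk (z * c) : G ⧸ C) = QuotientGroup.mk z := by
        rw [QuotientGroup.mk_mul_of_mem _ c.2]
      exact Finset.mem_filter.mpr ⟨Finset.mem_univ _, (key _ this).mpr h, this⟩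
    · exact QuotientGroup.eq.mp (Finset.mem_filter.mp y.2).2.2.symm
  · rw [mul_zero, eq_comm, Nat.cast_eq_zero, Finset.card_eq_zero, Finset.filter_filter,
      Finset.filter_eq_empty_iff]
    exact fun y _ hy => h ((key y hy.2).mp hy.1)

/-- Artin induction. -/
theorem eq_zero_of_cyclic (Φ : RepFun p G)
    (h0 : ∀ C : Subgroup G, IsCyclic C → Φ.toFun _ (permRep p (cosetAct C)) = 0) :
    Φ.toFun (ZMod p) (1 : Representation (ZMod p) G (ZMod p)) = 0 := by
  have hπ : ∀ C : Subgroup G, IsCyclic C →
      (fun g => (permMat (cosetAct C) g).trace) ∈ balanced Φ := fun C hC =>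
    ⟨G ⧸ C, Empty, inferInstance, inferInstance, inferInstance, inferInstance, cosetAct C, 1,
      fun g => by simp [Matrix.trace],
      (h0 C hC).trans (Φ.eq_zero_of_subsingleton _).symm⟩
  have hΘ : ∀ (n : ℕ) (C : Subgroup G), Nat.card C = n → IsCyclic C →
      genCount C ∈ balanced Φ := by
    intro n
    induction n using Nat.strong_induction_on with
    | _ n ih =>
    intro C hn hC
    set s := Finset.univ.filter fun D : Subgroup G => D < C
    have : genCount C = (Nat.card C : ℤ) • (fun g => (permMat (cosetAct C) g).trace) -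
        ∑ D ∈ s, genCount D := by
      funext g
      rw [Pi.sub_apply, Pi.smul_apply, Finset.sum_apply, smul_eq_mul, card_mul_trace_cosetAct,
        Finset.card_eq_sum_card_fiberwise (f := fun y : G => Subgroup.zpowers (y⁻¹ * g * y))
          (t := insert C s) (fun y hy => ?_),
        Finset.sum_insert (by simp [s]), Nat.cast_add, Nat.cast_sum]
      · have h1 : ∀ D ≤ C, ((Finset.univ.filter fun y : G => y⁻¹ * g * y ∈ C).filter
            fun y => Subgroup.zpowers (y⁻¹ * g * y) = D).card =
            (Finset.univ.filter fun y : G => Subgroup.zpowers (y⁻¹ * g * y) = D).card := by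
          intro D hD
          rw [Finset.filter_filter]
          congr 1
          exact Finset.filter_congr fun y _ =>
            ⟨And.right, fun h => ⟨hD (h ▸ Subgroup.mem_zpowers _), h⟩⟩
        rw [h1 C le_rfl, Finset.sum_congr rfl fun D hD => by
          rw [h1 D (Finset.mem_filter.mp hD).2.le]]
        simp only [genCount, add_sub_cancel_right]
      · have hle : Subgroup.zpowers (y⁻¹ * g * y) ≤ C :=
          Subgroup.zpowers_le.mpr (Finset.mem_filter.mp hy).2
        exact Finset.mem_insert.mpr (hle.eq_or_lt.imp id fun h => Finset.mem_filter.mpr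
          ⟨Finset.mem_univ _, h⟩)
    rw [this]
    refine sub_mem (zsmul_mem (hπ C hC) _) (sum_mem fun D hD => ?_)
    have hlt : D < C := (Finset.mem_filter.mp hD).2
    refine ih _ ?_ D rfl (Subgroup.isCyclic_of_le hlt.le)
    rw [← hn]
    exact Set.Finite.card_lt_card (Set.toFinite _) (SetLike.coe_ssubset_coe.mpr hlt)
  have hone : (fun _ => (Fintype.card G : ℤ)) ∈ balanced Φ := by
    have : (fun _ : G => (Fintype.card G : ℤ)) =
        ∑ D ∈ Finset.univ.image (fun x : G => Subgroup.zpowers x), genCount D := by
      funext g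
      rw [Finset.sum_apply, ← Finset.card_univ, Finset.card_eq_sum_card_fiberwise
        (f := fun y : G => Subgroup.zpowers (y⁻¹ * g * y))
        (fun y _ => Finset.mem_image.mpr ⟨_, Finset.mem_univ _, rfl⟩), Nat.cast_sum]
      rfl
    rw [this]
    refine sum_mem fun D hD => ?_
    obtain ⟨x, -, rfl⟩ := Finset.mem_image.mp hD
    exact hΘ _ _ rfl inferInstance
  obtain ⟨X, Y, iX, dX, iY, dY, a, b, h, e⟩ := hone
  -- `|G|` copies of the trivial representation
  have htriv : ∀ n : ℕ, Φ.toFun _ (permRep p (1 : G →* Equiv.Perm (Fin n))) =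
      n * Φ.toFun (ZMod p) (1 : Representation (ZMod p) G (ZMod p)) := by
    intro n
    induction n with
    | zero => rw [Nat.cast_zero, zero_mul]; exact Φ.eq_zero_of_subsingleton _
    | succ n ih =>
      rw [Nat.cast_succ, add_mul, one_mul, ← ih, ← Φ.prod]
      refine Φ.congr_of_bijective ((LinearMap.funLeft (ZMod p) (ZMod p) Fin.succ).prod
        (LinearMap.proj 0)) (fun g f => ?_)
        ⟨fun f f' h => ?_, fun z => ⟨Fin.cons z.2 z.1, Prod.ext (funext fun i => ?_) ?_⟩⟩
      · refine Prod.ext (funext fun i => ?_) ?_ <;> simp [permRep_apply, Equiv.Perm.one_def]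
      · exact funext fun i => Fin.cases (congrArg Prod.snd h)
          (fun j => congrFun (congrArg Prod.fst h) j) i
      · simp
      · simp
  have := permRep_eq_of_trace_eq Φ a (sumAct (1 : G →* Equiv.Perm (Fin (Fintype.card G))) b)
    fun g => by
      rw [trace_permMat_sum, ← h g]
      simp [trace_permMat]
  rw [permRep_sum, htriv, e] at this
  exact (mul_eq_zero.mp (by linarith : ((Fintype.card G : ℕ) : ℤ) *
    Φ.toFun (ZMod p) (1 : Representation (ZMod p) G (ZMod p)) = 0)).resolve_left
      (Nat.cast_ne_zero.mpr Fintype.card_ne_zero)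

end Fermat.CFT.Euler
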