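import Fermat.Agent.CFT.Euler.Rational

/-!
# Relatively projective representations

A representation with an endomorphism whose conjugates sum to the identity has exact invariants,
as many invariants as its dual, and keeps this property under `Hom` and restriction.
-/

set_option autoImplicit false

noncomputable section

namespace Fermat.CFT.Euler

open scoped Classical

variable {p : ℕ} [hp : Fact p.Prime] {G : Type} [Group G] [Fintype G]
  {V W X : Type} [AddCommGroup V] [Module (ZMod p) V] [AddCommGroup W] [Module (ZMod p) W]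
  [AddCommGroup X] [Module (ZMod p) X] {Y : Type}

/-- Some endomorphism has conjugates summing to the identity. -/
def IsProj (ρ : Representation (ZMod p) G V) : Prop :=
  ∃ e : V →ₗ[ZMod p] V, ∀ v, ∑ g, ρ g (e (ρ g⁻¹ v)) = v

/-- The sum of the conjugates of a map. -/
def conjSum (ρ : Representation (ZMod p) G V) (σ : Representation (ZMod p) G W)
    (f : V →ₗ[ZMod p] W) : V →ₗ[ZMod p] W :=
  ∑ g : G, (σ g).comp (f.comp (ρ g⁻¹))

/-- The sum of the conjugates, written out. -/
lemma conjSum_apply (ρ : Representation (ZMod p) G V) (σ : Representation (ZMod p) G W)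
    (f : V →ₗ[ZMod p] W) (v : V) : conjSum ρ σ f v = ∑ g, σ g (f (ρ g⁻¹ v)) := by
  simp [conjSum, LinearMap.sum_apply]

/-- The sum of the conjugates is equivariant. -/
lemma conjSum_equivariant (ρ : Representation (ZMod p) G V) (σ : Representation (ZMod p) G W)
    (f : V →ₗ[ZMod p] W) (s : G) (v : V) :
    conjSum ρ σ f (ρ s v) = σ s (conjSum ρ σ f v) := by
  rw [conjSum_apply, conjSum_apply, map_sum]
  refine Fintype.sum_equiv (Equiv.mulLeft s⁻¹) _ _ fun g => ?_
  simp only [Equiv.coe_mulLeft, ← Module.End.mul_apply, ← map_mul, mul_inv_cancel_left,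
    mul_inv_rev, inv_inv]

namespace IsProj

variable {ρ : Representation (ZMod p) G V}

/-- Relative projectivity passes to subgroups. -/
lemma restrict (h : IsProj ρ) (H : Subgroup G) : IsProj (ρ.comp H.subtype) := by
  obtain ⟨e, he⟩ := h
  refine ⟨∑ x : G ⧸ H, (ρ x.out⁻¹).comp (e.comp (ρ x.out)), fun v => ?_⟩
  conv_rhs => rw [← he v]
  simp only [LinearMap.sum_apply, map_sum]
  rw [← Fintype.sum_prod_type']
  let E : H × (G ⧸ H) ≃ G :=
    { toFun := fun z => (z.1 : G) * z.2.out⁻¹
      invFun := fun g => (⟨g * ((g⁻¹ : G) : G ⧸ H).out, by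
          obtain ⟨k, hk⟩ := QuotientGroup.mk_out_eq_mul H g⁻¹
          rw [hk, mul_inv_cancel_left]
          exact k.2⟩, ((g⁻¹ : G) : G ⧸ H))
      left_inv := fun z => by
        obtain ⟨k, x⟩ := z
        have hx : ((((k : G) * x.out⁻¹)⁻¹ : G) : G ⧸ H) = x := by
          rw [mul_inv_rev, inv_inv, QuotientGroup.mk_mul_of_mem _ (inv_mem k.2),
            QuotientGroup.out_eq']
        refine Prod.ext (Subtype.ext ?_) hx
        change (k : G) * x.out⁻¹ * ((((k : G) * x.out⁻¹)⁻¹ : G) : G ⧸ H).out = k
        rw [hx, inv_mul_cancel_right]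
      right_inv := fun g => by
        change g * ((g⁻¹ : G) : G ⧸ H).out * ((g⁻¹ : G) : G ⧸ H).out⁻¹ = g
        rw [mul_inv_cancel_right] }
  refine Fintype.sum_equiv E _ _ fun z => ?_
  simp [E, map_mul]

/-- The invariants of a projective representation are the norms. -/
lemma invariants_eq_range (h : IsProj ρ) :
    ρ.invariants = LinearMap.range (∑ g : G, ρ g) := by
  obtain ⟨e, he⟩ := h
  refine le_antisymm (fun v hv => ?_) ?_
  · refine ⟨e v, ?_⟩
    conv_rhs => rw [← he v]
    rw [LinearMap.sum_apply]
    exact Finset.sum_congr rfl fun g _ => by rw [hv g⁻¹]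
  · rintro _ ⟨v, rfl⟩ s
    rw [LinearMap.sum_apply, map_sum]
    exact Fintype.sum_equiv (Equiv.mulLeft s) _ _ fun g => by simp

/-- A projective representation and its dual have invariants of the same dimension. -/
lemma finrank_invariants_dual (h : IsProj ρ) :
    Module.finrank (ZMod p) ρ.dual.invariants = Module.finrank (ZMod p) ρ.invariants := by
  have hd : IsProj ρ.dual := by
    obtain ⟨e, he⟩ := h
    refine ⟨e.dualMap, fun φ => LinearMap.ext fun v => ?_⟩
    rw [LinearMap.sum_apply]
    conv_rhs => rw [← he v, map_sum]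
    exact Finset.sum_congr rfl
      fun g _ => by simp [Representation.dual_apply, Module.Dual.transpose_apply]
  rw [hd.invariants_eq_range, h.invariants_eq_range,
    ← LinearMap.finrank_range_dualMap_eq_finrank_range (∑ g : G, ρ g)]
  suffices h : (∑ g : G, ρ.dual g) = (∑ g : G, ρ g).dualMap by rw [h]
  refine LinearMap.ext fun φ => LinearMap.ext fun v => ?_
  rw [LinearMap.sum_apply, LinearMap.sum_apply, LinearMap.dualMap_apply, LinearMap.sum_apply,
    map_sum]
  exact Fintype.sum_equiv (Equiv.inv G) _ _ fun g => rfl

end IsProj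

/-! ### The functions `X ↦ dim Hom_G(V, X)` -/

/-- An equivariant map from a relatively projective representation lifts along equivariant
surjections. -/
lemma exists_invariant_lift {A B : Type} [AddCommGroup A] [Module (ZMod p) A] [AddCommGroup B]
    [Module (ZMod p) B] {ρ : Representation (ZMod p) G V} (h : IsProj ρ)
    {σA : Representation (ZMod p) G A} {σB : Representation (ZMod p) G B}
    (π : A →ₗ[ZMod p] B) (hπ : ∀ g a, π (σA g a) = σB g (π a)) (hs : Function.Surjective π)
    {φ : V →ₗ[ZMod p] B} (hφ : φ ∈ (Representation.linHom ρ σB).invariants) :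
    ∃ ψ ∈ (Representation.linHom ρ σA).invariants, π.comp ψ = φ := by
  obtain ⟨e, he⟩ := h
  obtain ⟨s, hs'⟩ := π.exists_rightInverse_of_surjective (LinearMap.range_eq_top.mpr hs)
  refine ⟨conjSum ρ σA (s.comp (φ.comp e)), fun g => LinearMap.ext fun v => ?_,
    LinearMap.ext fun v => ?_⟩
  · rw [Representation.linHom_apply, LinearMap.comp_apply, LinearMap.comp_apply,
      ← conjSum_equivariant, ← Module.End.mul_apply, ← map_mul, mul_inv_cancel, map_one,
      Module.End.one_apply]
  · rw [LinearMap.comp_apply, conjSum_apply, map_sum]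
    conv_rhs => rw [← he v, map_sum]
    refine Finset.sum_congr rfl fun g _ => ?_
    have h1 := LinearMap.congr_fun (hφ g) (ρ g (e (ρ g⁻¹ v)))
    rw [Representation.linHom_apply, LinearMap.comp_apply, LinearMap.comp_apply,
      ← Module.End.mul_apply (ρ g⁻¹) (ρ g), ← map_mul, inv_mul_cancel, map_one,
      Module.End.one_apply] at h1
    rw [hπ, show π (s.comp (φ.comp e) (ρ g⁻¹ v)) = φ (e (ρ g⁻¹ v)) from LinearMap.congr_fun hs' _,
      h1]

variable [FiniteDimensional (ZMod p) V] (ρ : Representation (ZMod p) G V)

/-- The dimension of the space of equivariant maps out of a projective representation. -/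
def homFun (h : IsProj ρ) : RepFun p G where
  toFun M _ _ _ σ := Module.finrank (ZMod p) (Representation.linHom ρ σ).invariants
  add {A B C} _ _ _ _ _ _ _ _ _ ρA ρB ρC f g hf hg hinj hsurj hex := by
    -- composition with `f` and with `g` preserves invariants
    have hiA : ∀ φ ∈ (Representation.linHom ρ ρA).invariants,
        LinearMap.compRight (ZMod p) f φ ∈ (Representation.linHom ρ ρB).invariants :=
      fun φ hφ s => LinearMap.ext fun v => by
        have h1 := congrArg f (LinearMap.congr_fun (hφ s) v)
        simpa [hf] using h1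
    have hgB : ∀ φ ∈ (Representation.linHom ρ ρB).invariants,
        LinearMap.compRight (ZMod p) g φ ∈ (Representation.linHom ρ ρC).invariants :=
      fun φ hφ s => LinearMap.ext fun v => by
        have h1 := congrArg g (LinearMap.congr_fun (hφ s) v)
        simpa [hg] using h1
    set F := (LinearMap.compRight (ZMod p) f).restrict hiA
    set P := (LinearMap.compRight (ZMod p) g).restrict hgB
    -- left exactness, and surjectivity by projectivity of `ρ`
    have hF : Function.Injective F := fun a b hab => Subtype.ext (LinearMap.ext fun v =>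
      hinj (LinearMap.congr_fun (congrArg Subtype.val hab) v))
    have hP : Function.Surjective P := fun c => by
      obtain ⟨ψ, hψ, hc⟩ := exists_invariant_lift h g hg hsurj c.2
      exact ⟨⟨ψ, hψ⟩, Subtype.ext hc⟩
    -- exactness in the middle: a map killed by `g` factors through `f`
    have hk : LinearMap.ker P = LinearMap.range F := by
      refine le_antisymm (fun b hb => ?_) ?_
      · have hb' : ∀ v, ∃ a, f a = b.1 v := fun v =>
          (hex _).mp (LinearMap.congr_fun (congrArg Subtype.val hb) v)
        obtain ⟨s, hs⟩ := f.exists_leftInverse_of_injective (LinearMap.ker_eq_bot.mpr hinj)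
        have hfs : ∀ v, f (s (b.1 v)) = b.1 v := fun v => by
          obtain ⟨a, ha⟩ := hb' v
          rw [← ha]
          exact congrArg f (LinearMap.congr_fun hs a)
        refine ⟨⟨s.comp b.1, fun g' => LinearMap.ext fun v => hinj ?_⟩, Subtype.ext
          (LinearMap.ext hfs)⟩
        have h1 := LinearMap.congr_fun (b.2 g') v
        simp only [Representation.linHom_apply, LinearMap.comp_apply] at h1 ⊢
        rw [hf, hfs, hfs, h1]
      · rintro _ ⟨a, rfl⟩
        exact Subtype.ext (LinearMap.ext fun v => hex.apply_apply_eq_zero _)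
    -- so the dimensions of the invariant maps add up
    have h1 := LinearMap.finrank_range_add_finrank_ker P
    rw [LinearMap.range_eq_top.mpr hP, finrank_top, hk,
      LinearMap.finrank_range_of_inj hF] at h1
    omega

/-- The value of `homFun` is the dimension of the equivariant maps. -/
lemma homFun_apply (h : IsProj ρ) {M : Type} [AddCommGroup M] [Module (ZMod p) M]
    [FiniteDimensional (ZMod p) M] (σ : Representation (ZMod p) G M) :
    (homFun ρ h).toFun M σ = Module.finrank (ZMod p) (Representation.linHom ρ σ).invariants := rfl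

/-! ### Functions on a set with an action -/

section FunRep

variable {ρ}

/-- The action on functions on a set with an action. -/
def funRep (a : G →* Equiv.Perm Y) (σ : Representation (ZMod p) G W) :
    Representation (ZMod p) G (Y → W) where
  toFun g := LinearMap.pi fun y => (σ g).comp (LinearMap.proj ((a g).symm y))
  map_one' := LinearMap.ext fun f => funext fun y => by simp [Equiv.Perm.one_def]
  map_mul' g h := LinearMap.ext fun f => funext fun y => by
    simp [Equiv.Perm.mul_def]

omit [Fintype G] in
/-- The action on functions, written out. -/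
@[simp] lemma funRep_apply (a : G →* Equiv.Perm Y) (σ : Representation (ZMod p) G W) (g : G)
    (f : Y → W) (y : Y) : funRep a σ g f y = σ g (f ((a g).symm y)) := rfl

/-- Functions on cosets of a subgroup of order prime to `p` form a projective representation. -/
lemma isProj_funRep_coset (C : Subgroup G) (hC : ¬ p ∣ Nat.card C)
    (σ : Representation (ZMod p) G W) :
    IsProj (Euler.funRep (MulAction.toPermHom G (G ⧸ C)) σ) := by
  have hne : (Nat.card C : ZMod p) ≠ 0 := fun h => hC ((ZMod.natCast_eq_zero_iff _ _).mp h)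
  refine ⟨(Nat.card C : ZMod p)⁻¹ • LinearMap.pi fun y => if y = ((1 : G) : G ⧸ C) then
    LinearMap.proj (R := ZMod p) (φ := fun _ : G ⧸ C => W) y else 0, fun f => funext fun y => ?_⟩
  rw [Finset.sum_apply]
  obtain ⟨s, rfl⟩ := QuotientGroup.mk_surjective y
  have hterm : ∀ g : G, Euler.funRep (MulAction.toPermHom G (G ⧸ C)) σ g
      (((Nat.card C : ZMod p)⁻¹ • LinearMap.pi fun y => if y = ((1 : G) : G ⧸ C) then
        LinearMap.proj (R := ZMod p) (φ := fun _ : G ⧸ C => W) y
          else 0) (Euler.funRep (MulAction.toPermHom G (G ⧸ C)) σ g⁻¹ f))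
      (s : G ⧸ C) = if g⁻¹ * s ∈ C then (Nat.card C : ZMod p)⁻¹ • f (s : G ⧸ C) else 0 := by
    intro g
    have e : ((MulAction.toPermHom G (G ⧸ C)) g).symm (s : G ⧸ C) = ((g⁻¹ * s : G) : G ⧸ C) := rfl
    have hiff : ((g⁻¹ * s : G) : G ⧸ C) = ((1 : G) : G ⧸ C) ↔ g⁻¹ * s ∈ C := by
      rw [QuotientGroup.eq, mul_one, inv_mem_iff]
    simp only [funRep_apply, e, LinearMap.smul_apply, Pi.smul_apply, LinearMap.pi_apply, map_smul]
    by_cases hg : g⁻¹ * s ∈ C
    · rw [if_pos hg, if_pos (hiff.mpr hg), LinearMap.proj_apply, funRep_apply,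
        ← Module.End.mul_apply, ← map_mul, mul_inv_cancel, map_one, Module.End.one_apply]
      congr 2
      change g⁻¹⁻¹ • ((g⁻¹ * s : G) : G ⧸ C) = _
      rw [inv_inv]
      rw [MulAction.Quotient.smul_mk, smul_eq_mul, mul_inv_cancel_left]
    · rw [if_neg hg, if_neg fun h => hg (hiff.mp h), LinearMap.zero_apply, map_zero, smul_zero]
  rw [Finset.sum_congr rfl fun g _ => hterm g, ← Finset.sum_filter, Finset.sum_const,
    show (Finset.univ.filter fun g : G => g⁻¹ * s ∈ C).card = Nat.card C by
      rw [← Nat.card_eq_finsetCard]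
      refine Nat.card_congr
        { toFun := fun g => ⟨g.1⁻¹ * s, (Finset.mem_filter.mp g.2).2⟩
          invFun := fun c => ⟨s * (c.1 : G)⁻¹, Finset.mem_filter.mpr ⟨Finset.mem_univ _, by simp⟩⟩
          left_inv := fun g => Subtype.ext (by simp)
          right_inv := fun c => Subtype.ext (by simp) },
    ← Nat.cast_smul_eq_nsmul (ZMod p), smul_smul, mul_inv_cancel₀ hne, one_smul]

omit [Fintype G] in
/-- Invariant functions are given by their values at representatives of the orbits. -/
lemma finrank_invariants_funRep [FiniteDimensional (ZMod p) W] (a : G →* Equiv.Perm Y)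
    (σ : Representation (ZMod p) G W) {ι : Type} [Fintype ι] (o : Y → ι) (r : ι → Y)
    (hor : ∀ i, o (r i) = i) (hoa : ∀ g y, o (a g y) = o y)
    (hr : ∀ y, ∃ g, a g (r (o y)) = y) (H : ι → Subgroup G)
    (hH : ∀ i g, g ∈ H i ↔ a g (r i) = r i) :
    Module.finrank (ZMod p) (Euler.funRep a σ).invariants =
      ∑ i, Module.finrank (ZMod p) (Representation.invariants (σ.comp (H i).subtype)) := by
  choose γ hγ using hr
  have hmem : ∀ (f : (Euler.funRep a σ).invariants) (g : G) (y : Y), σ g (f.1 y) = f.1 (a g y) :=
    fun f g y => by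
      have h := congrFun (f.2 g) (a g y)
      rwa [funRep_apply, Equiv.symm_apply_apply] at h
  -- Evaluation at the representatives lands in the invariants of their stabilisers.
  let Φ : (Euler.funRep a σ).invariants →ₗ[ZMod p] ∀ i,
      (Representation.invariants (σ.comp (H i).subtype)) :=
    LinearMap.pi fun i => LinearMap.codRestrict _
      ((LinearMap.proj (r i)).comp (Submodule.subtype _)) fun f g => by
        change σ (g : G) (f.1 (r i)) = f.1 (r i)
        rw [hmem, (hH i g).mp g.2]
  have hΦ : ∀ f i, ((Φ f i : (Representation.invariants (σ.comp (H i).subtype))) : W) = f.1 (r i) :=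
    fun f i => rfl
  rw [← Module.finrank_pi_fintype]
  -- It is bijective: an invariant function is determined by and extends from these values.
  refine (LinearEquiv.ofBijective Φ ⟨fun f f' h => ?_, fun w => ?_⟩).finrank_eq
  · refine Subtype.ext (funext fun y => ?_)
    rw [← hγ y, ← hmem, ← hmem, ← hΦ, ← hΦ, h]
  · refine ⟨⟨fun y => σ (γ y) (w (o y)).1, fun g => funext fun y => ?_⟩,
      funext fun i => Subtype.ext ?_⟩
    · change σ g (σ (γ ((a g).symm y)) (w (o ((a g).symm y))).1) = σ (γ y) (w (o y)).1
      have ho : o ((a g).symm y) = o y := by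
        conv_rhs => rw [← (a g).apply_symm_apply y, hoa]
      rw [← Module.End.mul_apply, ← map_mul, ho]
      have hk : (γ y)⁻¹ * (g * γ ((a g).symm y)) ∈ H (o y) := (hH _ _).mpr <| by
        rw [map_mul, map_mul, map_inv, Equiv.Perm.mul_apply, Equiv.Perm.mul_apply,
          Equiv.Perm.inv_eq_iff_eq]
        conv_lhs => rw [← ho, hγ]
        rw [Equiv.apply_symm_apply, hγ]
      have h := (w (o y)).2 ⟨_, hk⟩
      change σ ((γ y)⁻¹ * (g * γ ((a g).symm y))) (w (o y)).1 = _ at h
      conv_rhs => rw [← h, ← Module.End.mul_apply, ← map_mul, mul_inv_cancel_left]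
    · rw [hΦ]
      change σ (γ (r i)) (w (o (r i))).1 = (w i).1
      have hk : γ (r i) ∈ H i := (hH _ _).mpr (by
        have h := hγ (r i)
        rwa [hor] at h)
      have h := (w i).2 ⟨_, hk⟩
      rw [hor]
      exact h

end FunRep

end Fermat.CFT.Euler
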