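import Fermat.Agent.CFT.Euler.Rational
import Fermat.Agent.CFT.Coh.Dual

/-!
# Lattices with a logarithm map

A finitely generated group with an action and an equivariant map to the functions on a finite set,
whose image spans together with one invariant vector, has reduction modulo `p` equal to the
reduction of the permutation module minus the trivial one, up to the torsion.
-/

set_option autoImplicit false
set_option linter.unusedSectionVars false

noncomputable section

namespace Fermat.CFT.Euler

open Coh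

variable {p : ℕ} [hp : Fact p.Prime] {G : Type} [Group G] [Finite G]

section Block

variable {ι κ : Type} [Fintype ι] [DecidableEq ι] [Fintype κ] [DecidableEq κ]

/-- The block diagonal sum. -/
def blockMat (A : G →* Matrix ι ι ℤ) (B : G →* Matrix κ κ ℤ) :
    G →* Matrix (ι ⊕ κ) (ι ⊕ κ) ℤ where
  toFun g := Matrix.fromBlocks (A g) 0 0 (B g)
  map_one' := by rw [map_one, map_one, Matrix.fromBlocks_one]
  map_mul' g h := by simp [Matrix.fromBlocks_multiply]

/-- The reduction of a block sum has the sum of the values. -/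
lemma redRep_block (Φ : RepFun p G) (A : G →* Matrix ι ι ℤ) (B : G →* Matrix κ κ ℤ) :
    Φ.toFun _ (redRep p (blockMat A B)) = Φ.toFun _ (redRep p A) + Φ.toFun _ (redRep p B) := by
  rw [← Φ.prod]
  refine Φ.congr_of_bijective
    (LinearEquiv.sumArrowLequivProdArrow ι κ (ZMod p) (ZMod p)).toLinearMap
    (fun g f => ?_) (LinearEquiv.bijective _)
  refine Prod.ext (funext fun x => ?_) (funext fun y => ?_) <;>
    simp [redRep, blockMat, Matrix.mulVec, dotProduct, Fintype.sum_sum_type]

end Block

/-- The matrices of an action on a lattice. -/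
def latticeMat {L ι : Type} [AddCommGroup L] [Fintype ι] [DecidableEq ι] (b : Module.Basis ι ℤ L)
    (α : Representation ℤ G L) : G →* Matrix ι ι ℤ :=
  ((LinearMap.toMatrixAlgEquiv b).toAlgHom.toRingHom.toMonoidHom).comp α

/-- The matrix of an element computes its action on coordinates. -/
lemma latticeMat_repr {L ι : Type} [AddCommGroup L] [Fintype ι] [DecidableEq ι]
    (b : Module.Basis ι ℤ L) (α : Representation ℤ G L) (g : G) (x : L) :
    (latticeMat b α g).mulVec (b.repr x) = b.repr (α g x) :=
  LinearMap.toMatrix_mulVec_repr b b (α g) x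

variable {A : Type} [AddCommGroup A] [Module.Finite ℤ A] (α : Representation ℤ G A)

/-- The action preserves the torsion. -/
lemma torsion_mem (g : G) {x : A} (hx : x ∈ Submodule.torsion ℤ A) :
    α g x ∈ Submodule.torsion ℤ A := by
  obtain ⟨c, hc⟩ := (Submodule.mem_torsion_iff x).mp hx
  refine (Submodule.mem_torsion_iff _).mpr ⟨c, ?_⟩
  rw [Submonoid.smul_def, ← map_smul, ← Submonoid.smul_def, hc, map_zero]

/-- The action on the quotient by the torsion. -/
def modTorsion : Representation ℤ G (A ⧸ Submodule.torsion ℤ A) where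
  toFun g := (Submodule.torsion ℤ A).mapQ _ (α g) fun _ hx => torsion_mem α g hx
  map_one' := LinearMap.ext fun x => Quotient.inductionOn' x fun a => by
    change Submodule.Quotient.mk (α 1 a) = Submodule.Quotient.mk a
    rw [map_one, Module.End.one_apply]
  map_mul' g h := LinearMap.ext fun x => Quotient.inductionOn' x fun a => by
    change Submodule.Quotient.mk (α (g * h) a) = Submodule.Quotient.mk (α g (α h a))
    rw [map_mul, Module.End.mul_apply]

variable {X : Type} [AddCommGroup X] [Module (ZMod p) X] [FiniteDimensional (ZMod p) X]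
  (κ : Representation (ZMod p) G X) (q : A →+ X) {Y : Type} [Fintype Y] [DecidableEq Y]
  (a : G →* Equiv.Perm Y)

/-- The reduction is the line of `η` and the reduction of the quotient by the torsion. -/
private theorem repFun_eq_line_add (Φ : RepFun p G) (hq : Function.Surjective q)
    (hker : ∀ x, q x = 0 ↔ ∃ y, p • y = x) (heq : ∀ g x, q (α g x) = κ g (q x))
    (η : A) (hη : ∀ x, x ∈ Submodule.torsion ℤ A ↔ ∃ n : ℤ, n • η = x) (hη0 : q η ≠ 0)
    (c : G →* (ZMod p)ˣ) (hc : ∀ g, κ g (q η) = (c g : ZMod p) • q η)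
    {ι : Type} [Fintype ι] [DecidableEq ι] (b : Module.Basis ι ℤ (A ⧸ Submodule.torsion ℤ A)) :
    Φ.toFun X κ = Φ.toFun (ZMod p) (charRep c) +
      Φ.toFun _ (redRep p (latticeMat b (modTorsion α))) := by
  set L := A ⧸ Submodule.torsion ℤ A
  set B := latticeMat b (modTorsion α)
  -- the reduction modulo `p`
  have hwd : ∀ x, q x = 0 → redVec p (b.repr (Submodule.Quotient.mk x : L)) = 0 := by
    intro x hx
    obtain ⟨y, rfl⟩ := (hker x).mp hx
    rw [← Nat.cast_smul_eq_nsmul ℤ, Submodule.Quotient.mk_smul, map_smul]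
    funext i
    simp [redVec]
  let π₀ : A →+ (ι → ZMod p) :=
    AddMonoidHom.mk' (fun x => redVec p (b.repr (Submodule.Quotient.mk x : L))) fun x y => by
      simp only [Submodule.Quotient.mk_add, map_add, Finsupp.coe_add, redVec_add]
  let π : X →ₗ[ZMod p] ι → ZMod p :=
    (AddMonoidHom.liftOfSurjective q hq ⟨π₀, fun x hx => hwd x hx⟩).toZModLinearMap p
  have hπ : ∀ x, π (q x) = π₀ x := fun x =>
    AddMonoidHom.liftOfRightInverse_comp_apply q _ (Function.rightInverse_surjInv hq)
      ⟨π₀, fun x hx => hwd x hx⟩ x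
  refine Φ.add (charRep c) κ (redRep p B) (LinearMap.toSpanSingleton (ZMod p) X (q η)) π
    (fun g t => ?_) (fun g x => ?_) (fun s t h => ?_) (fun y => ?_) fun x => ?_
  · simp only [charRep_apply, LinearMap.toSpanSingleton_apply, map_smul, hc, smul_smul]
    rw [mul_comm]
  · obtain ⟨x, rfl⟩ := hq x
    rw [← heq, hπ, hπ]
    change redVec p (b.repr (modTorsion α g (Submodule.Quotient.mk x : L))) = _
    rw [← latticeMat_repr]
    exact (redRep_redVec _ g _).symm
  · simp only [LinearMap.toSpanSingleton_apply] at h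
    exact smul_left_injective (ZMod p) hη0 h
  · obtain ⟨w, rfl⟩ := redVec_surjective y
    obtain ⟨l, hl⟩ := (Submodule.mkQ_surjective (Submodule.torsion ℤ A))
      (b.equivFun.symm w)
    refine ⟨q l, (hπ l).trans ?_⟩
    change redVec p (b.repr (Submodule.mkQ _ l)) = redVec p w
    rw [hl]
    exact congrArg _ (b.equivFun.apply_symm_apply w)
  · constructor
    · intro h
      obtain ⟨x, rfl⟩ := hq x
      rw [hπ] at h
      obtain ⟨w, hw⟩ := exists_eq_smul_of_redVec_eq_zero h
      obtain ⟨y, hy⟩ := (Submodule.mkQ_surjective (Submodule.torsion ℤ A))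
        (b.equivFun.symm w)
      have ht : x - p • y ∈ Submodule.torsion ℤ A := by
        rw [← Submodule.Quotient.mk_eq_zero, Submodule.Quotient.mk_sub, sub_eq_zero,
          ← Nat.cast_smul_eq_nsmul ℤ, Submodule.Quotient.mk_smul]
        refine b.equivFun.injective ?_
        rw [map_smul, show (Submodule.Quotient.mk y : L) = b.equivFun.symm w from hy,
          LinearEquiv.apply_symm_apply]
        exact hw
      obtain ⟨n, hn⟩ := (hη _).mp ht
      refine ⟨(n : ZMod p), ?_⟩
      rw [LinearMap.toSpanSingleton_apply, Int.cast_smul_eq_zsmul, ← map_zsmul, hn, map_sub,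
        (hker (p • y)).mpr ⟨y, rfl⟩, sub_zero]
    · rintro ⟨t, rfl⟩
      rw [LinearMap.toSpanSingleton_apply, map_smul, hπ]
      change t • redVec p (b.repr (Submodule.Quotient.mk η : L)) = 0
      rw [(Submodule.Quotient.mk_eq_zero _).mpr ((hη η).mpr ⟨1, one_zsmul η⟩), map_zero]
      funext i
      simp [redVec]

/-- The trace of the permutation of the coordinates. -/
private theorem trace_funLeft_eq (g : G) :
    LinearMap.trace ℝ _ (LinearMap.funLeft ℝ ℝ (a g).symm : (Y → ℝ) →ₗ[ℝ] (Y → ℝ)) =
      ((permMat a g).trace : ℤ) := by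
  rw [LinearMap.trace_eq_matrix_trace ℝ (Pi.basisFun ℝ Y)]
  simp only [Matrix.trace, Matrix.diag_apply, Int.cast_sum]
  refine Finset.sum_congr rfl fun y _ => ?_
  rw [LinearMap.toMatrix_apply]
  simp [permMat, LinearMap.funLeft_apply, Pi.single_apply, eq_comm]
  exact if_congr (by rw [eq_comm, Equiv.eq_symm_apply]) rfl rfl

/-- The permutation module has the traces of the lattice and one invariant line. -/
private theorem trace_permMat_eq (ℓ : A →+ (Y → ℝ))
    (hℓ : ∀ g x y, ℓ (α g x) y = ℓ x ((a g).symm y))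
    (z : Y → ℝ) (hz : ∀ g y, z ((a g).symm y) = z y)
    (hspan : Submodule.span ℝ (insert z (Set.range ℓ)) = ⊤)
    (hrank : Module.finrank ℤ A + 1 = Fintype.card Y)
    {ι : Type} [Fintype ι] [DecidableEq ι] (b : Module.Basis ι ℤ (A ⧸ Submodule.torsion ℤ A))
    (g : G) : (permMat a g).trace =
      (blockMat (latticeMat b (modTorsion α)) (permMat (1 : G →* Equiv.Perm Unit)) g).trace := by
  set L := A ⧸ Submodule.torsion ℤ A
  set B := latticeMat b (modTorsion α)
  let ℓL : L →ₗ[ℤ] (Y → ℝ) := (Submodule.torsion ℤ A).liftQ ℓ.toIntLinearMap fun x hx => by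
    obtain ⟨m, hm⟩ := (Submodule.mem_torsion_iff x).mp hx
    have h : ((m : ℤ) : ℤ) • ℓ x = 0 := by
      rw [← map_zsmul, show (m : ℤ) • x = 0 from hm, map_zero]
    exact (smul_eq_zero.mp h).resolve_left (nonZeroDivisors.coe_ne_zero m)
  -- the images of a lattice basis and `z` form a basis of `Y → ℝ`
  let v : ι ⊕ Unit → (Y → ℝ) := Sum.elim (fun i => ℓL (b i)) fun _ => z
  have hv : (⊤ : Submodule ℝ (Y → ℝ)) ≤ Submodule.span ℝ (Set.range v) := by
    rw [← hspan, Submodule.span_le]
    rintro _ (rfl | ⟨x, rfl⟩)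
    · exact Submodule.subset_span ⟨Sum.inr (), rfl⟩
    · change ℓL (Submodule.Quotient.mk x) ∈ Submodule.span ℝ (Set.range v)
      rw [← b.sum_repr (Submodule.Quotient.mk x : L), map_sum]
      refine Submodule.sum_mem _ fun i _ => ?_
      rw [map_smul, ← Int.cast_smul_eq_zsmul ℝ]
      exact Submodule.smul_mem _ _ (Submodule.subset_span ⟨Sum.inl i, rfl⟩)
  have hcard : Fintype.card (ι ⊕ Unit) = Module.finrank ℝ (Y → ℝ) := by
    refine le_antisymm ?_ ?_
    · rw [Module.finrank_pi, ← hrank, Fintype.card_sum, Fintype.card_unit,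
        ← Module.finrank_eq_card_basis b]
      exact Nat.succ_le_succ (Submodule.finrank_quotient_le _)
    · rw [← finrank_top ℝ (Y → ℝ)]
      exact (Submodule.finrank_mono hv).trans (finrank_range_le_card v)
  let Bv : Module.Basis (ι ⊕ Unit) ℝ (Y → ℝ) :=
    basisOfTopLeSpanOfCardEqFinrank v hv hcard
  let P : (Y → ℝ) →ₗ[ℝ] (Y → ℝ) := LinearMap.funLeft ℝ ℝ (a g).symm
  have h1 : LinearMap.trace ℝ _ P = ((permMat a g).trace : ℤ) := trace_funLeft_eq a g
  -- in it the permutation has the block matrix of the lattice and one fixed vector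
  have hB : ∀ i, P (v (Sum.inl i)) = ∑ j, ((B g j i : ℤ) : ℝ) • v (Sum.inl j) := fun i => by
    have e1 : ∀ x, P (ℓL x) = ℓL (modTorsion α g x) := fun x => Quotient.inductionOn' x
      fun x => funext fun y => (hℓ g x y).symm
    change P (ℓL (b i)) = ∑ j, ((B g j i : ℤ) : ℝ) • ℓL (b j)
    rw [e1]
    conv_lhs => rw [← b.sum_repr (modTorsion α g (b i)), map_sum]
    refine Finset.sum_congr rfl fun j _ => ?_
    rw [map_smul, Int.cast_smul_eq_zsmul]
    congr 1
    exact (LinearMap.toMatrix_apply b b (modTorsion α g) j i).symm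
  have hz' : P (v (Sum.inr ())) = v (Sum.inr ()) := funext fun y => hz g y
  -- compute the trace in that basis
  have h2 : LinearMap.trace ℝ _ P =
      ((blockMat B (permMat (1 : G →* Equiv.Perm Unit)) g).trace : ℤ) := by
    rw [LinearMap.trace_eq_matrix_trace ℝ Bv P]
    simp only [Matrix.trace, Matrix.diag_apply, Int.cast_sum]
    refine Finset.sum_congr rfl fun i _ => ?_
    rw [LinearMap.toMatrix_apply,
      show Bv i = v i by simp [Bv]]
    rcases i with i | u
    · rw [hB, map_sum, Finsupp.finsetSum_apply]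
      simp only [map_smul, Finsupp.smul_apply]
      rw [Finset.sum_eq_single i (fun j _ hj => ?_) (by simp)]
      · rw [show v (Sum.inl i) = Bv (Sum.inl i) by simp [Bv], Bv.repr_self]
        simp [blockMat]
      · rw [show v (Sum.inl j) = Bv (Sum.inl j) by simp [Bv], Bv.repr_self,
          Finsupp.single_eq_of_ne (by simpa using Ne.symm hj), smul_zero]
    · rw [show u = () from rfl, hz', show v (Sum.inr ()) = Bv (Sum.inr ()) by simp [Bv],
        Bv.repr_self]
      simp [blockMat, permMat]
  exact_mod_cast h1.symm.trans h2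

/-- The reduction of a group with a logarithm map. -/
theorem repFun_eq_of_log (Φ : RepFun p G) (hq : Function.Surjective q)
    (hker : ∀ x, q x = 0 ↔ ∃ y, p • y = x) (heq : ∀ g x, q (α g x) = κ g (q x))
    (η : A) (hη : ∀ x, x ∈ Submodule.torsion ℤ A ↔ ∃ n : ℤ, n • η = x) (hη0 : q η ≠ 0)
    (c : G →* (ZMod p)ˣ) (hc : ∀ g, κ g (q η) = (c g : ZMod p) • q η)
    (ℓ : A →+ (Y → ℝ)) (hℓ : ∀ g x y, ℓ (α g x) y = ℓ x ((a g).symm y))
    (z : Y → ℝ) (hz : ∀ g y, z ((a g).symm y) = z y)
    (hspan : Submodule.span ℝ (insert z (Set.range ℓ)) = ⊤)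
    (hrank : Module.finrank ℤ A + 1 = Fintype.card Y) :
    Φ.toFun X κ + Φ.toFun (ZMod p) (1 : Representation (ZMod p) G (ZMod p)) =
      Φ.toFun (ZMod p) (charRep c) + Φ.toFun _ (permRep p a) := by
  set b := Module.Free.chooseBasis ℤ (A ⧸ Submodule.torsion ℤ A)
  have h := redRep_eq_of_trace_eq Φ (permMat a) _
    (trace_permMat_eq α a ℓ hℓ z hz hspan hrank b)
  rw [redRep_block] at h
  have hunit : Φ.toFun _ (permRep p (1 : G →* Equiv.Perm Unit)) =
      Φ.toFun (ZMod p) (1 : Representation (ZMod p) G (ZMod p)) :=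
    Φ.congr_of_bijective (LinearMap.proj ())
      (fun g f => by simp [permRep_apply, Equiv.Perm.one_def])
      ⟨fun f f' e => funext fun u => e, fun t => ⟨fun _ => t, rfl⟩⟩
  rw [show redRep p (permMat (1 : G →* Equiv.Perm Unit)) = permRep p 1 from rfl, hunit] at h
  rw [repFun_eq_line_add α κ q Φ hq hker heq η hη hη0 c hc b,
    show permRep p a = redRep p (permMat a) from rfl, h]
  ring

end Fermat.CFT.Euler
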