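import Fermat.Agent.CFT.Euler.Kappa
import Fermat.Agent.CFT.Euler.LogLattice
import Fermat.Prelude.Def_GaloisRep_ComplexConjugation

/-!
# The character of the `T`-units

The units of `K` outside `T` modulo `p`-th powers are, for additive functions, the sum of the
permutation modules on the places over `T` and on the infinite places, plus the roots of unity,
minus the trivial module.
-/

set_option autoImplicit false

noncomputable section

open NumberField ExtCitation Fermat.CFT.Coh
open scoped Pointwise Classical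

namespace Fermat.CFT.Euler

local notation "ℚbar" => AlgebraicClosure ℚ

variable {p : ℕ} [hp : Fact p.Prime] {K : IntermediateField ℚ ℚbar} [FiniteDimensional ℚ K]
  [Normal ℚ K] {T : Finset Nat.Primes}

/-! ### Permutations of places -/

variable (K T) in
/-- The action on the places over `T`. -/
def actT : GalQ K →* Equiv.Perm (plsOver K T) where
  toFun g := (MulAction.toPerm (actK K g) : Equiv.Perm (Pl K)).subtypePerm fun w => by
    rw [mem_plsOver, mem_plsOver, MulAction.toPerm_apply, resChar_smul]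
  map_one' := Equiv.ext fun w => Subtype.ext (by
    change actK K 1 • (w : Pl K) = _
    rw [map_one, one_smul]
    rfl)
  map_mul' g h := Equiv.ext fun w => Subtype.ext (by
    change actK K (g * h) • (w : Pl K) = actK K g • actK K h • (w : Pl K)
    rw [map_mul, mul_smul])

/-- The place moved by `g`. -/
lemma coe_actT (g : GalQ K) (w : plsOver K T) :
    ((actT K T g w : plsOver K T) : Pl K) = actK K g • (w : Pl K) := rfl

/-- The place moved by the inverse of `g`. -/
lemma coe_actT_symm (g : GalQ K) (w : plsOver K T) :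
    (((actT K T g).symm w : plsOver K T) : Pl K) = (actK K g)⁻¹ • (w : Pl K) := by
  rw [eq_inv_smul_iff, ← coe_actT, Equiv.apply_symm_apply]

variable (K) in
/-- The action on the infinite places. -/
def actInf : GalQ K →* Equiv.Perm (InfinitePlace K) :=
  (MulAction.toPermHom (K ≃ₐ[ℚ] K) (InfinitePlace K)).comp (actK K)

omit [FiniteDimensional ℚ ↥K] in
/-- An infinite place moved by the inverse of `g`. -/
lemma actInf_symm_apply (g : GalQ K) (w : InfinitePlace K) :
    (actInf K g).symm w = (actK K g)⁻¹ • w := rfl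

/-! ### The logarithm map -/

variable (K T) in
/-- Valuations over `T` and logarithms at infinity. -/
def unitsLog : Additive (sUnits K (plsOver K T : Set (Pl K))) →+
    ((plsOver K T) ⊕ InfinitePlace K → ℝ) :=
  AddMonoidHom.mk' (fun x => Sum.elim (fun w => (ord (w : Pl K) ((Additive.toMul x).1 : K) : ℝ))
    fun w => (w.mult : ℝ) * Real.log (w ((Additive.toMul x).1 : K))) fun x y => by
    funext i
    rcases i with w | w
    · change ((ord (w : Pl K) (((Additive.toMul x).1 : K) * ((Additive.toMul y).1 : K)) : ℤ) : ℝ) =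
        (ord (w : Pl K) _ : ℝ) + (ord (w : Pl K) _ : ℝ)
      rw [ord_mul (w : Pl K) (Units.ne_zero _) (Units.ne_zero _), Int.cast_add]
    · change (w.mult : ℝ) * Real.log (w (((Additive.toMul x).1 : K) * ((Additive.toMul y).1 : K))) =
        (w.mult : ℝ) * Real.log (w _) + (w.mult : ℝ) * Real.log (w _)
      rw [map_mul, Real.log_mul (map_ne_zero _ |>.mpr (Units.ne_zero _))
        (map_ne_zero _ |>.mpr (Units.ne_zero _)), mul_add]

/-- The logarithm map is equivariant. -/
lemma unitsLog_equivariant (g : GalQ K) (x : Additive (sUnits K (plsOver K T : Set (Pl K))))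
    (y : (plsOver K T) ⊕ InfinitePlace K) :
    unitsLog K T (unitsQ K T g x) y =
      unitsLog K T x ((sumAct (actT K T) (actInf K) g).symm y) := by
  rcases y with w | w
  · change (ord (w : Pl K) (actK K g _) : ℝ) =
      (ord (((actT K T g).symm w : plsOver K T) : Pl K) _ : ℝ)
    rw [coe_actT_symm, ← ord_smul (actK K g) ((actK K g)⁻¹ • (w : Pl K)), smul_inv_smul]
    rfl
  · change (w.mult : ℝ) * Real.log (w (actK K g _)) =
      ((((actInf K g).symm w).mult : ℕ) : ℝ) * Real.log (((actInf K g).symm w) _)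
    have hm : ((actInf K g).symm w).mult = w.mult := by
      rw [InfinitePlace.mult, InfinitePlace.mult]
      exact if_congr InfinitePlace.isReal_smul_iff rfl rfl
    rw [hm, actInf_symm_apply, InfinitePlace.smul_apply]
    rfl

omit [Normal ℚ ↥K] in
/-- The logarithms of the `T`-units and the vector of the infinite places span everything. -/
lemma span_unitsLog :
    Submodule.span ℝ (insert (Sum.elim (0 : plsOver K T → ℝ) (1 : InfinitePlace K → ℝ))
      (Set.range (unitsLog K T))) =
      (⊤ : Submodule ℝ ((plsOver K T) ⊕ InfinitePlace K → ℝ)) := by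
  classical
  set U := Submodule.span ℝ (insert (Sum.elim (0 : plsOver K T → ℝ) (1 : InfinitePlace K → ℝ))
    (Set.range (unitsLog K T)))
  -- the units
  let P : ((plsOver K T) ⊕ InfinitePlace K → ℝ) →ₗ[ℝ] Units.dirichletUnitTheorem.logSpace K :=
    LinearMap.funLeft ℝ ℝ fun w => Sum.inr w.1
  let U₀ : Submodule ℝ ((plsOver K T) ⊕ InfinitePlace K → ℝ) :=
    Submodule.span ℝ (Set.range fun u => unitsLog K T (unitsToSUnits (plsOver K T) u))
  have hU₀ : U₀ ≤ U := Submodule.span_mono fun _ ⟨u, hu⟩ => Or.inr ⟨_, hu⟩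
  have hsum : ∀ f ∈ U₀, (∀ w, f (Sum.inl w) = 0) ∧ ∑ w, f (Sum.inr w) = 0 := fun f hf => by
    induction hf using Submodule.span_induction with
    | mem f hf =>
      obtain ⟨u, rfl⟩ := hf
      refine ⟨fun w => ?_, Units.sum_mult_mul_log (Additive.toMul u)⟩
      change ((ord (w : Pl K) _ : ℤ) : ℝ) = 0
      exact Int.cast_eq_zero.mpr (ord_unit (w : Pl K) (Additive.toMul u))
    | zero => simp
    | add f g _ _ hf hg => simp [hf.1, hg.1, Finset.sum_add_distrib, hf.2, hg.2]
    | smul c f _ hf => simp [hf.1, ← Finset.mul_sum, hf.2]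
  have hP : U₀.map P = ⊤ := by
    rw [eq_top_iff, ← Units.dirichletUnitTheorem.unitLattice_span_eq_top K, Submodule.map_span,
      Submodule.span_le]
    rintro _ ⟨u, -, rfl⟩
    exact Submodule.subset_span ⟨_, ⟨u, rfl⟩, rfl⟩
  have hinf : ∀ f : InfinitePlace K → ℝ, Sum.elim (0 : plsOver K T → ℝ) f ∈ U := by
    intro f
    set c := (∑ w, f w) / (Fintype.card (InfinitePlace K) : ℝ)
    obtain ⟨s, hs, hPs⟩ := (hP.symm ▸ Submodule.mem_top : (fun w => f w.1 - c) ∈ U₀.map P)
    have key : Sum.elim (0 : plsOver K T → ℝ) f = s + c • Sum.elim (0 : plsOver K T → ℝ) 1 := by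
      have hne : ∀ w : InfinitePlace K, w ≠ Units.dirichletUnitTheorem.w₀ →
          s (Sum.inr w) = f w - c := fun w hw => congrFun hPs ⟨w, hw⟩
      funext i
      rcases i with w | w
      · simp [(hsum s hs).1 w]
      · simp only [Sum.elim_inr, Pi.add_apply, Pi.smul_apply, Pi.one_apply, smul_eq_mul, mul_one]
        by_cases hw : w = Units.dirichletUnitTheorem.w₀
        · subst hw
          have h := (hsum s hs).2
          rw [← Finset.add_sum_erase _ _ (Finset.mem_univ Units.dirichletUnitTheorem.w₀),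
            Finset.sum_congr rfl fun w hw => hne w (Finset.ne_of_mem_erase hw),
            Finset.sum_erase_eq_sub (Finset.mem_univ _), Finset.sum_sub_distrib, Finset.sum_const,
            Finset.card_univ, nsmul_eq_mul, mul_div_cancel₀ _
              (Nat.cast_ne_zero.mpr Fintype.card_ne_zero)] at h
          linarith
        · rw [hne w hw]
          ring
    rw [key]
    exact U.add_mem (hU₀ hs) (U.smul_mem _ (Submodule.subset_span (Or.inl rfl)))
  have hfin : ∀ v : plsOver K T, Sum.elim (Pi.single v (1 : ℝ)) (0 : InfinitePlace K → ℝ) ∈ U := by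
    intro v
    obtain ⟨x, h, hpos, hx0, hxv, hxw⟩ := exists_ord_pow_single (v : Pl K)
    let X : Additive (sUnits K (plsOver K T : Set (Pl K))) :=
      Additive.ofMul ⟨Units.mk0 x hx0, fun w hw => hxw w fun he => hw (he ▸ v.2)⟩
    have key : Sum.elim (Pi.single v (1 : ℝ)) (0 : InfinitePlace K → ℝ) =
        ((h : ℝ))⁻¹ • (unitsLog K T X -
          Sum.elim (0 : plsOver K T → ℝ)
            fun w : InfinitePlace K => (w.mult : ℝ) * Real.log (w x)) := by
      funext i
      rcases i with w | w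
      · change (Pi.single v (1 : ℝ) : plsOver K T → ℝ) w = (h : ℝ)⁻¹ * ((ord (w : Pl K) x : ℝ) - 0)
        rcases eq_or_ne w v with rfl | hne
        · rw [Pi.single_eq_same, hxv, Int.cast_natCast, sub_zero,
            inv_mul_cancel₀ (Nat.cast_ne_zero.mpr hpos.ne')]
        · rw [Pi.single_eq_of_ne hne, hxw _ fun he => hne (Subtype.ext he)]
          simp
      · change (0 : ℝ) = (h : ℝ)⁻¹ *
          ((w.mult : ℝ) * Real.log (w x) - (w.mult : ℝ) * Real.log (w x))
        rw [sub_self, mul_zero]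
    rw [key]
    exact U.smul_mem _ (U.sub_mem (Submodule.subset_span (Or.inr ⟨X, rfl⟩)) (hinf _))
  rw [eq_top_iff]
  intro F _
  have key : F = ∑ v, F (Sum.inl v) • Sum.elim (Pi.single v (1 : ℝ)) (0 : InfinitePlace K → ℝ) +
      Sum.elim (0 : plsOver K T → ℝ) fun w => F (Sum.inr w) := by
    funext i
    rcases i with w | w <;> simp [Pi.single_apply]
  rw [key]
  exact U.add_mem (U.sum_mem fun v _ => U.smul_mem _ (hfin v)) (hinf _)

/-! ### The torsion -/

variable (hT : IsAdmissible p K T)

/-- If `N ∣ p * m` but `N ∤ m`, then `N ∣ x * m` forces `p ∣ x`. -/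
lemma dvd_of_dvd_mul_of_not_dvd {p N m x : ℤ} (hp : Prime p) (hN : N ≠ 0) (hpm : N ∣ p * m)
    (hm : ¬ N ∣ m) (hx : N ∣ x * m) : p ∣ x := by
  obtain ⟨q, hq⟩ : p ∣ N := by
    by_contra h
    exact hm (((hp.coprime_iff_not_dvd.mpr h).symm).dvd_of_dvd_mul_left hpm)
  subst hq
  obtain ⟨r, rfl⟩ : q ∣ m := (mul_dvd_mul_iff_left hp.ne_zero).mp hpm
  rw [mul_comm p q, show x * (q * r) = q * (x * r) by ring,
    mul_dvd_mul_iff_left (right_ne_zero_of_mul hN)] at hx
  refine (hp.dvd_mul.mp hx).resolve_right fun h => hm ?_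
  rw [mul_comm p q]
  exact mul_dvd_mul_left q h

include hT

/-- The torsion of the `T`-units has a generator with nonzero Kummer class, on which Galois acts
by the cyclotomic character. -/
lemma exists_torsion_generator :
    ∃ η : Additive (sUnits K (plsOver K T : Set (Pl K))),
      (∀ x, x ∈ Submodule.torsion ℤ (Additive (sUnits K (plsOver K T : Set (Pl K)))) ↔
        ∃ n : ℤ, n • η = x) ∧ ekum hT η ≠ 0 ∧
      ∀ g, kappa hT g (ekum hT η) = (chiQ hT g : ZMod p) • ekum hT η := by
  set A := Additive (sUnits K (plsOver K T : Set (Pl K)))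
  set tA := Submodule.torsion ℤ A
  have : Finite tA := Module.finite_of_fg_torsion tA (Submodule.torsion_isTorsion)
  let ι : Multiplicative tA →* K :=
    { toFun := fun x => ((Additive.toMul (Multiplicative.toAdd x).1).1 : K)
      map_one' := rfl
      map_mul' := fun x y => rfl }
  have hι : Function.Injective ι := fun x y h => Multiplicative.toAdd.injective (Subtype.ext
    (Additive.toMul.injective (Subtype.ext (Units.ext h))))
  have : IsCyclic (Multiplicative tA) := isCyclic_of_injective_ringHom ι hι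
  obtain ⟨η, hη⟩ := IsCyclic.exists_generator (α := Multiplicative tA)
  set η₀ : A := (Multiplicative.toAdd η).1
  have hgen : ∀ x, x ∈ tA ↔ ∃ n : ℤ, n • η₀ = x := fun x => ⟨fun hx => by
    obtain ⟨n, hn⟩ := Subgroup.mem_zpowers_iff.mp (hη (Multiplicative.ofAdd ⟨x, hx⟩))
    exact ⟨n, congrArg (fun z => (Multiplicative.toAdd z).1) hn⟩, by
    rintro ⟨n, rfl⟩
    exact tA.smul_mem n (Multiplicative.toAdd η).2⟩
  -- the root of unity
  set ζ := hT.root
  have hζ := hT.root_spec
  have hζ0 : ζ ≠ 0 := hζ.ne_zero hp.out.ne_zero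
  have hζS : Units.mk0 ζ hζ0 ∈ sUnits K (plsOver K T : Set (Pl K)) := fun w _ => by
    have h := ord_pow w ζ p
    rw [hζ.pow_eq_one, ord_one] at h
    exact (mul_eq_zero.mp h.symm).resolve_left (by exact_mod_cast hp.out.ne_zero)
  set z : A := Additive.ofMul ⟨_, hζS⟩
  have hpz : (p : ℤ) • z = 0 := by
    rw [natCast_zsmul]
    exact Additive.toMul.injective (Subtype.ext (Units.ext hζ.pow_eq_one))
  obtain ⟨m, hm⟩ := (hgen z).mp ((Submodule.mem_torsion_iff z).mpr
    ⟨⟨p, mem_nonZeroDivisors_of_ne_zero (by exact_mod_cast hp.out.ne_zero)⟩, hpz⟩)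
  have hz0 : z ≠ 0 := fun h => hζ.ne_one hp.out.one_lt
    (congrArg (fun u : A => ((Additive.toMul u).1 : K)) h)
  have hmul : ∀ n : ℤ, n • η₀ = 0 → (addOrderOf η₀ : ℤ) ∣ n := fun n hn =>
    addOrderOf_dvd_iff_zsmul_eq_zero.mpr hn
  have hpos : 0 < addOrderOf η₀ := by
    rw [addOrderOf_pos_iff]
    obtain ⟨c, hc⟩ := (Submodule.mem_torsion_iff η₀).mp ((hgen η₀).mpr ⟨1, one_zsmul _⟩)
    exact isOfFinAddOrder_iff_zsmul_eq_zero.mpr ⟨(c : ℤ), nonZeroDivisors.coe_ne_zero c, hc⟩
  set N : ℤ := ((addOrderOf η₀ : ℕ) : ℤ)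
  have hNm : ¬ N ∣ m := fun h => hz0 (by
    rw [← hm]
    exact addOrderOf_dvd_iff_zsmul_eq_zero.mp h)
  have hpp : Prime (p : ℤ) := Nat.prime_iff_prime_int.mp hp.out
  have hNpm : N ∣ p * m := hmul _ (by rw [mul_zsmul, hm, hpz])
  have hpN : (p : ℤ) ∣ N := by
    by_contra h
    exact hNm (((hpp.coprime_iff_not_dvd.mpr h).symm).dvd_of_dvd_mul_left hNpm)
  refine ⟨η₀, hgen, fun h0 => ?_, fun g => ?_⟩
  · obtain ⟨y, hy⟩ := (ekum_eq_zero_iff hT).mp h0
    have hy' : y ∈ tA := by
      obtain ⟨c, hc⟩ := (Submodule.mem_torsion_iff η₀).mp ((hgen η₀).mpr ⟨1, one_zsmul _⟩)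
      refine (Submodule.mem_torsion_iff y).mpr ⟨c * ⟨p, mem_nonZeroDivisors_of_ne_zero
        (by exact_mod_cast hp.out.ne_zero)⟩, ?_⟩
      change ((c : ℤ) * (p : ℤ)) • y = 0
      rw [mul_zsmul, natCast_zsmul, hy]
      exact hc
    obtain ⟨n, rfl⟩ := (hgen y).mp hy'
    have h1 : N ∣ (p : ℤ) * n - 1 := hmul _ (by
      rw [sub_zsmul, mul_zsmul, natCast_zsmul, hy, one_zsmul, add_neg_cancel])
    exact hpp.not_dvd_one ((dvd_sub_right (dvd_mul_right (p : ℤ) n)).mp (hpN.trans h1))
  · rw [kappa_ekum]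
    obtain ⟨c, hc⟩ := (hgen _).mp (torsion_mem (unitsQ K T) g ((hgen η₀).mpr ⟨1, one_zsmul _⟩))
    rw [← hc, map_zsmul, ← Int.cast_smul_eq_zsmul (ZMod p)]
    congr 1
    obtain ⟨σ, rfl⟩ := QuotientGroup.mk_surjective g
    -- the action on `ζ`
    have h1 : unitsQ K T (σ : GalQ K) z = c • z := by
      rw [← hm, map_zsmul, ← hc, smul_comm]
    have h2 : unitsQ K T (σ : GalQ K) z = ((cycloChar p σ : ZMod p).val : ℤ) • z := by
      rw [natCast_zsmul]
      refine Additive.toMul.injective (Subtype.ext (Units.ext (Subtype.ext ?_)))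
      change ((actK K (σ : GalQ K) ζ : K) : ℚbar) = ((ζ : K) : ℚbar) ^ (cycloChar p σ : ZMod p).val
      rw [coe_actK_mk]
      have : NeZero p := ⟨hp.out.ne_zero⟩
      exact modularCyclotomicCharacter.spec ℚbar (card_rootsOfUnity_eq_self p) (σ : ℚbar ≃+* ℚbar)
        (t := Units.mk0 ((ζ : K) : ℚbar) (fun h => hζ0 (Subtype.ext h)))
        ((mem_rootsOfUnity p _).mpr (Units.ext (congrArg Subtype.val hζ.pow_eq_one)))
    have h3 : N ∣ (c - ((cycloChar p σ : ZMod p).val : ℤ)) * m := hmul _ (by
      rw [mul_zsmul, hm, sub_zsmul, ← h1, h2, add_neg_cancel])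
    have h4 : (p : ℤ) ∣ c - ((cycloChar p σ : ZMod p).val : ℤ) :=
      dvd_of_dvd_mul_of_not_dvd hpp (Int.natCast_ne_zero.mpr hpos.ne') hNpm hNm h3
    rw [chiQ_mk, ← ZMod.natCast_zmod_val (cycloChar p σ : ZMod p), ← Int.cast_natCast,
      ZMod.intCast_eq_intCast_iff_dvd_sub, dvd_sub_comm]
    exact h4

/-! ### The identity -/

/-- **The character of the units.** For additive functions the units class `kappa` plus the trivial
module is the roots of unity plus the permutation modules on the places over `T` and at infinity. -/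
theorem kappa_eq (Φ : RepFun p (GalQ K)) [FiniteDimensional (ZMod p) (KH1 p K T)] :
    Φ.toFun _ (kappa hT) + Φ.toFun (ZMod p) (1 : Representation (ZMod p) (GalQ K) (ZMod p)) =
      Φ.toFun (ZMod p) (charRep (chiQ hT)) + Φ.toFun _ (permRep p (actT K T)) +
        Φ.toFun _ (permRep p (actInf K)) := by
  classical
  obtain ⟨η, hη, hη0, hc⟩ := exists_torsion_generator hT
  rw [add_assoc, ← permRep_sum]
  refine repFun_eq_of_log (unitsQ K T) (kappa hT) (ekum hT) (sumAct (actT K T) (actInf K)) Φ
    (ekum_surjective hT) (fun x => ekum_eq_zero_iff hT) (fun g x => (kappa_ekum hT g x).symm) η hη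
    hη0 _ hc (unitsLog K T) (fun g x y => unitsLog_equivariant g x y)
    (Sum.elim (0 : plsOver K T → ℝ) (1 : InfinitePlace K → ℝ)) (fun g y => ?_) span_unitsLog ?_
  · rcases y with w | w <;> rfl
  · rw [finrank_sUnits, Fintype.card_sum, Fintype.card_coe, add_comm]

end Fermat.CFT.Euler
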