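import Fermat.Agent.CFT.Global.Cover
import Fermat.Agent.CFT.Euler.Projective
import Fermat.Agent.CFT.Euler.Units

/-!
# The defect of the Euler characteristic formula

For a representation of `Gal(K/ℚ)` over `ℤ/p`, the difference between the two sides of Tate's
formula for the cohomology unramified outside `T`; it is additive.
-/

set_option autoImplicit false
set_option linter.unusedSectionVars false

noncomputable section

open Fermat.CFT.Coh
open scoped Pointwise

namespace Fermat.CFT.Euler

local notation "ℚbar" => AlgebraicClosure ℚ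
local notation "Γℚ" => (AlgebraicClosure ℚ ≃ₐ[ℚ] AlgebraicClosure ℚ)

variable {p : ℕ} [hp : Fact p.Prime] {K : IntermediateField ℚ ℚbar} [FiniteDimensional ℚ K]
  [Normal ℚ K] {T : Finset Nat.Primes} {M M' : Type} [AddCommGroup M] [Module (ZMod p) M]
  [FiniteDimensional (ZMod p) M] [AddCommGroup M'] [Module (ZMod p) M']
  [FiniteDimensional (ZMod p) M']

/-- A representation of `Gal(K/ℚ)` as one of the absolute Galois group. -/
def infl (ρ : Representation (ZMod p) (GalQ K) M) : Representation (ZMod p) Γℚ M :=
  ρ.comp (QuotientGroup.mk' K.fixingSubgroup)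

/-- An inflated representation acts through the quotient. -/
lemma infl_apply (ρ : Representation (ZMod p) (GalQ K) M) (g : Γℚ) :
    infl ρ g = ρ (g : GalQ K) := rfl

/-- An inflated representation is trivial on the group fixing `K`. -/
lemma factors_infl (ρ : Representation (ZMod p) (GalQ K) M) : Factors K (infl ρ) := fun n hn => by
  rw [infl_apply, (QuotientGroup.eq_one_iff n).mpr hn, map_one]

variable (K) in
/-- Complex conjugation on `K`. -/
def cQ : GalQ K := ((complexConjugation : Γℚ) : GalQ K)

/-- Complex conjugation is an involution. -/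
lemma cQ_mul_self : cQ K * cQ K = 1 := by
  rw [cQ, ← QuotientGroup.mk_mul, complexConjugation_mul_self, QuotientGroup.mk_one]

/-- The fixed vectors of complex conjugation. -/
def fixC (ρ : Representation (ZMod p) (GalQ K) M) : Submodule (ZMod p) M :=
  LinearMap.ker (ρ (cQ K) - 1)

/-- Membership in the fixed vectors of complex conjugation. -/
lemma mem_fixC {ρ : Representation (ZMod p) (GalQ K) M} {m : M} :
    m ∈ fixC ρ ↔ ρ (cQ K) m = m := by
  rw [fixC, LinearMap.mem_ker, LinearMap.sub_apply, sub_eq_zero, Module.End.one_apply]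

variable (T) in
/-- The defect of the Euler characteristic formula: `h¹ - h⁰ - h² - dim M + dim M^c`, with `c`
complex conjugation. -/
def eu (ρ : Representation (ZMod p) (GalQ K) M) : ℤ :=
  (Module.finrank (ZMod p) (H1 (galLevels (T : Set Nat.Primes)) (infl ρ)) : ℤ) -
    Module.finrank (ZMod p) (H0 (infl ρ)) -
    Module.finrank (ZMod p) (H2 (galLevels (T : Set Nat.Primes)) (infl ρ)) -
    Module.finrank (ZMod p) M + Module.finrank (ZMod p) (fixC ρ)

/-- In an exact sequence the middle dimension is the sum of the two ranks. -/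
lemma finrank_eq_of_exact {A B C : Type} [AddCommGroup A] [Module (ZMod p) A] [AddCommGroup B]
    [Module (ZMod p) B] [FiniteDimensional (ZMod p) B] [AddCommGroup C] [Module (ZMod p) C]
    {f : A →ₗ[ZMod p] B} {g : B →ₗ[ZMod p] C} (h : Function.Exact f g) :
    (Module.finrank (ZMod p) B : ℤ) =
      Module.finrank (ZMod p) (LinearMap.range f) + Module.finrank (ZMod p)
        (LinearMap.range g) := by
  rw [← g.finrank_range_add_finrank_ker, LinearMap.exact_iff.mp h]
  push_cast
  ring

variable (hT : IsAdmissible p K T) (hL : Linked p K T) (h2 : 2 < p)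

include hT hL h2

/-- The defect is additive. -/
theorem eu_add {A B C : Type} [AddCommGroup A] [Module (ZMod p) A] [FiniteDimensional (ZMod p) A]
    [AddCommGroup B] [Module (ZMod p) B] [FiniteDimensional (ZMod p) B] [AddCommGroup C]
    [Module (ZMod p) C] [FiniteDimensional (ZMod p) C]
    (ρA : Representation (ZMod p) (GalQ K) A) (ρB : Representation (ZMod p) (GalQ K) B)
    (ρC : Representation (ZMod p) (GalQ K) C) (f : A →ₗ[ZMod p] B) (g : B →ₗ[ZMod p] C)
    (hf : ∀ s a, f (ρA s a) = ρB s (f a)) (hg : ∀ s b, g (ρB s b) = ρC s (g b))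
    (hinj : Function.Injective f) (hsurj : Function.Surjective g) (hex : Function.Exact f g) :
    eu T ρB = eu T ρA + eu T ρC := by
  let S : SES (galLevels (T : Set Nat.Primes)) (infl ρA) (infl ρB) (infl ρC) :=
    { ι := f, π := g
      ι_eq := fun s a => hf _ a
      π_eq := fun s b => hg _ b
      injective := hinj, surjective := hsurj, exact := hex
      smooth := (factors_infl ρB).smooth hT }
  have hfin : ∀ {N : Type} [AddCommGroup N] [Module (ZMod p) N] [FiniteDimensional (ZMod p) N]
      (σ : Representation (ZMod p) (GalQ K) N),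
      FiniteDimensional (ZMod p) (H1 (galLevels (T : Set Nat.Primes)) (infl σ)) ∧
        FiniteDimensional (ZMod p) (H2 (galLevels (T : Set Nat.Primes)) (infl σ)) := fun σ =>
    have hs := (factors_infl σ).smooth hT
    ⟨finite_H1_of_factors hT hL h2 (DualPair.ofSmooth hT.mem hs) (factors_infl σ),
      finite_H2_of_factors hT hL h2 (DualPair.ofSmooth hT.mem hs) (factors_infl σ)⟩
  have := (hfin ρA).1; have := (hfin ρA).2
  have := (hfin ρB).1; have := (hfin ρB).2
  have := (hfin ρC).1; have := (hfin ρC).2
  have e0B := finrank_eq_of_exact S.exact₀B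
  have e0C := finrank_eq_of_exact S.exact₀C
  have e1A := finrank_eq_of_exact S.exact₁A
  have e1B := finrank_eq_of_exact S.exact₁B
  have e1C := finrank_eq_of_exact S.exact₁C
  have e2A := finrank_eq_of_exact S.exact₂A
  have e2B := finrank_eq_of_exact S.exact₂B
  rw [LinearMap.finrank_range_of_inj S.ι₀_injective] at e0B
  rw [LinearMap.range_eq_top.mpr (π₂_surjective_of_factors hT hL h2 S (factors_infl ρB)),
    finrank_top] at e2B
  have hd : Module.finrank (ZMod p) B = Module.finrank (ZMod p) A + Module.finrank (ZMod p) C := by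
    rw [← g.finrank_range_add_finrank_ker, LinearMap.exact_iff.mp hex,
      LinearMap.range_eq_top.mpr hsurj, finrank_top, LinearMap.finrank_range_of_inj hinj, add_comm]
  -- the fixed vectors of complex conjugation
  have h20 : (2 : ZMod p) ≠ 0 := fun h => by
    have := (ZMod.natCast_eq_zero_iff 2 p).mp (by exact_mod_cast h)
    exact absurd (Nat.le_of_dvd two_pos this) (by omega)
  let fF : fixC ρA →ₗ[ZMod p] fixC ρB := f.restrict fun a ha =>
    mem_fixC.mpr (by rw [← hf, mem_fixC.mp ha])
  let gF : fixC ρB →ₗ[ZMod p] fixC ρC := g.restrict fun b hb =>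
    mem_fixC.mpr (by rw [← hg, mem_fixC.mp hb])
  have hfF : Function.Injective fF := fun a b h => Subtype.ext (hinj (congrArg Subtype.val h))
  have hgF : Function.Surjective gF := fun c => by
    obtain ⟨b, hb⟩ := hsurj c.1
    refine ⟨⟨(2 : ZMod p)⁻¹ • (b + ρB (cQ K) b), mem_fixC.mpr ?_⟩, Subtype.ext ?_⟩
    · rw [map_smul, map_add, ← Module.End.mul_apply, ← map_mul, cQ_mul_self, map_one,
        Module.End.one_apply, add_comm]
    · change g ((2 : ZMod p)⁻¹ • (b + ρB (cQ K) b)) = c.1
      rw [map_smul, map_add, hg, hb, mem_fixC.mp c.2, ← two_smul (ZMod p) (c : C),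
        inv_smul_smul₀ h20]
  have heF : Function.Exact fF gF := fun b => by
    refine ⟨fun h => ?_, ?_⟩
    · obtain ⟨a, ha⟩ := (hex b.1).mp (congrArg Subtype.val h)
      refine ⟨⟨a, mem_fixC.mpr (hinj ?_)⟩, Subtype.ext ha⟩
      rw [hf, ha, mem_fixC.mp b.2]
    · rintro ⟨a, rfl⟩
      exact Subtype.ext (hex.apply_apply_eq_zero _)
  have hc := finrank_eq_of_exact heF
  rw [LinearMap.finrank_range_of_inj hfF, LinearMap.range_eq_top.mpr hgF, finrank_top] at hc
  simp only [eu]
  omega

omit hT hL h2 in
/-- The invariants of an inflated representation are those of the representation. -/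
lemma finrank_H0_infl (ρ : Representation (ZMod p) (GalQ K) M) :
    Module.finrank (ZMod p) (H0 (infl ρ)) = Module.finrank (ZMod p) ρ.invariants := by
  refine LinearEquiv.finrank_eq (LinearEquiv.ofEq _ _ ?_)
  ext m
  rw [mem_ker_d₀, Representation.mem_invariants]
  refine ⟨fun h g => ?_, fun h g => h _⟩
  obtain ⟨s, rfl⟩ := QuotientGroup.mk_surjective g
  exact h s

end Fermat.CFT.Euler
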