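import Fermat.Agent.CFT.Euler.ProjH1

/-!
# The Euler characteristic of a projective module

All the terms of Tate's formula for a projective module are dimensions of equivariant maps from
its twisted dual, so the formula follows from the character of the units.
-/

set_option autoImplicit false

noncomputable section

open NumberField ExtCitation Fermat.CFT.Coh
open scoped Pointwise Classical

namespace Fermat.CFT.Euler

local notation "ℚbar" => AlgebraicClosure ℚ
local notation "Γℚ" => (AlgebraicClosure ℚ ≃ₐ[ℚ] AlgebraicClosure ℚ)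

variable {p : ℕ} [hp : Fact p.Prime] {K : IntermediateField ℚ ℚbar} [FiniteDimensional ℚ K]
  [Normal ℚ K] {T : Finset Nat.Primes}

/-! ### Degree two -/

/-- The dimensions of `H²(ρ)` and `H⁰(ρ')` add up to that of the kernel of `loc₁` for `ρ'` plus
those of `H⁰(ρ')` at the places of `T`. -/
theorem finrank_H2_add {M M' : Type} [AddCommGroup M] [Module (ZMod p) M]
    [FiniteDimensional (ZMod p) M] [AddCommGroup M'] [Module (ZMod p) M']
    [FiniteDimensional (ZMod p) M'] {ρ : Representation (ZMod p) Γℚ M}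
    {ρ' : Representation (ZMod p) Γℚ M'} (hT : IsAdmissible p K T) (hL : Linked p K T)
    (h2 : 2 < p) (D : DualPair T ρ ρ') (hρ : Factors K ρ) :
    Module.finrank (ZMod p) (H2 (galLevels (T : Set Nat.Primes)) ρ) +
        Module.finrank (ZMod p) (H0 ρ') =
      Module.finrank (ZMod p) (LinearMap.ker (loc₁ T ρ')) +
        ∑ v : T, Module.finrank (ZMod p) (H0 (repAt (v : Nat.Primes) ρ')) := by
  have := finite_H2_of_factors hT hL h2 D hρ
  have : ∀ v : T, FiniteDimensional (ZMod p) (LH2 (v : Nat.Primes) ρ) :=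
    fun v => D.finite_LH2 h2 v
  have h1 := (loc₂ T ρ).finrank_range_add_finrank_ker
  rw [finrank_sha_eq hT hL h2 D hρ, range_loc₂_of_factors hT hL h2 D hρ] at h1
  have h3 := Devissage.finrank_perp (LinearMap.flip_bijective_iff₁.mpr (D.Q₂_bijective h2))
    (LinearMap.range (loc₀ T ρ'))
  rw [LinearMap.finrank_range_of_inj (loc₀_injective ⟨_, hT.mem⟩)] at h3
  have h4 : Module.finrank (ZMod p) (P0 T ρ') =
      ∑ v : T, Module.finrank (ZMod p) (H0 (repAt (v : Nat.Primes) ρ')) :=
    Module.finrank_pi_fintype (ZMod p)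
  omega

/-! ### Invariants -/

/-- Equivariantly isomorphic modules have invariants of the same dimension. -/
lemma finrank_invariants_congr {G V W : Type} [Group G] [AddCommGroup V] [Module (ZMod p) V]
    [AddCommGroup W] [Module (ZMod p) W] {ρ : Representation (ZMod p) G V}
    {σ : Representation (ZMod p) G W} (f : V ≃ₗ[ZMod p] W)
    (hf : ∀ g v, f (ρ g v) = σ g (f v)) :
    Module.finrank (ZMod p) ρ.invariants = Module.finrank (ZMod p) σ.invariants := by
  rw [← f.finrank_map_eq ρ.invariants]
  suffices h : ρ.invariants.map (f : V →ₗ[ZMod p] W) = σ.invariants by rw [h]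
  ext w
  obtain ⟨v, rfl⟩ := f.surjective w
  rw [Submodule.mem_map_equiv, f.symm_apply_apply, Representation.mem_invariants,
    Representation.mem_invariants]
  exact forall_congr' fun g => by rw [← hf, f.injective.eq_iff]

variable {V : Type} [AddCommGroup V] [Module (ZMod p) V] [FiniteDimensional (ZMod p) V]
  (ρ : Representation (ZMod p) (GalQ K) V) (hT : IsAdmissible p K T)

/-- The value on the character is the invariants. -/
lemma homFun_chi (h : IsProj (dualRep (chiQ hT) ρ)) :
    (homFun _ h).toFun (ZMod p) (charRep (chiQ hT)) = Module.finrank (ZMod p) ρ.invariants := by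
  rw [homFun_apply]
  exact congrArg _ (finrank_invariants_congr (Module.evalEquiv (ZMod p) V) fun g v =>
    LinearMap.ext fun φ => by
      change φ (ρ g v) = (chiQ hT g : ZMod p) * ((chiQ hT g⁻¹ : (ZMod p)ˣ) * φ (ρ g⁻¹⁻¹ v))
      rw [inv_inv, ← mul_assoc, ← Units.val_mul, ← map_mul, mul_inv_cancel, map_one, Units.val_one,
        one_mul]).symm

/-- The value on the trivial representation is the invariants of the dual. -/
lemma homFun_one (hP : IsProj ρ) :
    (homFun _ (hP.dualRep (chiQ hT))).toFun (ZMod p)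
        (1 : Representation (ZMod p) (GalQ K) (ZMod p)) =
      Module.finrank (ZMod p) (dualRep (chiQ hT) ρ).invariants := by
  rw [homFun_apply, ← (hP.dualRep (chiQ hT)).finrank_invariants_dual]
  exact congrArg _ (finrank_invariants_congr (LinearEquiv.refl _ _) fun g φ =>
    LinearMap.ext fun x => rfl)

/-- Equivariant maps into a permutation module. -/
lemma finrank_linHom_permRep {G W Y : Type} [Group G] [Finite G] [Fintype Y] [DecidableEq Y]
    [AddCommGroup W] [Module (ZMod p) W] (σ : Representation (ZMod p) G W) (a : G →* Equiv.Perm Y) :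
    Module.finrank (ZMod p) (Representation.linHom σ (permRep p a)).invariants =
      Module.finrank (ZMod p) (funRep a σ.dual).invariants := by
  refine finrank_invariants_congr
    (LinearEquiv.ofBijective (LinearMap.pi fun y => LinearMap.compRight (ZMod p)
      (LinearMap.proj (R := ZMod p) (φ := fun _ : Y => ZMod p) y) :
        (W →ₗ[ZMod p] Y → ZMod p) →ₗ[ZMod p] Y → Module.Dual (ZMod p) W) ⟨fun φ ψ h =>
      LinearMap.ext fun w => funext fun y => LinearMap.congr_fun (congrFun h y) w,
      fun f => ⟨LinearMap.pi f, rfl⟩⟩) fun g φ => funext fun y => LinearMap.ext fun w => ?_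
  change permRep p a g (φ (σ g⁻¹ w)) y = φ (σ g⁻¹ w) ((a g).symm y)
  rw [permRep_apply]

/-- Even powers of complex conjugation are trivial. -/
lemma cQ_zpow_add_self (m : ℤ) : cQ K ^ (m + m) = 1 := by
  rw [← two_mul, zpow_mul, show cQ K ^ (2 : ℤ) = 1 by rw [zpow_ofNat, pow_two, cQ_mul_self],
    one_zpow]

/-- The place below the chosen place over `v`. -/
def plAt (v : T) : plsOver K T :=
  ⟨plBelow K (v : Nat.Primes).2 (placeAt_spec (v : Nat.Primes)),
    mem_plsOver.mpr (by rw [resChar_plBelow]; exact v.2)⟩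

/-- The stabiliser of the chosen place over `v` is the image of the decomposition group. -/
lemma actT_plAt_eq_iff (v : T) (g : GalQ K) :
    actT K T g (plAt v) = plAt v ↔
      g ∈ (decAt (v : Nat.Primes)).map (QuotientGroup.mk' K.fixingSubgroup) := by
  obtain ⟨σ, rfl⟩ := QuotientGroup.mk_surjective g
  have h0 : ((actT K T (σ : GalQ K) (plAt v) : plsOver K T) : Pl K) =
      plBelow K (v : Nat.Primes).2 (liesOverPrime_smul σ (placeAt_spec (v : Nat.Primes))) := by
    rw [coe_actT, actK_mk]
    exact (plBelow_smul (v : Nat.Primes).2 (placeAt_spec (v : Nat.Primes)) σ).symm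
  constructor
  · intro h
    obtain ⟨n, hn, hnA⟩ := exists_smul_of_plBelow_eq (K := K) (v : Nat.Primes).2
      (placeAt_spec (v : Nat.Primes)) (liesOverPrime_smul σ (placeAt_spec (v : Nat.Primes)))
      ((congrArg Subtype.val h).symm.trans h0)
    refine ⟨n⁻¹ * σ, MulAction.mem_stabilizer_iff.mpr ?_, ?_⟩
    · rw [mul_smul, ← hnA, inv_smul_smul]
    · change ((n⁻¹ * σ : Γℚ) : GalQ K) = (σ : GalQ K)
      rw [QuotientGroup.mk_mul, (QuotientGroup.eq_one_iff _).mpr (inv_mem hn), one_mul]
  · rintro ⟨d, hd, hdσ⟩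
    rw [show (σ : GalQ K) = (d : GalQ K) from hdσ.symm]
    refine Subtype.ext ?_
    rw [coe_actT, actK_mk]
    change AlgEquiv.restrictNormalHom K d • plBelow K (v : Nat.Primes).2 (placeAt_spec _) = _
    rw [← plBelow_smul (v : Nat.Primes).2 (placeAt_spec _) d]
    exact plBelow_congr (v : Nat.Primes).2 (v : Nat.Primes).2 _ (placeAt_spec _)
      (MulAction.mem_stabilizer_iff.mp hd)

variable (K) in
omit [FiniteDimensional ℚ ↥K] in
/-- Every automorphism of `K` comes from the absolute Galois group. -/
lemma actK_surjective : Function.Surjective (actK K) := fun g => by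
  obtain ⟨σ, rfl⟩ := AlgEquiv.restrictNormalHom_surjective (F := ℚ) (E := ℚbar) (K₁ := K) g
  exact ⟨(σ : GalQ K), rfl⟩

variable (K) in
omit [FiniteDimensional ℚ ↥K] in
/-- `Gal(K/ℚ)` acts faithfully on `K`. -/
lemma actK_injective : Function.Injective (actK K) := by
  refine (injective_iff_map_eq_one _).mpr fun g hg => ?_
  obtain ⟨σ, rfl⟩ := QuotientGroup.mk_surjective g
  exact (QuotientGroup.eq_one_iff σ).mpr ((restrict_eq_one_iff K σ).mp hg)

/-- The value on the places over `T`. -/
lemma homFun_actT (hP : IsProj ρ) :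
    (homFun _ (hP.dualRep (chiQ hT))).toFun _ (permRep p (actT K T)) =
      ∑ v : T, Module.finrank (ZMod p)
        (H0 (repAt (v : Nat.Primes) (infl (dualRep (chiQ hT) ρ)))) := by
  rw [homFun_apply, finrank_linHom_permRep,
    finrank_invariants_funRep (actT K T) _ (ι := T)
      (fun w => ⟨resChar (w : Pl K), mem_plsOver.mp w.2⟩) (fun v => plAt v)
      (fun v => Subtype.ext (resChar_plBelow (placeAt_spec (v : Nat.Primes))))
      (fun g w => Subtype.ext (resChar_smul _ _)) (fun w => ?_)
      (fun v => (decAt (v : Nat.Primes)).map (QuotientGroup.mk' K.fixingSubgroup))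
      fun v g => (actT_plAt_eq_iff v g).symm]
  · push_cast
    refine Finset.sum_congr rfl fun v _ => congrArg _ ?_
    set H := (decAt (v : Nat.Primes)).map (QuotientGroup.mk' K.fixingSubgroup)
    rw [show ((dualRep (chiQ hT) ρ).dual.comp H.subtype) =
        Representation.dual ((dualRep (chiQ hT) ρ).comp H.subtype) from MonoidHom.ext fun h => rfl,
      ((hP.dualRep (chiQ hT)).restrict H).finrank_invariants_dual]
    refine LinearEquiv.finrank_eq (LinearEquiv.ofEq _ _ ?_)
    ext m
    rw [mem_ker_d₀, Representation.mem_invariants]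
    refine ⟨fun h d => h ⟨_, ⟨d, d.2, rfl⟩⟩, ?_⟩
    rintro h ⟨_, d, hd, rfl⟩
    exact h ⟨d, hd⟩
  · obtain ⟨g, hg⟩ := exists_smul_eq_of_resChar_eq (v := (plAt (K := K) (T := T)
      ⟨resChar (w : Pl K), mem_plsOver.mp w.2⟩ :
        Pl K)) (w := (w : Pl K)) (resChar_plBelow (placeAt_spec (resChar (w : Pl K))))
    obtain ⟨q, rfl⟩ := actK_surjective K g
    exact ⟨q, Subtype.ext hg⟩

variable (K) in
/-- The place at infinity of the chosen embedding. -/
def infAt : InfinitePlace K :=
  InfinitePlace.mk ((complexEmbedding : ℚbar →ₐ[ℚ] ℂ).toRingHom.comp K.val.toRingHom)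

/-- The stabiliser of the chosen infinite place is generated by complex conjugation. -/
lemma actInf_infAt_eq_iff (g : GalQ K) :
    actInf K g (infAt K) = infAt K ↔ g ∈ Subgroup.zpowers (cQ K) := by
  set φ := (complexEmbedding : ℚbar →ₐ[ℚ] ℂ).toRingHom.comp K.val.toRingHom
  have hconj : ComplexEmbedding.IsConj φ (actK K (cQ K)) := RingHom.ext fun x => by
    change star (φ x) = complexEmbedding ((actK K (cQ K) x : K) : ℚbar)
    rw [cQ, coe_actK_mk, complexEmbedding_complexConjugation]
    rfl
  have hst : actK K g ∈ MulAction.stabilizer (K ≃ₐ[ℚ] K) (InfinitePlace.mk φ) ↔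
      actInf K g (infAt K) = infAt K := MulAction.mem_stabilizer_iff
  rw [← hst, InfinitePlace.mem_stabilizer_mk_iff]
  constructor
  · rintro (h | h)
    · rw [show g = 1 from actK_injective K (h.trans (map_one _).symm)]
      exact one_mem _
    · rw [show g = cQ K from actK_injective K (ComplexEmbedding.IsConj.ext h hconj)]
      exact Subgroup.mem_zpowers _
  · intro h
    obtain ⟨n, rfl⟩ := Subgroup.mem_zpowers_iff.mp h
    rcases Int.even_or_odd n with ⟨m, rfl⟩ | ⟨m, rfl⟩
    · left
      rw [cQ_zpow_add_self, map_one]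
    · right
      rw [two_mul, zpow_add, cQ_zpow_add_self, one_mul, zpow_one]
      exact hconj

/-- The value on the infinite places. -/
lemma homFun_actInf (h2 : 2 < p) (hP : IsProj ρ) :
    (homFun _ (hP.dualRep (chiQ hT))).toFun _ (permRep p (actInf K)) +
      Module.finrank (ZMod p) (fixC ρ) = Module.finrank (ZMod p) V := by
  rw [homFun_apply, finrank_linHom_permRep,
    finrank_invariants_funRep (actInf K) _ (ι := Unit) (fun _ => ()) (fun _ => infAt K)
      (fun _ => rfl) (fun _ _ => rfl) (fun w => ?_) (fun _ => Subgroup.zpowers (cQ K))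
      fun _ g => (actInf_infAt_eq_iff g).symm]
  · set τ := (dualRep (chiQ hT) ρ).dual
    set E := Module.evalEquiv (ZMod p) V
    -- on the double dual conjugation acts by minus its action on `V`
    have hτ : ∀ v, τ (cQ K) (E v) = - E (ρ (cQ K) v) := fun v => LinearMap.ext fun φ => by
      change ((chiQ hT (cQ K)⁻¹ : (ZMod p)ˣ) : ZMod p) * φ (ρ (cQ K)⁻¹⁻¹ v) = -φ (ρ (cQ K) v)
      rw [inv_inv, show (cQ K)⁻¹ = cQ K from inv_eq_of_mul_eq_one_right cQ_mul_self, cQ, chiQ_mk,
        Fermat.CFT.cycloChar_complexConjugation, neg_one_mul]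
    set P := LinearMap.ker (ρ (cQ K) + 1)
    have hinv : Representation.invariants (τ.comp (Subgroup.zpowers (cQ K)).subtype) =
        P.map (E : V →ₗ[ZMod p] Module.Dual (ZMod p) (Module.Dual (ZMod p) V)) := by
      ext w
      obtain ⟨v, rfl⟩ := E.surjective w
      rw [Submodule.mem_map_equiv, E.symm_apply_apply, Representation.mem_invariants]
      have hP' : v ∈ P ↔ τ (cQ K) (E v) = E v := by
        rw [hτ, ← map_neg, E.injective.eq_iff, LinearMap.mem_ker, LinearMap.add_apply,
          Module.End.one_apply, add_eq_zero_iff_eq_neg, neg_eq_iff_eq_neg]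
      rw [hP']
      refine ⟨fun h => h ⟨_, Subgroup.mem_zpowers _⟩, fun h => ?_⟩
      rintro ⟨_, n, rfl⟩
      have hcs : ∀ m : ℤ, τ (cQ K ^ (m + m)) = 1 := fun m => by
        rw [cQ_zpow_add_self, map_one]
      change τ (cQ K ^ n) (E v) = E v
      rcases Int.even_or_odd n with ⟨m, rfl⟩ | ⟨m, rfl⟩
      · rw [hcs, Module.End.one_apply]
      · rw [two_mul, zpow_add, map_mul, hcs, one_mul, zpow_one, h]
    rw [Fintype.sum_unique, hinv, LinearEquiv.finrank_map_eq]
    have h20 : (2 : ZMod p) ≠ 0 := fun h => by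
      have := (ZMod.natCast_eq_zero_iff 2 p).mp (by exact_mod_cast h)
      exact absurd (Nat.le_of_dvd two_pos this) (by omega)
    have hc2 : ∀ v, ρ (cQ K) (ρ (cQ K) v) = v := fun v => by
      rw [← Module.End.mul_apply, ← map_mul, cQ_mul_self, map_one, Module.End.one_apply]
    -- as `p` is odd, `V` is the sum of the two eigenspaces
    have hcompl : IsCompl P (fixC ρ) := by
      constructor
      · rw [Submodule.disjoint_def]
        intro v hv hv'
        rw [LinearMap.mem_ker, LinearMap.add_apply, mem_fixC.mp hv', Module.End.one_apply,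
          ← two_smul (ZMod p) v] at hv
        exact (smul_eq_zero.mp hv).resolve_left h20
      · refine codisjoint_iff.mpr (eq_top_iff.mpr fun v _ => Submodule.mem_sup.mpr
          ⟨(2 : ZMod p)⁻¹ • (v - ρ (cQ K) v), ?_, (2 : ZMod p)⁻¹ • (v + ρ (cQ K) v), ?_, ?_⟩)
        · rw [LinearMap.mem_ker, LinearMap.add_apply, map_smul, map_sub, hc2,
            Module.End.one_apply, ← smul_add, sub_add_sub_cancel, sub_self, smul_zero]
        · rw [mem_fixC, map_smul, map_add, hc2, add_comm]
        · rw [← smul_add, sub_add_add_cancel, ← two_smul (ZMod p) v, inv_smul_smul₀ h20]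
    exact_mod_cast Submodule.finrank_add_eq_of_isCompl hcompl
  · obtain ⟨g, hg⟩ := InfinitePlace.exists_smul_eq_of_comap_eq (k := ℚ) (w := infAt K) (w' := w)
      (Subsingleton.elim _ _)
    obtain ⟨q, rfl⟩ := actK_surjective K g
    exact ⟨q, hg⟩

include hT in
/-- **The formula for projective modules.** -/
theorem eu_eq_zero_of_isProj (hL : Linked p K T) (h2 : 2 < p) (hP : IsProj ρ) : eu T ρ = 0 := by
  have := finite_KH1 hT
  have : FiniteDimensional (ZMod p) (KH1 p K T) := Module.Finite.of_finite
  set Φ := homFun _ (hP.dualRep (chiQ hT))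
  have e1 := kappa_eq hT Φ
  rw [homFun_chi, homFun_one ρ hT hP, homFun_actT ρ hT hP, homFun_apply] at e1
  have e2 : Φ.toFun _ (permRep p (actInf K)) + Module.finrank (ZMod p) (fixC ρ) =
      Module.finrank (ZMod p) V := homFun_actInf ρ hT h2 hP
  have hs := (factors_infl ρ).smooth hT
  have e3 := finrank_H2_add hT hL h2 (DualPair.ofSmooth hT.mem hs) (factors_infl ρ)
  have hd : dualRep (cycloChar p) (infl ρ) = infl (dualRep (chiQ hT) ρ) :=
    MonoidHom.ext fun g => LinearMap.ext fun φ => LinearMap.ext fun v => by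
      change _ = ((chiQ hT (g : GalQ K) : (ZMod p)ˣ) : ZMod p) * φ (ρ (g : GalQ K)⁻¹ v)
      rw [chiQ_mk, dualRep_apply, infl_apply, QuotientGroup.mk_inv]
  rw [hd, finrank_H0_infl] at e3
  rw [LinearMap.ker_eq_bot.mpr (loc₁_injective_of_isProj _ hT h2 (hP.dualRep (chiQ hT))),
    finrank_bot, zero_add] at e3
  rw [eu, finrank_H1_of_isProj ρ hT hP, finrank_H0_infl]
  omega

end Fermat.CFT.Euler
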