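import Fermat.Agent.CFT.Euler.Artin
import Fermat.Agent.CFT.Euler.ProjEuler

/-!
# Tate's Euler characteristic formula

Artin induction and a filtration for cyclic subgroups of order divisible by `p` reduce the formula
to projective modules.
-/

set_option autoImplicit false

noncomputable section

open scoped Pointwise Classical

namespace Fermat.CFT.Euler

local notation "ℚbar" => AlgebraicClosure ℚ

/-! ### Induction from a subgroup of index `p` in a cyclic one -/

section Step

variable {p : ℕ} [hp : Fact p.Prime] {G : Type} [Group G] [Fintype G]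
  {M : Type} [AddCommGroup M] [Module (ZMod p) M] [FiniteDimensional (ZMod p) M]

/-- The dimension of a space of functions. -/
lemma finrank_fun {X : Type} [Fintype X] :
    Module.finrank (ZMod p) (X → M) = Fintype.card X * Module.finrank (ZMod p) M := by
  rw [Module.finrank_pi_fintype, Finset.sum_const, Finset.card_univ, smul_eq_mul]

omit [Fintype G] in
/-- An additive function on a range of a power of a commuting nilpotent map, by its kernel part
and the next range; likewise for dimensions. -/
theorem repFun_range_pow_step (Φ : RepFun p G) {V : Type} [AddCommGroup V] [Module (ZMod p) V]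
    [FiniteDimensional (ZMod p) V] (τ : Representation (ZMod p) G V) (δ : Module.End (ZMod p) V)
    (hδ : ∀ g f, δ (τ g f) = τ g (δ f))
    (hW : ∀ k, ∀ g, ∀ f ∈ LinearMap.range (δ ^ k), τ g f ∈ LinearMap.range (δ ^ k)) (k : ℕ)
    (hS : ∀ g, ∀ f ∈ LinearMap.range (δ ^ k) ⊓ LinearMap.ker δ,
      τ g f ∈ LinearMap.range (δ ^ k) ⊓ LinearMap.ker δ) :
    Φ.toFun _ (subRep τ _ (hW k)) =
        Φ.toFun _ (subRep τ _ hS) + Φ.toFun _ (subRep τ _ (hW (k + 1))) ∧
      Module.finrank (ZMod p) (LinearMap.range (δ ^ k)) =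
        Module.finrank (ZMod p) ↥(LinearMap.range (δ ^ k) ⊓ LinearMap.ker δ) +
          Module.finrank (ZMod p) (LinearMap.range (δ ^ (k + 1))) := by
  let g : LinearMap.range (δ ^ k) →ₗ[ZMod p] LinearMap.range (δ ^ (k + 1)) :=
    δ.restrict fun f hf => by
      obtain ⟨h, rfl⟩ := hf
      exact ⟨h, by rw [pow_succ', Module.End.mul_apply]⟩
  have hg : Function.Surjective g := by
    rintro ⟨_, h, rfl⟩
    exact ⟨⟨(δ ^ k) h, h, rfl⟩, Subtype.ext (by
      change δ ((δ ^ k) h) = (δ ^ (k + 1)) h
      rw [pow_succ', Module.End.mul_apply])⟩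
  have hex : Function.Exact
      (Submodule.inclusion (inf_le_left : LinearMap.range (δ ^ k) ⊓ LinearMap.ker δ ≤ _)) g :=
    fun f => ⟨fun h => ⟨⟨f.1, f.2, LinearMap.mem_ker.mpr (congrArg Subtype.val h)⟩, rfl⟩, by
      rintro ⟨a, rfl⟩
      exact Subtype.ext (LinearMap.mem_ker.mp a.2.2)⟩
  refine ⟨Φ.add _ _ _ _ g (fun _ _ => rfl) (fun t f => Subtype.ext (hδ t f.1))
    (Submodule.inclusion_injective _) hg hex, ?_⟩
  rw [← g.finrank_range_add_finrank_ker, LinearMap.exact_iff.mp hex,
    LinearMap.range_eq_top.mpr hg, finrank_top,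
    LinearMap.finrank_range_of_inj (Submodule.inclusion_injective _), add_comm]

omit hp in
/-- A map killed by its `n`-th power whose kernel has `1 / n` of the dimension has its kernel in
all the ranges of the smaller powers. -/
theorem range_pow_inf_ker_eq {F V : Type} [Field F] [AddCommGroup V] [Module F V]
    [FiniteDimensional F V] {δ : Module.End F V} {n : ℕ} (hn : δ ^ n = 0)
    (hdim : Module.finrank F V = n * Module.finrank F (LinearMap.ker δ)) {k : ℕ} (hk : k < n) :
    LinearMap.range (δ ^ k) ⊓ LinearMap.ker δ = LinearMap.ker δ := by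
  set W : ℕ → Submodule F V := fun k => LinearMap.range (δ ^ k) with hWdef
  set d := Module.finrank F (LinearMap.ker δ)
  have hstep : ∀ k, Module.finrank F (W k) =
      Module.finrank F ↥(W k ⊓ LinearMap.ker δ) + Module.finrank F (W (k + 1)) := fun k => by
    have h1 := (δ.domRestrict (W k)).finrank_range_add_finrank_ker
    rw [LinearMap.range_domRestrict, LinearMap.ker_domRestrict,
      (Submodule.equivMapOfInjective (W k).subtype (W k).injective_subtype _).finrank_eq,
      Submodule.map_comap_subtype] at h1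
    rw [show W (k + 1) = (W k).map δ by
      simp only [hWdef]; rw [pow_succ', Module.End.mul_eq_comp, LinearMap.range_comp]]
    omega
  have h0 : Module.finrank F (W 0) = n * d := by
    rw [show W 0 = ⊤ from eq_top_iff.mpr fun f _ => ⟨f, rfl⟩, finrank_top, hdim]
  have hn0 : Module.finrank F (W n) = 0 := by
    rw [show W n = ⊥ from LinearMap.range_eq_bot.mpr hn, finrank_bot]
  -- each step drops the dimension by at most `d`, and `n` steps by all of `n d`
  have hlow : ∀ k, n * d ≤ Module.finrank F (W k) + k * d := by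
    intro k
    induction k with
    | zero => omega
    | succ k ih =>
      have := hstep k
      have := Submodule.finrank_mono (inf_le_right : W k ⊓ LinearMap.ker δ ≤ LinearMap.ker δ)
      rw [Nat.succ_mul]
      omega
  have hup : ∀ j ≤ n, Module.finrank F (W (n - j)) ≤ j * d := by
    intro j
    induction j with
    | zero => intro _; rw [Nat.sub_zero, hn0]; simp
    | succ j ih =>
      intro hj
      have e := hstep (n - (j + 1))
      rw [show n - (j + 1) + 1 = n - j by omega] at e
      have := ih (by omega)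
      have := Submodule.finrank_mono
        (inf_le_right : W (n - (j + 1)) ⊓ LinearMap.ker δ ≤ LinearMap.ker δ)
      rw [Nat.succ_mul]
      omega
  have e := hstep k
  have h1 := hlow k
  have h2 := hup (n - (k + 1)) (Nat.sub_le _ _)
  rw [show n - (n - (k + 1)) = k + 1 by omega] at h2
  have h3 : (n - (k + 1)) * d + k * d + d = n * d := by
    rw [← Nat.add_mul, ← Nat.succ_mul]
    congr 1
    omega
  exact Submodule.eq_of_le_of_finrank_le inf_le_right
    (show d ≤ Module.finrank F ↥(W k ⊓ LinearMap.ker δ) by omega)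

omit [Fintype G] in
/-- An additive function on a space with a commuting map killed by its `p`-th power whose kernel
has `1 / p` of the dimension is `p` times its value on the kernel. -/
theorem repFun_eq_mul_ker (Φ : RepFun p G) {V : Type} [AddCommGroup V] [Module (ZMod p) V]
    [FiniteDimensional (ZMod p) V] (τ : Representation (ZMod p) G V) (δ : Module.End (ZMod p) V)
    (hδ : ∀ g f, δ (τ g f) = τ g (δ f)) (hK : ∀ g, ∀ f ∈ LinearMap.ker δ, τ g f ∈ LinearMap.ker δ)
    (hδp : δ ^ p = 0)
    (hdim : Module.finrank (ZMod p) V = p * Module.finrank (ZMod p) (LinearMap.ker δ)) :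
    Φ.toFun V τ = p * Φ.toFun _ (subRep τ (LinearMap.ker δ) hK) := by
  have hW : ∀ k, ∀ g, ∀ f ∈ LinearMap.range (δ ^ k), τ g f ∈ LinearMap.range (δ ^ k) := by
    rintro k g _ ⟨f, rfl⟩
    refine ⟨τ g f, ?_⟩
    induction k with
    | zero => rfl
    | succ k ih => rw [pow_succ', Module.End.mul_apply, Module.End.mul_apply, ih, hδ]
  have hsum : ∀ k ≤ p, Φ.toFun (LinearMap.range (δ ^ 0)) (subRep τ _ (hW 0)) =
      k * Φ.toFun _ (subRep τ (LinearMap.ker δ) hK) +
        Φ.toFun (LinearMap.range (δ ^ k)) (subRep τ _ (hW k)) := by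
    intro k
    induction k with
    | zero => intro _; simp
    | succ k ih =>
      intro hk
      have hS : ∀ g, ∀ f ∈ LinearMap.range (δ ^ k) ⊓ LinearMap.ker δ,
          τ g f ∈ LinearMap.range (δ ^ k) ⊓ LinearMap.ker δ :=
        fun g f hf => ⟨hW k g f hf.1, hK g f hf.2⟩
      have hcongr : Φ.toFun _ (subRep τ _ hS) = Φ.toFun _ (subRep τ (LinearMap.ker δ) hK) :=
        Φ.congr_of_bijective (Submodule.inclusion inf_le_right) (fun _ _ => rfl)
          ⟨Submodule.inclusion_injective _, fun f =>
            ⟨⟨f.1, (range_pow_inf_ker_eq hδp hdim (by omega : k < p)).symm ▸ f.2⟩, rfl⟩⟩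
      rw [ih (by omega), (repFun_range_pow_step Φ τ δ hδ hW k hS).1, hcongr]
      push_cast
      ring
  have h := hsum p le_rfl
  rw [Φ.of_eq_top (show LinearMap.range (δ ^ 0) = ⊤ from eq_top_iff.mpr fun f _ => ⟨f, rfl⟩),
    Φ.of_eq_bot (show LinearMap.range (δ ^ p) = ⊥ from LinearMap.range_eq_bot.mpr hδp),
    add_zero] at h
  exact h

variable (s : G)

/-- Right translation by `s` on the cosets of `⟨s ^ p⟩`. -/
def cosetShift : G ⧸ Subgroup.zpowers (s ^ p) → G ⧸ Subgroup.zpowers (s ^ p) :=
  Quotient.map' (· * s) fun a b h => by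
    rw [QuotientGroup.leftRel_apply] at h ⊢
    obtain ⟨n, hn⟩ := Subgroup.mem_zpowers_iff.mp h
    rw [show (a * s)⁻¹ * (b * s) = s⁻¹ * ((a⁻¹ * b) * s) by group]
    rw [← show s * (a⁻¹ * b) = (a⁻¹ * b) * s by
      rw [← hn]; exact ((Commute.refl s).pow_right p).zpow_right n, inv_mul_cancel_left]
    exact h

omit hp [Fintype G] in
/-- `cosetShift` on representatives. -/
lemma cosetShift_mk (a : G) :
    cosetShift (p := p) s (a : G ⧸ Subgroup.zpowers (s ^ p)) =
      ((a * s : G) : G ⧸ Subgroup.zpowers (s ^ p)) := rfl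

variable (M) in
/-- Translation minus one on the functions on the cosets of `⟨s ^ p⟩`. -/
def cosetDiff : Module.End (ZMod p) (G ⧸ Subgroup.zpowers (s ^ p) → M) :=
  LinearMap.funLeft (ZMod p) M (cosetShift (p := p) s) - 1

omit [Fintype G] [FiniteDimensional (ZMod p) M] in
/-- The `p`-th power of `cosetDiff` vanishes. -/
lemma cosetDiff_pow_prime : cosetDiff (p := p) M s ^ p = 0 := by
  set R := LinearMap.funLeft (ZMod p) M (cosetShift (p := p) s)
  have hR : ∀ (k : ℕ) (f : G ⧸ Subgroup.zpowers (s ^ p) → M) (a : G),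
      (R ^ k) f (a : G ⧸ Subgroup.zpowers (s ^ p)) =
        f ((a * s ^ k : G) : G ⧸ Subgroup.zpowers (s ^ p)) := by
    intro k
    induction k with
    | zero => intro f a; rw [pow_zero, pow_zero, mul_one]; rfl
    | succ k ih =>
      intro f a
      rw [pow_succ', Module.End.mul_apply]
      change (R ^ k) f (cosetShift s (a : G ⧸ Subgroup.zpowers (s ^ p))) = _
      rw [cosetShift_mk, ih, mul_assoc, ← pow_succ']
  have hRp : R ^ p = 1 := by
    refine LinearMap.ext fun f => funext fun x => ?_
    obtain ⟨a, rfl⟩ := QuotientGroup.mk_surjective x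
    rw [hR, Module.End.one_apply]
    exact congrArg f (QuotientGroup.mk_mul_of_mem _ (Subgroup.mem_zpowers _))
  have h := congrArg (Polynomial.aeval R)
    (sub_pow_char (p := p) (Polynomial.X : Polynomial (ZMod p)) 1)
  rw [map_pow, map_sub, map_sub, map_pow, Polynomial.aeval_X, map_one, one_pow, map_one,
    hRp, sub_self] at h
  exact h

omit [Fintype G] [FiniteDimensional (ZMod p) M] in
/-- `cosetDiff` commutes with the action. -/
lemma cosetDiff_funRep (σ : Representation (ZMod p) G M) (g : G)
    (f : G ⧸ Subgroup.zpowers (s ^ p) → M) :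
    cosetDiff (p := p) M s (funRep (cosetAct _) σ g f) =
      funRep (cosetAct _) σ g (cosetDiff (p := p) M s f) := by
  set τ := funRep (cosetAct (Subgroup.zpowers (s ^ p))) σ
  set R := LinearMap.funLeft (ZMod p) M (cosetShift (p := p) s)
  have hRcomm : R (τ g f) = τ g (R f) := funext fun x => by
    obtain ⟨a, rfl⟩ := QuotientGroup.mk_surjective x
    change σ g (f (g⁻¹ • cosetShift s (a : G ⧸ Subgroup.zpowers (s ^ p)))) =
      σ g (f (cosetShift s (g⁻¹ • (a : G ⧸ Subgroup.zpowers (s ^ p)))))
    rw [cosetShift_mk, MulAction.Quotient.smul_mk, MulAction.Quotient.smul_mk, smul_eq_mul,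
      smul_eq_mul, cosetShift_mk, mul_assoc]
  change R (τ g f) - τ g f = τ g (R f - f)
  rw [hRcomm, map_sub]

omit [FiniteDimensional (ZMod p) M] in
/-- The kernel of `cosetDiff` consists of the functions on the cosets of `⟨s⟩`. -/
lemma exists_bijective_ker_cosetDiff :
    ∃ P : (G ⧸ Subgroup.zpowers s → M) →ₗ[ZMod p] LinearMap.ker (cosetDiff (p := p) M s),
      Function.Bijective P ∧ ∀ f (a : G), (P f).1 (a : G ⧸ Subgroup.zpowers (s ^ p)) =
        f (a : G ⧸ Subgroup.zpowers s) := by
  set C := Subgroup.zpowers s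
  set C' := Subgroup.zpowers (s ^ p)
  have hle : C' ≤ C := Subgroup.zpowers_le.mpr (pow_mem (Subgroup.mem_zpowers s) p)
  let q : G ⧸ C' → G ⧸ C := Subgroup.quotientMapOfLE hle
  have hqs : Function.Surjective q := fun x => by
    obtain ⟨a, rfl⟩ := QuotientGroup.mk_surjective x
    exact ⟨(a : G ⧸ C'), rfl⟩
  -- pullback along the projection lands in the kernel
  let P : (G ⧸ C → M) →ₗ[ZMod p] LinearMap.ker (cosetDiff (p := p) M s) :=
    (LinearMap.funLeft (ZMod p) M q).codRestrict _ fun f => by
    rw [LinearMap.mem_ker]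
    funext x
    obtain ⟨a, rfl⟩ := QuotientGroup.mk_surjective x
    change f (((a * s : G) : G ⧸ C)) - f ((a : G) : G ⧸ C) = 0
    rw [QuotientGroup.mk_mul_of_mem _ (Subgroup.mem_zpowers s), sub_self]
  refine ⟨P, ⟨fun f f' h => ?_, fun f => ?_⟩, fun f a => rfl⟩
  · exact LinearMap.funLeft_injective_of_surjective _ _ q hqs (congrArg Subtype.val h)
  -- a function in the kernel is invariant under translation by powers of `s`
  · have hf : ∀ k : ℕ, ∀ a : G, f.1 ((a * s ^ k : G) : G ⧸ C') = f.1 (a : G ⧸ C') := by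
      intro k
      induction k with
      | zero => simp
      | succ k ih =>
        intro a
        have h := congrFun (LinearMap.mem_ker.mp f.2) ((a * s ^ k : G) : G ⧸ C')
        change f.1 (cosetShift s ((a * s ^ k : G) : G ⧸ C')) -
          f.1 ((a * s ^ k : G) : G ⧸ C') = 0 at h
        rw [sub_eq_zero, cosetShift_mk, ih, mul_assoc, ← pow_succ] at h
        exact h
    -- hence it is constant on the fibres of the projection, so comes from `G ⧸ C`
    have hwd : ∀ x y : G ⧸ C', q x = q y → f.1 x = f.1 y := by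
      intro x y h
      obtain ⟨a, rfl⟩ := QuotientGroup.mk_surjective x
      obtain ⟨b, rfl⟩ := QuotientGroup.mk_surjective y
      obtain ⟨k, -, hk⟩ := Finset.mem_image.mp
        (mem_zpowers_iff_mem_range_orderOf.mp (QuotientGroup.eq.mp h))
      have hb : b = a * s ^ k := by rw [show s ^ k = a⁻¹ * b from hk, mul_inv_cancel_left]
      rw [hb, hf]
    refine ⟨fun y => f.1 (Function.surjInv hqs y), Subtype.ext (funext fun x => ?_)⟩
    exact hwd _ _ (Function.surjInv_eq hqs (q x))

/-- `⟨s ^ p⟩` has index `p` in `⟨s⟩` when `p` divides the order of `s`. -/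
lemma card_quotient_zpowers_pow (hs : p ∣ orderOf s) :
    Fintype.card (G ⧸ Subgroup.zpowers (s ^ p)) =
      p * Fintype.card (G ⧸ Subgroup.zpowers s) := by
  have e1 := (Subgroup.zpowers s).card_eq_card_quotient_mul_card_subgroup
  have e2 := (Subgroup.zpowers (s ^ p)).card_eq_card_quotient_mul_card_subgroup
  rw [Nat.card_zpowers] at e1 e2
  rw [orderOf_pow' s hp.out.ne_zero, Nat.gcd_eq_right hs, e1] at e2
  obtain ⟨m, hm⟩ := hs
  rw [hm, Nat.mul_div_cancel_left _ hp.out.pos] at e2
  have hm0 : 0 < m := by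
    rcases Nat.eq_zero_or_pos m with h0 | h0
    · rw [h0, mul_zero] at hm
      exact absurd hm (orderOf_pos s).ne'
    · exact h0
  simp only [Nat.card_eq_fintype_card] at e2
  refine (Nat.eq_of_mul_eq_mul_right hm0 ?_)
  rw [← e2]
  ring

/-- An additive function on the coset module of an index `p` subgroup of a cyclic group is `p`
times its value on the coset module of the group. -/
theorem repFun_coset_step (Φ : RepFun p G) (σ : Representation (ZMod p) G M) (s : G)
    (hs : p ∣ orderOf s) :
    Φ.toFun _ (funRep (cosetAct (Subgroup.zpowers (s ^ p))) σ) =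
      p * Φ.toFun _ (funRep (cosetAct (Subgroup.zpowers s)) σ) := by
  set δ := cosetDiff (p := p) M s
  obtain ⟨P, hP, hPmk⟩ := exists_bijective_ker_cosetDiff (p := p) (M := M) s
  have hK : ∀ g, ∀ f ∈ LinearMap.ker δ,
      funRep (cosetAct (Subgroup.zpowers (s ^ p))) σ g f ∈ LinearMap.ker δ := fun g f hf => by
    rw [LinearMap.mem_ker, cosetDiff_funRep, LinearMap.mem_ker.mp hf, map_zero]
  rw [repFun_eq_mul_ker Φ _ δ (cosetDiff_funRep s σ) hK (cosetDiff_pow_prime s)]
  · congr 1
    refine (Φ.congr_of_bijective P (fun g f => Subtype.ext (funext fun x => ?_)) hP).symm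
    obtain ⟨a, rfl⟩ := QuotientGroup.mk_surjective x
    rw [hPmk, coe_subRep, funRep_apply, funRep_apply]
    exact congrArg (σ g) (hPmk f (g⁻¹ * a)).symm
  · rw [← (LinearEquiv.ofBijective P hP).finrank_eq, finrank_fun, finrank_fun,
      card_quotient_zpowers_pow s hs, mul_assoc]

end Step

/-! ### The defect of the formula -/

variable {p : ℕ} [hp : Fact p.Prime] {K : IntermediateField ℚ ℚbar} [FiniteDimensional ℚ K]
  [Normal ℚ K] {T : Finset Nat.Primes} (hT : IsAdmissible p K T) (hL : Linked p K T) (h2 : 2 < p)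

include hT hL h2

/-- The defect as an additive function. -/
def euFun : RepFun p (GalQ K) where
  toFun _M _ _ _ ρ := eu T ρ
  add ρA ρB ρC f g hf hg hinj hsurj hex := eu_add hT hL h2 ρA ρB ρC f g hf hg hinj hsurj hex

/-- The defect vanishes on the representations twisted by the cosets of a cyclic subgroup. -/
lemma eu_funRep_coset {M : Type} [AddCommGroup M] [Module (ZMod p) M] [FiniteDimensional (ZMod p) M]
    (ρ : Representation (ZMod p) (GalQ K) M) : ∀ (n : ℕ) (C : Subgroup (GalQ K)),
      Nat.card C = n → IsCyclic C → eu T (funRep (cosetAct C) ρ) = 0 := by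
  intro n
  induction n using Nat.strong_induction_on with
  | _ n ih =>
  intro C hn hC
  by_cases hpn : p ∣ n
  · obtain ⟨⟨s, hsC⟩, hgen⟩ := IsCyclic.exists_generator (α := C)
    have hCs : C = Subgroup.zpowers s := by
      refine le_antisymm (fun x hx => ?_) (Subgroup.zpowers_le.mpr hsC)
      obtain ⟨k, hk⟩ := Subgroup.mem_zpowers_iff.mp (hgen ⟨x, hx⟩)
      exact ⟨k, congrArg Subtype.val hk⟩
    subst hCs
    rw [Nat.card_zpowers] at hn
    have hs : p ∣ orderOf s := hn.symm ▸ hpn
    have h := repFun_coset_step (euFun hT hL h2) ρ s hs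
    have hz : eu T (funRep (cosetAct (Subgroup.zpowers (s ^ p))) ρ) = 0 := by
      refine ih _ ?_ _ rfl inferInstance
      rw [Nat.card_zpowers, orderOf_pow' s hp.out.ne_zero, Nat.gcd_eq_right hs, ← hn]
      exact Nat.div_lt_self (orderOf_pos s) hp.out.one_lt
    change eu T _ = (p : ℤ) * eu T _ at h
    rw [hz] at h
    exact (mul_eq_zero.mp h.symm).resolve_left (by exact_mod_cast hp.out.ne_zero)
  · exact eu_eq_zero_of_isProj _ hT hL h2 (isProj_funRep_coset C (hn ▸ hpn) ρ)

/-- The defect as a function of the coefficient of a `Hom`. -/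
def euHom {M : Type} [AddCommGroup M] [Module (ZMod p) M] [FiniteDimensional (ZMod p) M]
    (ρ : Representation (ZMod p) (GalQ K) M) : RepFun p (GalQ K) where
  toFun X _ _ _ σ := eu T (Representation.linHom σ ρ)
  add {A B C} _ _ _ _ _ _ _ _ _ ρA ρB ρC f g hf hg hinj hsurj hex := by
    rw [eu_add hT hL h2 (Representation.linHom ρC ρ) (Representation.linHom ρB ρ)
      (Representation.linHom ρA ρ) (LinearMap.lcomp (ZMod p) M g) (LinearMap.lcomp (ZMod p) M f)
      (fun s φ => LinearMap.ext fun b => by simp [hg])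
        (fun s φ => LinearMap.ext fun a => by simp [hf])
      ?_ ?_ ?_, add_comm]
    · exact fun φ ψ h => LinearMap.ext fun c => by
        obtain ⟨b, rfl⟩ := hsurj c
        exact LinearMap.congr_fun h b
    · intro φ
      obtain ⟨r, hr⟩ := f.exists_leftInverse_of_injective (LinearMap.ker_eq_bot.mpr hinj)
      exact ⟨φ.comp r, LinearMap.ext fun a => congrArg φ (LinearMap.congr_fun hr a)⟩
    · intro φ
      refine ⟨fun h => ?_, ?_⟩
      · have hk : LinearMap.ker g ≤ LinearMap.ker φ := fun b hb => by
          obtain ⟨a, rfl⟩ := (hex b).mp hb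
          exact LinearMap.congr_fun h a
        refine ⟨((LinearMap.ker g).liftQ φ hk).comp
          (g.quotKerEquivOfSurjective hsurj).symm.toLinearMap, LinearMap.ext fun b => ?_⟩
        have hb : (g.quotKerEquivOfSurjective hsurj).symm (g b) = Submodule.Quotient.mk b :=
          (LinearEquiv.symm_apply_eq _).mpr rfl
        change (LinearMap.ker g).liftQ φ hk ((g.quotKerEquivOfSurjective hsurj).symm (g b)) = φ b
        rw [hb]
        rfl
      · rintro ⟨ψ, rfl⟩
        exact LinearMap.ext fun a => by
          change ψ (g (f a)) = 0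
          rw [hex.apply_apply_eq_zero, map_zero]

/-- **Tate's formula.** The defect `eu` of the global Euler characteristic formula vanishes for
every finite module. -/
theorem eu_eq_zero {M : Type} [AddCommGroup M] [Module (ZMod p) M] [FiniteDimensional (ZMod p) M]
    (ρ : Representation (ZMod p) (GalQ K) M) : eu T ρ = 0 := by
  have h : (euHom hT hL h2 ρ).toFun (ZMod p)
      (1 : Representation (ZMod p) (GalQ K) (ZMod p)) = 0 := by
    refine eq_zero_of_cyclic _ fun C hC => ?_
    rw [← eu_funRep_coset hT hL h2 ρ _ C rfl hC]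
    refine (euFun hT hL h2).congr_of_bijective
      (LinearMap.pi fun y => LinearMap.applyₗ (Pi.single y (1 : ZMod p)) :
        ((GalQ K ⧸ C → ZMod p) →ₗ[ZMod p] M) →ₗ[ZMod p] GalQ K ⧸ C → M)
      (fun g φ => funext fun y => ?_) ⟨fun φ ψ h => ?_, fun f => ?_⟩
    · change ρ g (φ (permRep p (cosetAct C) g⁻¹ (Pi.single y 1))) =
        ρ g (φ (Pi.single ((cosetAct C g).symm y) 1))
      congr 2
      funext x
      rw [permRep_apply, map_inv, Equiv.Perm.inv_def, Equiv.symm_symm, Pi.single_apply,
        Pi.single_apply]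
      exact if_congr (Equiv.eq_symm_apply _).symm rfl rfl
    · exact (Pi.basisFun (ZMod p) _).ext fun y => by simpa using congrFun h y
    · exact ⟨(Pi.basisFun (ZMod p) _).constr (ZMod p) f, funext fun y => by
        change (Pi.basisFun (ZMod p) _).constr (ZMod p) f (Pi.single y 1) = f y
        rw [← Pi.basisFun_apply, Module.Basis.constr_basis]⟩
  rw [← h]
  exact ((euFun hT hL h2).congr_of_bijective
    (LinearMap.applyₗ (1 : ZMod p) : (ZMod p →ₗ[ZMod p] M) →ₗ[ZMod p] M) (fun g φ => rfl)
    ⟨fun φ ψ h => LinearMap.ext_ring h, fun m => ⟨LinearMap.toSpanSingleton (ZMod p) M m,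
      by simp⟩⟩).symm

end Fermat.CFT.Euler
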