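import Fermat.Agent.CFT.Global.Linking

/-!
# The Galois action on the cohomology of `K` and on its units

Conjugation, twisted by the cyclotomic character, acts on `H¹` of `K` unramified outside `T`; the
Kummer map intertwines it with the action on `T`-units.
-/

set_option autoImplicit false
set_option linter.unusedSectionVars false

noncomputable section

open ExtCitation Fermat.CFT.Coh
open scoped Pointwise

namespace Fermat.CFT.Euler

local notation "ℚbar" => AlgebraicClosure ℚ
local notation "Γℚ" => (AlgebraicClosure ℚ ≃ₐ[ℚ] AlgebraicClosure ℚ)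

variable {p : ℕ} [hp : Fact p.Prime] {K : IntermediateField ℚ ℚbar} [FiniteDimensional ℚ K]
  [Normal ℚ K] {T : Finset Nat.Primes}

/-- The subgroup fixing the normal field `K` is normal. -/
instance normal_fixing : K.fixingSubgroup.Normal := fixingSubgroup_normal_qbar K

variable (K) in
/-- The Galois group of `K` as a quotient. -/
abbrev GalQ : Type := Γℚ ⧸ K.fixingSubgroup

/-- `Gal(K/ℚ)` is finite. -/
instance fintype_galQ : Fintype (GalQ K) := Fintype.ofFinite _

variable (K) in
/-- The action on `K`. -/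
def actK : GalQ K →* (K ≃ₐ[ℚ] K) :=
  QuotientGroup.lift K.fixingSubgroup (AlgEquiv.restrictNormalHom K) fun _ hn =>
    MonoidHom.mem_ker.mpr ((restrict_eq_one_iff K _).mpr hn)

/-- The action of a class is the restriction of a representative. -/
lemma actK_mk (σ : Γℚ) :
    actK K (σ : GalQ K) = AlgEquiv.restrictNormalHom K σ := rfl

/-- The action of a class, computed in `ℚ̄`. -/
lemma coe_actK_mk (σ : Γℚ) (x : K) : ((actK K (σ : GalQ K) x : K) : ℚbar) = σ (x : ℚbar) :=
  AlgEquiv.restrictNormal_commutes σ K x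

/-! ### Conjugation -/

variable (K) in
/-- Conjugation on the subgroup fixing `K`. -/
def conjN (g : Γℚ) : K.fixingSubgroup →* K.fixingSubgroup :=
  ((conjHom g).comp K.fixingSubgroup.subtype).codRestrict _ fun n => by
    rw [MonoidHom.comp_apply, Subgroup.coe_subtype, conjHom_apply]
    simpa using normal_fixing.conj_mem (n : Γℚ) n.2 g⁻¹

/-- Conjugation on the subgroup fixing `K`, computed in the Galois group. -/
lemma coe_conjN (g : Γℚ) (n : K.fixingSubgroup) :
    (conjN K g n : Γℚ) = g⁻¹ * n * g := conjHom_apply g n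

variable (K T) in
/-- Conjugation is compatible with the levels. -/
lemma isLevelsHom_conjN (g : Γℚ) :
    IsLevelsHom (subLevels (galLevels (T : Set Nat.Primes)) K.fixingSubgroup)
      (subLevels (galLevels (T : Set Nat.Primes)) K.fixingSubgroup) (conjN K g) := by
  rintro _ ⟨N, hN, rfl⟩
  refine ⟨_, ⟨N, hN, rfl⟩, fun x hx => ?_⟩
  change (conjN K g x : Γℚ) ∈ N
  rw [coe_conjN]
  exact (galLevels (T : Set Nat.Primes)).conj_mem hN hx g

variable (p) in
/-- The identity of the trivial line is equivariant along conjugation. -/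
lemma conjN_equivariant (g : Γℚ) : IsEquivariant (triv p K.fixingSubgroup)
    (triv p K.fixingSubgroup) (conjN K g) (LinearMap.id : ZMod p →ₗ[ZMod p] ZMod p) :=
  fun _ _ => rfl

variable (p K T) in
/-- The action of conjugation on classes. -/
def kconj (g : Γℚ) : KH1 p K T →ₗ[ZMod p] KH1 p K T :=
  map₁ (isLevelsHom_conjN K T g) (conjN_equivariant p g)

/-- Conjugation on the class of a cocycle. -/
lemma kconj_cl₁ (g : Γℚ)
    (z : Z1 (subLevels (galLevels (T : Set Nat.Primes)) K.fixingSubgroup)
      (triv p K.fixingSubgroup)) :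
    kconj p K T g (cl₁ (subLevels (galLevels (T : Set Nat.Primes)) K.fixingSubgroup)
      (triv p K.fixingSubgroup) z) =
    cl₁ (subLevels (galLevels (T : Set Nat.Primes)) K.fixingSubgroup) (triv p K.fixingSubgroup)
      (mapZ1 (isLevelsHom_conjN K T g) (conjN_equivariant p g) z) :=
  map₁_cl₁ (isLevelsHom_conjN K T g) (conjN_equivariant p g) z

variable (p K T) in
/-- Conjugation as a representation of the absolute Galois group. -/
def kconjRep : Representation (ZMod p) Γℚ (KH1 p K T) where
  toFun g := kconj p K T g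
  map_one' := LinearMap.ext fun x => by
    obtain ⟨z, rfl⟩ := cl₁_surjective x
    rw [kconj_cl₁]
    refine congrArg _ (Subtype.ext (funext fun n => ?_))
    change z.1 (conjN K 1 n) = z.1 n
    exact congrArg z.1 (Subtype.ext (by rw [coe_conjN]; group))
  map_mul' g h := LinearMap.ext fun x => by
    obtain ⟨z, rfl⟩ := cl₁_surjective x
    rw [Module.End.mul_apply, kconj_cl₁, kconj_cl₁, kconj_cl₁]
    refine congrArg _ (Subtype.ext (funext fun n => ?_))
    change z.1 (conjN K (g * h) n) = z.1 (conjN K h (conjN K g n))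
    exact congrArg z.1 (Subtype.ext (by rw [coe_conjN, coe_conjN, coe_conjN]; group))

/-- The subgroup fixing `K` acts trivially by conjugation on `H¹`. -/
lemma kconjRep_eq_one {n : Γℚ} (hn : n ∈ K.fixingSubgroup) : kconjRep p K T n = 1 := by
  refine LinearMap.ext fun x => ?_
  obtain ⟨z, rfl⟩ := cl₁_surjective x
  change kconj p K T n _ = _
  rw [kconj_cl₁, Module.End.one_apply]
  refine congrArg _ (Subtype.ext (funext fun m => ?_))
  change z.1 (conjN K n m) = z.1 m
  have hm : conjN K n m = (⟨n, hn⟩ : K.fixingSubgroup)⁻¹ * m * ⟨n, hn⟩ :=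
    Subtype.ext (coe_conjN n m)
  rw [hm, triv_hom, triv_hom, add_right_comm, ← triv_hom z, inv_mul_cancel, Z1_one z.2, zero_add]

variable (p K T) in
/-- Conjugation as a representation of `Gal(K/ℚ)`. -/
def kconjQ : Representation (ZMod p) (GalQ K) (KH1 p K T) :=
  QuotientGroup.lift K.fixingSubgroup (kconjRep p K T) fun _ hn =>
    MonoidHom.mem_ker.mpr (kconjRep_eq_one hn)

variable (hT : IsAdmissible p K T)

include hT

/-- The cyclotomic character of `Gal(K/ℚ)`. -/
def chiQ : GalQ K →* (ZMod p)ˣ :=
  QuotientGroup.lift K.fixingSubgroup (cycloChar p) fun n hn =>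
    MonoidHom.mem_ker.mpr (hT.cycHom_eq_one ⟨n, hn⟩)

/-- The character of `Gal(K/ℚ)` on a class. -/
@[simp] lemma chiQ_mk (g : Γℚ) : chiQ hT (g : GalQ K) = cycloChar p g := rfl

/-- The action on `H¹` compatible with the action on units. -/
def kappa : Representation (ZMod p) (GalQ K) (KH1 p K T) := (kconjQ p K T).twist (chiQ hT)

/-- The twisted action of a class. -/
lemma kappa_mk (g : Γℚ) (x : KH1 p K T) :
    kappa hT (g : GalQ K) x = (cycloChar p g : ZMod p) • kconj p K T g x := rfl

omit hT in
/-- Automorphisms of `K` preserve the `T`-units. -/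
lemma smul_mem_sUnits (g : K ≃ₐ[ℚ] K) {x : (K : Type)ˣ}
    (hx : x ∈ sUnits K (plsOver K T : Set (Pl K))) :
    Units.map (g : K →* K) x ∈ sUnits K (plsOver K T : Set (Pl K)) := fun w hw => by
  change ord w (g (x : K)) = 0
  rw [← smul_inv_smul g w]
  refine (ord_smul g (g⁻¹ • w) (x : K)).trans (hx _ fun h => hw ?_)
  rw [Finset.mem_coe, mem_plsOver] at h ⊢
  rwa [resChar_smul] at h

omit hT in
variable (K T) in
/-- The action on `T`-units. -/
def unitsQ : Representation ℤ (GalQ K) (Additive (sUnits K (plsOver K T : Set (Pl K)))) where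
  toFun g := (MonoidHom.toAdditive
    (((Units.map ((actK K g : K ≃ₐ[ℚ] K) : K →* K)).comp
      (sUnits K (plsOver K T : Set (Pl K))).subtype).codRestrict _
        fun x => smul_mem_sUnits _ x.2)).toIntLinearMap
  map_one' := LinearMap.ext fun x => Additive.toMul.injective (Subtype.ext (Units.ext (by
    change actK K 1 ((Additive.toMul x).1 : K) = _
    rw [map_one]
    rfl)))
  map_mul' g h := LinearMap.ext fun x => Additive.toMul.injective (Subtype.ext (Units.ext (by
    change actK K (g * h) ((Additive.toMul x).1 : K) = _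
    rw [map_mul]
    rfl)))

/-- The Kummer map is equivariant. -/
theorem kappa_ekum (g : GalQ K) (e : Additive (sUnits K (plsOver K T : Set (Pl K)))) :
    kappa hT g (ekum hT e) = ekum hT (unitsQ K T g e) := by
  obtain ⟨σ, rfl⟩ := QuotientGroup.mk_surjective g
  obtain ⟨z, hz⟩ := cl₁_surjective (ekum hT e)
  rw [← hz, kappa_mk, kconj_cl₁, ← map_smul]
  refine subToUniv₁_injective K T ?_
  obtain ⟨w, hw, α, hαp, hwα⟩ := exists_gkum_cocycle (p := p) hT.cycHom_eq_one
    (Additive.ofMul (Additive.toMul e).1)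
  obtain ⟨w', hw', β, hβp, hwβ⟩ := exists_gkum_cocycle (p := p) hT.cycHom_eq_one
    (Additive.ofMul (Additive.toMul (unitsQ K T (σ : GalQ K) e)).1)
  have h0 := map_ekum hT e
  rw [← hz, map₁_cl₁, hw, ← sub_eq_zero, ← map_sub, cl₁_triv_eq_zero, sub_eq_zero] at h0
  have hzw : ∀ n, z.1 n = w.1 n := fun n => congrFun (congrArg Subtype.val h0) n
  rw [map₁_cl₁, map_ekum, hw']
  refine congrArg _ (Subtype.ext (funext fun n => zpw_injective (p := p) ?_))
  change zpw p ((cycloChar p σ : ZMod p) * z.1 (conjN K σ n)) = zpw p (w'.1 n)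
  rw [hwβ, show (cycloChar p σ : ZMod p) * z.1 (conjN K σ n) =
    charRep (cycHom p (MonoidHom.id Γℚ)) σ (z.1 (conjN K σ n)) by simp, ← unitsRep_zpw, hzw, hwα]
  -- two roots of the same element
  have hroot : p • unitsRep (MonoidHom.id Γℚ) σ α = p • β := uval_injective (by
    rw [← map_nsmul, uval_unitsRep, uval_nsmul, uval_nsmul, hαp, hβp]
    exact (coe_actK_mk σ _).symm)
  obtain ⟨c, hc⟩ := exists_zpw_eq (p := p) (x := unitsRep (MonoidHom.id Γℚ) σ α - β)
    (by rw [nsmul_sub, hroot, sub_self])
  rw [show β = unitsRep (MonoidHom.id Γℚ) σ α - zpw p c by rw [hc, sub_sub_cancel],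
    map_sub (d₀ (unitsRep K.fixingSubgroup.subtype)), Pi.sub_apply,
    show d₀ (unitsRep K.fixingSubgroup.subtype) (zpw p c) n = 0 by
      rw [← zpw_d₀, d₀_apply, charRep_apply,
        show cycHom p K.fixingSubgroup.subtype n = 1 from hT.cycHom_eq_one n]
      simp, sub_zero, d₀_apply, d₀_apply]
  refine uval_injective ?_
  simp only [uval_unitsRep, uval_sub, map_div₀, Subgroup.coe_subtype, coe_conjN,
    MonoidHom.id_apply]
  congr 1
  change σ ((σ⁻¹ * (n : Γℚ) * σ) (uval α)) = (n : Γℚ) (σ (uval α))
  simp [AlgEquiv.mul_apply]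

end Fermat.CFT.Euler
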