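import Fermat.Agent.CFT.Euler.RepFun

/-!
# Reductions of rationally isomorphic lattices

Integral representations with equal characters have reductions modulo `p` with equal values of
every additive function.  No Brauer characters are needed: an intertwining matrix invertible over
`ℚ` filters both reductions by congruences with isomorphic graded pieces.
-/

set_option autoImplicit false

noncomputable section

namespace Fermat.CFT.Euler

variable {p : ℕ} [hp : Fact p.Prime] {G : Type} [Group G] {ι κ : Type} [Fintype ι] [DecidableEq ι]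
  [Fintype κ] [DecidableEq κ]

/-- Reduction of vectors modulo `p`. -/
def redVec (p : ℕ) (x : ι → ℤ) : ι → ZMod p := fun i => (x i : ZMod p)

omit [Fintype ι] [DecidableEq ι] in
/-- Reduction is additive. -/
lemma redVec_add (x y : ι → ℤ) : redVec p (x + y) = redVec p x + redVec p y :=
  funext fun i => by simp [redVec]

omit [Fintype ι] [DecidableEq ι] in
/-- Reduction commutes with integer multiples. -/
lemma redVec_zsmul (c : ℤ) (x : ι → ℤ) : redVec p (c • x) = (c : ZMod p) • redVec p x :=
  funext fun i => by simp [redVec]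

omit [Fintype ι] [DecidableEq ι] in
/-- Reduction is surjective. -/
lemma redVec_surjective : Function.Surjective (redVec p : (ι → ℤ) → ι → ZMod p) :=
  fun x => ⟨fun i => (x i).val, funext fun i => by simp [redVec]⟩

omit [Fintype ι] [DecidableEq ι] in
/-- A vector reducing to zero is divisible by `p`. -/
lemma exists_eq_smul_of_redVec_eq_zero {x : ι → ℤ} (h : redVec p x = 0) :
    ∃ y, x = (p : ℤ) • y := by
  choose y hy using fun i => (ZMod.intCast_zmod_eq_zero_iff_dvd (x i) p).mp (congrFun h i)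
  exact ⟨y, funext fun i => by simpa using hy i⟩

variable (p) in
/-- Reduction of an integral representation. -/
def redRep (A : G →* Matrix ι ι ℤ) : Representation (ZMod p) G (ι → ZMod p) :=
  ((Matrix.toLinAlgEquiv' (R := ZMod p) (n := ι)).toAlgHom.toRingHom.comp
    (Int.castRingHom (ZMod p)).mapMatrix).toMonoidHom.comp A

/-- Reduction intertwines an integral representation and its reduction. -/
lemma redRep_redVec (A : G →* Matrix ι ι ℤ) (g : G) (x : ι → ℤ) :
    redRep p A g (redVec p x) = redVec p ((A g).mulVec x) := by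
  funext i
  simp [redRep, redVec, Matrix.mulVec, dotProduct]

/-! ### The filtration of an intertwining matrix -/

section Filtration

variable {A : G →* Matrix ι ι ℤ} {B : G →* Matrix κ κ ℤ} {F : Matrix κ ι ℤ}
  (hF : ∀ g, B g * F = F * A g)

variable (p F) in
/-- Pairs of reductions of `x` and `F x / pᵏ`. -/
def pairSub (k : ℕ) : Submodule (ZMod p) ((ι → ZMod p) × (κ → ZMod p)) where
  carrier := {z | ∃ x y, F.mulVec x = (p : ℤ) ^ k • y ∧ redVec p x = z.1 ∧ redVec p y = z.2}
  zero_mem' := ⟨0, 0, by simp, funext fun _ => by simp [redVec], funext fun _ => by simp [redVec]⟩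
  add_mem' := by
    rintro z w ⟨x, y, h, hx, hy⟩ ⟨x', y', h', hx', hy'⟩
    exact ⟨x + x', y + y', by rw [Matrix.mulVec_add, h, h', smul_add],
      by rw [redVec_add, hx, hx']; rfl, by rw [redVec_add, hy, hy']; rfl⟩
  smul_mem' := by
    rintro c z ⟨x, y, h, hx, hy⟩
    exact ⟨(c.val : ℤ) • x, (c.val : ℤ) • y, by rw [Matrix.mulVec_smul, h, smul_comm],
      by rw [redVec_zsmul, hx]; simp, by rw [redVec_zsmul, hy]; simp⟩

variable (p F) in
/-- Reductions of the `x` with `F x` divisible by `pᵏ`. -/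
def domSub (k : ℕ) : Submodule (ZMod p) (ι → ZMod p) :=
  (pairSub p F k).map (LinearMap.fst (ZMod p) _ _)

variable (p F) in
/-- Reductions of the `F x / pᵏ`. -/
def imSub (k : ℕ) : Submodule (ZMod p) (κ → ZMod p) :=
  (pairSub p F k).map (LinearMap.snd (ZMod p) _ _)

include hF

/-- The pairs form a subrepresentation. -/
lemma pairSub_invariant (k : ℕ) (g : G) :
    ∀ z ∈ pairSub p F k, prodRep (redRep p A) (redRep p B) g z ∈ pairSub p F k := by
  rintro z ⟨x, y, h, hx, hy⟩
  refine ⟨(A g).mulVec x, (B g).mulVec y, ?_, ?_, ?_⟩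
  · rw [Matrix.mulVec_mulVec, ← hF, ← Matrix.mulVec_mulVec, h, Matrix.mulVec_smul]
  · rw [← redRep_redVec, hx]; rfl
  · rw [← redRep_redVec, hy]; rfl

/-- The domain steps are subrepresentations. -/
lemma domSub_invariant (k : ℕ) (g : G) : ∀ x ∈ domSub p F k, redRep p A g x ∈ domSub p F k := by
  rintro _ ⟨z, hz, rfl⟩
  exact ⟨_, pairSub_invariant hF k g z hz, rfl⟩

/-- The image steps are subrepresentations. -/
lemma imSub_invariant (k : ℕ) (g : G) : ∀ y ∈ imSub p F k, redRep p B g y ∈ imSub p F k := by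
  rintro _ ⟨z, hz, rfl⟩
  exact ⟨_, pairSub_invariant hF k g z hz, rfl⟩

variable (Φ : RepFun p G)

/-- The value on a step of the domain filtration. -/
def domVal (k : ℕ) : ℤ :=
  Φ.toFun (domSub p F k) (subRep (redRep p A) _ (domSub_invariant hF k))

/-- The value on a step of the image filtration. -/
def imVal (k : ℕ) : ℤ :=
  Φ.toFun (imSub p F k) (subRep (redRep p B) _ (imSub_invariant hF k))

/-- The value on a step of the filtration of pairs. -/
def pairVal (k : ℕ) : ℤ :=
  Φ.toFun (pairSub p F k) (subRep (prodRep (redRep p A) (redRep p B)) _ (pairSub_invariant hF k))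

/-- A step of the filtration of pairs is the image step of the previous level plus the kernel step
of the same level. -/
lemma pairVal_eq_dom (k : ℕ) :
    pairVal hF Φ (k + 1) = imVal hF Φ k + domVal hF Φ (k + 1) := by
  refine Φ.add (subRep (redRep p B) _ (imSub_invariant hF k)) _
    (subRep (redRep p A) _ (domSub_invariant hF (k + 1)))
    ((LinearMap.inr (ZMod p) (ι → ZMod p) (κ → ZMod p)).restrict (p := imSub p F k)
      (q := pairSub p F (k + 1)) ?_)
    ((LinearMap.fst (ZMod p) (ι → ZMod p) (κ → ZMod p)).restrict (p := pairSub p F (k + 1))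
      (q := domSub p F (k + 1)) fun z hz => ⟨z, hz, rfl⟩)
    (fun s a => Subtype.ext (Prod.ext (map_zero (redRep p A s)).symm rfl))
    (fun s b => rfl) ?_ ?_ ?_
  · rintro _ ⟨z, ⟨x, y, h, -, hy⟩, rfl⟩
    refine ⟨(p : ℤ) • x, y, ?_, funext fun i => by simp [redVec], hy⟩
    rw [Matrix.mulVec_smul, h, smul_smul, pow_succ']
  · intro a b h
    exact Subtype.ext (congrArg (fun z => z.1.2) h)
  · rintro ⟨_, z, hz, rfl⟩
    exact ⟨⟨z, hz⟩, rfl⟩
  · rintro ⟨z, hz⟩
    refine ⟨fun h0 => ?_, ?_⟩
    · have h1 : z.1 = 0 := congrArg Subtype.val h0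
      obtain ⟨x, y, h, hx, hy⟩ := hz
      obtain ⟨x', rfl⟩ := exists_eq_smul_of_redVec_eq_zero (hx.trans h1)
      rw [Matrix.mulVec_smul, pow_succ', mul_smul] at h
      have h2 := smul_right_injective (κ → ℤ) (Nat.cast_ne_zero.mpr hp.out.ne_zero : (p : ℤ) ≠ 0) h
      exact ⟨⟨z.2, (redVec p x', z.2), ⟨x', y, h2, rfl, hy⟩, rfl⟩,
        Subtype.ext (Prod.ext h1.symm rfl)⟩
    · rintro ⟨a, ha⟩
      exact Subtype.ext (congrArg (fun w => w.1.1) ha).symm

/-- A step of the filtration of pairs is the next kernel step plus the image step of the same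
level. -/
lemma pairVal_eq_im (k : ℕ) :
    pairVal hF Φ k = domVal hF Φ (k + 1) + imVal hF Φ k := by
  refine Φ.add (subRep (redRep p A) _ (domSub_invariant hF (k + 1))) _
    (subRep (redRep p B) _ (imSub_invariant hF k))
    ((LinearMap.inl (ZMod p) (ι → ZMod p) (κ → ZMod p)).restrict (p := domSub p F (k + 1))
      (q := pairSub p F k) ?_)
    ((LinearMap.snd (ZMod p) (ι → ZMod p) (κ → ZMod p)).restrict (p := pairSub p F k)
      (q := imSub p F k) fun z hz => ⟨z, hz, rfl⟩)
    (fun s a => Subtype.ext (Prod.ext rfl (map_zero (redRep p B s)).symm))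
    (fun s b => rfl) ?_ ?_ ?_
  · rintro _ ⟨z, ⟨x, y, h, hx, -⟩, rfl⟩
    refine ⟨x, (p : ℤ) • y, ?_, hx, funext fun i => by simp [redVec]⟩
    rw [h, pow_succ, mul_smul]
  · intro a b h
    exact Subtype.ext (congrArg (fun z => z.1.1) h)
  · rintro ⟨_, z, hz, rfl⟩
    exact ⟨⟨z, hz⟩, rfl⟩
  · rintro ⟨z, hz⟩
    refine ⟨fun h0 => ?_, ?_⟩
    · have h1 : z.2 = 0 := congrArg Subtype.val h0
      obtain ⟨x, y, h, hx, hy⟩ := hz
      obtain ⟨y', rfl⟩ := exists_eq_smul_of_redVec_eq_zero (hy.trans h1)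
      rw [smul_smul, ← pow_succ] at h
      exact ⟨⟨z.1, (z.1, redVec p y'), ⟨x, y', h, hx, rfl⟩, rfl⟩,
        Subtype.ext (Prod.ext rfl h1.symm)⟩
    · rintro ⟨a, ha⟩
      exact Subtype.ext (congrArg (fun w => w.1.2) ha).symm

/-- The first step of the filtration of pairs has the value of the first reduction. -/
lemma pairVal_zero : pairVal hF Φ 0 = Φ.toFun (ι → ZMod p) (redRep p A) := by
  refine Φ.congr_of_bijective ((LinearMap.fst (ZMod p) _ _).comp (pairSub p F 0).subtype)
    (fun _ _ => rfl) ⟨fun a b h => ?_, fun x => ?_⟩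
  · obtain ⟨⟨a₁, a₂⟩, xa, ya, ha, hxa, hya⟩ := a
    obtain ⟨⟨b₁, b₂⟩, xb, yb, hb, hxb, hyb⟩ := b
    change a₁ = b₁ at h
    obtain ⟨t, ht⟩ := exists_eq_smul_of_redVec_eq_zero (p := p) (x := xa - xb) (funext fun i => by
      have e := congrFun (hxa.trans (h.trans hxb.symm)) i
      simp only [redVec] at e
      simp [redVec, e])
    rw [pow_zero, one_smul] at ha hb
    have h2 : redVec p ya = redVec p yb := by
      rw [← ha, ← hb, ← sub_add_cancel xa xb, ht, Matrix.mulVec_add, Matrix.mulVec_smul, redVec_add,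
        redVec_zsmul]
      simp
    exact Subtype.ext (Prod.ext h (hya.symm.trans (h2.trans hyb)))
  · obtain ⟨x, rfl⟩ := redVec_surjective x
    exact ⟨⟨(redVec p x, redVec p (F.mulVec x)), x, F.mulVec x, by simp, rfl, rfl⟩, rfl⟩

/-- The value on the filtration of pairs does not depend on the step. -/
lemma pairVal_succ (k : ℕ) : pairVal hF Φ (k + 1) = pairVal hF Φ k := by
  rw [pairVal_eq_dom, pairVal_eq_im, add_comm]

end Filtration

/-- An intertwining matrix invertible over `ℚ` does not change additive functions of reductions. -/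
theorem redRep_eq_of_intertwining (Φ : RepFun p G) {A : G →* Matrix ι ι ℤ}
    {B : G →* Matrix κ κ ℤ} (F : Matrix κ ι ℤ) (F' : Matrix ι κ ℤ)
    (hF : ∀ g, B g * F = F * A g) {d : ℤ} (hd : d ≠ 0) (h1 : F' * F = d • 1)
    (h2 : F * F' = d • 1) :
    Φ.toFun (ι → ZMod p) (redRep p A) = Φ.toFun (κ → ZMod p) (redRep p B) := by
  have hfin : FiniteMultiplicity (p : ℤ) d :=
    Int.finiteMultiplicity_iff.mpr ⟨by simpa using hp.out.ne_one, hd⟩
  -- write `d = p ^ e u` with `u` prime to `p`
  obtain ⟨u, hu, hpu⟩ := hfin.exists_eq_pow_mul_and_not_dvd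
  set e := multiplicity (p : ℤ) d
  -- at stage `e + 1` the domain is zero, at stage `e` the image is everything
  have hdom : domSub p F (e + 1) = ⊥ := by
    rw [Submodule.eq_bot_iff]
    rintro _ ⟨z, ⟨x, y, h, hx, -⟩, rfl⟩
    have h3 := congrArg F'.mulVec h
    rw [Matrix.mulVec_mulVec, h1, Matrix.smul_mulVec, Matrix.one_mulVec, Matrix.mulVec_smul,
      hu, mul_smul, pow_succ, mul_smul] at h3
    have h4 := smul_right_injective (ι → ℤ) (pow_ne_zero e (Nat.cast_ne_zero.mpr hp.out.ne_zero :
      (p : ℤ) ≠ 0)) h3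
    change z.1 = 0
    rw [← hx]
    funext i
    have h5 : ((u * x i : ℤ) : ZMod p) = 0 :=
      (ZMod.intCast_zmod_eq_zero_iff_dvd _ _).mpr ⟨(F'.mulVec y) i, congrFun h4 i⟩
    rw [Int.cast_mul] at h5
    exact (mul_eq_zero.mp h5).resolve_left fun h0 =>
      hpu ((ZMod.intCast_zmod_eq_zero_iff_dvd _ _).mp h0)
  have him : imSub p F e = ⊤ := by
    rw [Submodule.eq_top_iff']
    intro y
    have hu0 : (u : ZMod p) ≠ 0 := fun h0 => hpu ((ZMod.intCast_zmod_eq_zero_iff_dvd _ _).mp h0)
    obtain ⟨z, hz⟩ := redVec_surjective ((u : ZMod p)⁻¹ • y)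
    refine ⟨(redVec p (F'.mulVec z), redVec p (u • z)), ⟨F'.mulVec z, u • z, ?_, rfl, rfl⟩, ?_⟩
    · rw [Matrix.mulVec_mulVec, h2, Matrix.smul_mulVec, Matrix.one_mulVec, hu, mul_smul]
    · change redVec p (u • z) = y
      rw [redVec_zsmul, hz, smul_smul, mul_inv_cancel₀ hu0, one_smul]
  -- the value is constant along the filtration
  have key : ∀ k, pairVal hF Φ k = pairVal hF Φ 0 := fun k => by
    induction k with
    | zero => rfl
    | succ k ih => rw [pairVal_succ, ih]
  rw [← pairVal_zero hF Φ, ← key e, pairVal_eq_im, domVal, imVal, Φ.of_eq_bot hdom, zero_add,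
    Φ.of_eq_top him]

end Fermat.CFT.Euler
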