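import Fermat.Agent.CFT.Euler.Defs

/-!
# Cohomology of projective modules

For a projective representation of `Gal(K/ℚ)` the classes of degree one are the equivariant maps
from its twisted dual to the classes of `K`, and localisation at `T` detects them.
-/

set_option autoImplicit false

noncomputable section

open Fermat.CFT.Coh
open scoped Pointwise

namespace Fermat.CFT.Euler

local notation "ℚbar" => AlgebraicClosure ℚ
local notation "Γℚ" => (AlgebraicClosure ℚ ≃ₐ[ℚ] AlgebraicClosure ℚ)

variable {p : ℕ} [hp : Fact p.Prime] {K : IntermediateField ℚ ℚbar} [FiniteDimensional ℚ K]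
  [Normal ℚ K] {T : Finset Nat.Primes}

namespace IsProj

variable {G V : Type} [Group G] [Fintype G] [AddCommGroup V] [Module (ZMod p) V]
  {ρ : Representation (ZMod p) G V}

/-- A twist of a projective representation is projective. -/
lemma twist (h : IsProj ρ) (c : G →* (ZMod p)ˣ) : IsProj (ρ.twist c) := by
  obtain ⟨e, he⟩ := h
  refine ⟨e, fun v => ?_⟩
  conv_rhs => rw [← he v]
  refine Finset.sum_congr rfl fun g _ => ?_
  change (c g : ZMod p) • ρ g (e ((c g⁻¹ : ZMod p) • ρ g⁻¹ v)) = _
  rw [map_smul, map_smul, smul_smul, ← Units.val_mul, ← map_mul, mul_inv_cancel, map_one,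
    Units.val_one, one_smul]

/-- The dual of a projective representation is projective. -/
lemma dual (h : IsProj ρ) : IsProj ρ.dual := by
  obtain ⟨e, he⟩ := h
  refine ⟨e.dualMap, fun φ => LinearMap.ext fun v => ?_⟩
  rw [LinearMap.sum_apply]
  conv_rhs => rw [← he v, map_sum]
  exact Finset.sum_congr rfl fun g _ => by
    simp [Representation.dual_apply, Module.Dual.transpose_apply]

/-- The twisted dual of a projective representation is projective. -/
lemma dualRep (h : IsProj ρ) (c : G →* (ZMod p)ˣ) : IsProj (Coh.dualRep c ρ) := h.dual.twist c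

end IsProj

/-- A cocycle with values in a module split by `K` is compatible with conjugation. -/
lemma apply_conj {M : Type} [AddCommGroup M] [Module (ZMod p) M] [FiniteDimensional (ZMod p) M]
    {τ : Representation (ZMod p) Γℚ M} (hτ : Factors K τ)
    {z : Γℚ → M} (hz : z ∈ Z1 (galLevels (T : Set Nat.Primes)) τ) (σ : Γℚ) {n : Γℚ}
    (hn : n ∈ K.fixingSubgroup) : τ σ (z (σ⁻¹ * n * σ)) = z n := by
  rw [mul_assoc, cocycle₁ hz σ⁻¹ (n * σ), cocycle₁ hz n σ, hτ.apply hn, map_add,
    ← Module.End.mul_apply, ← map_mul, mul_inv_cancel, map_one, Module.End.one_apply]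
  have h1 : τ σ (z σ⁻¹) + z σ = 0 := by rw [← cocycle₁ hz, mul_inv_cancel, Z1_one hz]
  linear_combination (norm := abel) h1

variable {V : Type} [AddCommGroup V] [Module (ZMod p) V] [FiniteDimensional (ZMod p) V]
  (ρ : Representation (ZMod p) (GalQ K) V)

/-- Over `K`, every linear form is equivariant to the trivial line. -/
lemma coord_equivariant' (φ : Module.Dual (ZMod p) V) :
    IsEquivariant (infl ρ) (triv p K.fixingSubgroup) K.fixingSubgroup.subtype φ := fun n v => by
  change φ (infl ρ (n : Γℚ) v) = φ v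
  rw [(factors_infl ρ).apply n.2]

variable (T) in
/-- Restriction of a class to `K`, in every coordinate. -/
def psi : H1 (galLevels (T : Set Nat.Primes)) (infl ρ) →ₗ[ZMod p]
    Module.Dual (ZMod p) V →ₗ[ZMod p] KH1 p K T :=
  LinearMap.mk₂ (ZMod p)
    (fun x φ => map₁ (IsLevelsHom.comap _ K.fixingSubgroup.subtype) (coord_equivariant' ρ φ) x)
    (fun x y φ => map_add _ x y) (fun c x φ => map_smul _ c x)
    (fun x φ ψ => by
      obtain ⟨z, rfl⟩ := cl₁_surjective x
      rw [map₁_cl₁, map₁_cl₁, map₁_cl₁, ← map_add]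
      exact congrArg _ (Subtype.ext rfl))
    (fun c x φ => by
      obtain ⟨z, rfl⟩ := cl₁_surjective x
      rw [map₁_cl₁, map₁_cl₁, ← map_smul]
      exact congrArg _ (Subtype.ext rfl))

variable (hT : IsAdmissible p K T)

include hT

omit [FiniteDimensional (ZMod p) V] in
/-- A map into the classes of `K` is invariant iff conjugation by every Galois element intertwines
it with the action on functionals. -/
lemma mem_invariants_kappa {Φ : Module.Dual (ZMod p) V →ₗ[ZMod p] KH1 p K T} :
    Φ ∈ (Representation.linHom (dualRep (chiQ hT) ρ) (kappa hT)).invariants ↔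
      ∀ (σ : Γℚ) (φ : Module.Dual (ZMod p) V),
        kconj p K T σ (Φ (φ.comp (infl ρ σ))) = Φ φ := by
  have key : ∀ (σ : Γℚ) (φ : Module.Dual (ZMod p) V),
      Representation.linHom (dualRep (chiQ hT) ρ) (kappa hT) (σ : GalQ K) Φ φ =
        kconj p K T σ (Φ (φ.comp (infl ρ σ))) := by
    intro σ φ
    rw [Representation.linHom_apply, LinearMap.comp_apply, LinearMap.comp_apply,
      show dualRep (chiQ hT) ρ (σ : GalQ K)⁻¹ φ =
        ((chiQ hT (σ : GalQ K))⁻¹ : (ZMod p)ˣ) • φ.comp (infl ρ σ) from LinearMap.ext fun v => by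
        change ((chiQ hT (σ : GalQ K)⁻¹ : (ZMod p)ˣ) : ZMod p) * φ (ρ (σ : GalQ K)⁻¹⁻¹ v) = _
        rw [map_inv, inv_inv]
        rfl, Units.smul_def, map_smul, map_smul, kappa_mk,
      smul_smul, chiQ_mk, Units.inv_mul, one_smul]
  refine ⟨fun h σ φ => ?_, fun h g => LinearMap.ext fun φ => ?_⟩
  · rw [← key, h]
  · obtain ⟨σ, rfl⟩ := QuotientGroup.mk_surjective g
    rw [key]
    exact h σ φ

/-- Restriction to `K` lands in the invariant maps. -/
lemma psi_mem (x : H1 (galLevels (T : Set Nat.Primes)) (infl ρ)) :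
    psi T ρ x ∈ (Representation.linHom (dualRep (chiQ hT) ρ) (kappa hT)).invariants := by
  refine (mem_invariants_kappa ρ hT).mpr fun σ φ => ?_
  obtain ⟨z, rfl⟩ := cl₁_surjective x
  change kconj p K T σ (map₁ (IsLevelsHom.comap _ K.fixingSubgroup.subtype)
    (coord_equivariant' ρ (φ.comp (infl ρ σ))) (cl₁ (galLevels (T : Set Nat.Primes)) (infl ρ) z)) =
    map₁ (IsLevelsHom.comap _ K.fixingSubgroup.subtype) (coord_equivariant' ρ φ)
      (cl₁ (galLevels (T : Set Nat.Primes)) (infl ρ) z)
  rw [map₁_cl₁, map₁_cl₁, kconj_cl₁]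
  refine congrArg _ (Subtype.ext (funext fun n => ?_))
  change φ (infl ρ σ (z.1 (conjN K σ n : Γℚ))) = φ (z.1 (n : Γℚ))
  rw [coe_conjN, apply_conj (factors_infl ρ) z.2 σ n.2]

omit hT in
/-- The coordinate embedding of an inflated representation. -/
lemma coordEmb_infl (m : V) (y : GalQ K) :
    coordEmb K (infl ρ) m y = (Module.finBasis (ZMod p) V).equivFun (ρ y⁻¹ m) := by
  change (Module.finBasis (ZMod p) V).equivFun (infl ρ y.out⁻¹ m) = _
  rw [infl_apply, QuotientGroup.mk_inv, QuotientGroup.out_eq']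

omit hT in
omit [FiniteDimensional ℚ ↥K] in
/-- The action on functions on `Gal(K/ℚ)`. -/
lemma indK_apply' {ι : Type} (g : Γℚ) (f : IndK p K ι) (y : GalQ K) :
    indK p K ι g f y = f ((g : GalQ K)⁻¹ * y) := by
  obtain ⟨s, rfl⟩ := QuotientGroup.mk_surjective y
  rfl

variable (e : V →ₗ[ZMod p] V)

omit hT in
/-- The retraction of the coordinate embedding. -/
def retr : IndK p K (Fin (Module.finrank (ZMod p) V)) →ₗ[ZMod p] V :=
  ∑ y : GalQ K, (ρ y).comp (e.comp ((Module.finBasis (ZMod p) V).equivFun.symm.toLinearMap.comp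
    (LinearMap.proj (R := ZMod p)
      (φ := fun _ : GalQ K => Fin (Module.finrank (ZMod p) V) → ZMod p) y)))

omit hT in
/-- The retraction, written out. -/
lemma retr_apply (f : IndK p K (Fin (Module.finrank (ZMod p) V))) :
    retr ρ e f = ∑ y : GalQ K, ρ y (e ((Module.finBasis (ZMod p) V).equivFun.symm (f y))) := by
  simp [retr, LinearMap.sum_apply]

omit hT in
/-- The retraction is equivariant. -/
lemma retr_equivariant :
    IsEquivariant (indK p K (Fin (Module.finrank (ZMod p) V))) (infl ρ) (MonoidHom.id Γℚ)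
      (retr ρ e) := fun g f => by
  rw [retr_apply, retr_apply, MonoidHom.id_apply, map_sum, infl_apply]
  refine Fintype.sum_equiv (Equiv.mulLeft (g : GalQ K)⁻¹) _ _ fun y => ?_
  rw [indK_apply', Equiv.coe_mulLeft, ← Module.End.mul_apply (ρ (g : GalQ K)), ← map_mul,
    mul_inv_cancel_left]

variable {e} (he : ∀ v, ∑ g, ρ g (e (ρ g⁻¹ v)) = v)

include he

omit hT in
/-- The retraction splits the coordinate embedding. -/
lemma retr_coordEmb (m : V) : retr ρ e (coordEmb K (infl ρ) m) = m := by
  rw [retr_apply]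
  conv_rhs => rw [← he m]
  refine Finset.sum_congr rfl fun y _ => ?_
  rw [coordEmb_infl, LinearEquiv.symm_apply_apply]

omit hT in
/-- The retraction splits the coordinate embedding on classes. -/
lemma map₁_retr_coordEmb (x : H1 (galLevels (T : Set Nat.Primes)) (infl ρ)) :
    map₁ (IsLevelsHom.id _) (retr_equivariant ρ e)
      (map₁ (IsLevelsHom.id _) (coordEmb_equivariant (factors_infl ρ)) x) = x := by
  obtain ⟨z, rfl⟩ := cl₁_surjective x
  rw [map₁_cl₁, map₁_cl₁]
  exact congrArg _ (Subtype.ext (funext fun g => retr_coordEmb ρ he (z.1 g)))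

/-- A class is determined by its restriction to `K`. -/
lemma psi_injective : Function.Injective (psi T ρ) := by
  refine (injective_iff_map_eq_zero _).mpr fun x hx => ?_
  rw [← map₁_retr_coordEmb ρ he x]
  refine (congrArg _ (eq_zero_of_gcomp₁ (containsLevel_fixing hT) fun i => ?_)).trans (map_zero _)
  obtain ⟨z, rfl⟩ := cl₁_surjective x
  rw [map₁_cl₁, gcomp₁, map₁_cl₁]
  have h : map₁ (IsLevelsHom.comap _ K.fixingSubgroup.subtype)
      (coord_equivariant' ρ ((Module.finBasis (ZMod p) V).coord i))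
      (cl₁ (galLevels (T : Set Nat.Primes)) (infl ρ) z) = 0 :=
    LinearMap.congr_fun hx ((Module.finBasis (ZMod p) V).coord i)
  rw [map₁_cl₁] at h
  rw [← h]
  refine congrArg _ (Subtype.ext (funext fun n => ?_))
  change coordEmb K (infl ρ) (z.1 (n : Γℚ)) ((1 : Γℚ) : GalQ K) i =
    (Module.finBasis (ZMod p) V).coord i (z.1 (n : Γℚ))
  rw [coordEmb_infl, QuotientGroup.mk_one, inv_one, map_one, Module.End.one_apply]
  rfl

/-- Every equivariant map from the twisted dual to the classes of `K` comes from a class of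
degree one. -/
lemma psi_surjective {Φ : Module.Dual (ZMod p) V →ₗ[ZMod p] KH1 p K T}
    (hΦ : Φ ∈ (Representation.linHom (dualRep (chiQ hT) ρ) (kappa hT)).invariants) :
    ∃ x, psi T ρ x = Φ := by
  set b := Module.finBasis (ZMod p) V
  -- Lift the values of `Φ` at a coordinate basis to one class `Y` of the induced module.
  obtain ⟨Y, hY⟩ := exists_gcomp₁ (containsLevel_fixing hT) fun i => Φ (b.coord i)
  refine ⟨map₁ (IsLevelsHom.id _) (retr_equivariant ρ e) Y, LinearMap.ext fun φ => ?_⟩
  -- Expand `φ` in translated coordinates; invariance of `Φ` gives `Φ φ` from `Y`.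
  have hphi : φ = ∑ y : GalQ K, ∑ i, φ (ρ y (e (b i))) • (b.coord i).comp (ρ y⁻¹) :=
    LinearMap.ext fun v => by
      conv_lhs => rw [← he v, map_sum]
      simp only [LinearMap.sum_apply, LinearMap.smul_apply, LinearMap.comp_apply, smul_eq_mul]
      refine Finset.sum_congr rfl fun y _ => ?_
      conv_lhs => rw [← b.sum_repr (ρ y⁻¹ v)]
      rw [map_sum, map_sum, map_sum]
      refine Finset.sum_congr rfl fun i _ => ?_
      rw [map_smul, map_smul, map_smul, smul_eq_mul, mul_comm]
      rfl
  have hsum : Φ φ = ∑ y : GalQ K, ∑ i, φ (ρ y (e (b i))) • kconj p K T y.out (gcomp₁ T i Y) := by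
    conv_lhs => rw [hphi]
    simp only [map_sum, map_smul]
    refine Finset.sum_congr rfl fun y _ => Finset.sum_congr rfl fun i _ => congrArg _ ?_
    have h := (mem_invariants_kappa ρ hT).mp hΦ y.out ((b.coord i).comp (ρ y⁻¹))
    rw [← h, hY]
    congr 2
    refine LinearMap.ext fun v => ?_
    change b.coord i (ρ y⁻¹ (infl ρ y.out v)) = b.coord i v
    rw [infl_apply, QuotientGroup.out_eq', ← Module.End.mul_apply, ← map_mul, inv_mul_cancel,
      map_one, Module.End.one_apply]
  rw [hsum]
  -- Compare the two sides on a cocycle of `Y`.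
  obtain ⟨z, rfl⟩ := cl₁_surjective Y
  change map₁ (IsLevelsHom.comap _ K.fixingSubgroup.subtype) (coord_equivariant' ρ φ)
    (map₁ (IsLevelsHom.id _) (retr_equivariant ρ e)
      (cl₁ (galLevels (T : Set Nat.Primes)) (indK p K (Fin (Module.finrank (ZMod p) V))) z)) = _
  simp only [gcomp₁, map₁_cl₁, kconj_cl₁]
  simp only [← map_smul (cl₁ (subLevels (galLevels (T : Set Nat.Primes)) K.fixingSubgroup)
      (triv p K.fixingSubgroup)), ← map_sum (cl₁ (subLevels (galLevels (T : Set Nat.Primes))
      K.fixingSubgroup) (triv p K.fixingSubgroup))]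
  refine congrArg _ (Subtype.ext (funext fun n => ?_))
  simp only [Submodule.coe_sum, Finset.sum_apply, Submodule.coe_smul, Pi.smul_apply]
  change φ (retr ρ e (z.1 (n : Γℚ))) = ∑ y : GalQ K, ∑ i, φ (ρ y (e (b i))) •
    z.1 (conjN K y.out n : Γℚ) ((1 : Γℚ) : GalQ K) i
  rw [retr_apply, map_sum]
  refine Finset.sum_congr rfl fun y _ => ?_
  have hz : ∀ i, z.1 (conjN K y.out n : Γℚ) ((1 : Γℚ) : GalQ K) i = z.1 (n : Γℚ) y i := by
    intro i
    rw [coe_conjN]
    conv_rhs => rw [← apply_conj factors_indK z.2 y.out n.2, indK_apply', QuotientGroup.out_eq',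
      inv_mul_cancel]
    rfl
  simp only [hz]
  rw [Module.Basis.equivFun_symm_apply, map_sum, map_sum, map_sum]
  exact Finset.sum_congr rfl fun i _ => by
    rw [map_smul, map_smul, map_smul, smul_eq_mul, smul_eq_mul, mul_comm]

omit e he in
/-- **Degree one for a projective module.** -/
theorem finrank_H1_of_isProj (hP : IsProj ρ) :
    Module.finrank (ZMod p) (H1 (galLevels (T : Set Nat.Primes)) (infl ρ)) =
      Module.finrank (ZMod p)
        (Representation.linHom (dualRep (chiQ hT) ρ) (kappa hT)).invariants := by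
  obtain ⟨e, he⟩ := hP
  exact (LinearEquiv.ofBijective ((psi T ρ).codRestrict _ (psi_mem ρ hT))
    ⟨fun x y h => psi_injective ρ hT he (congrArg Subtype.val h), fun Φ => by
      obtain ⟨x, hx⟩ := psi_surjective ρ hT he Φ.2
      exact ⟨x, Subtype.ext hx⟩⟩).finrank_eq

omit e he in
/-- **No locally trivial classes in a projective module.** -/
theorem loc₁_injective_of_isProj (h2 : 2 < p) (hP : IsProj ρ) :
    Function.Injective (loc₁ T (infl ρ)) := by
  obtain ⟨e, he⟩ := hP
  refine (injective_iff_map_eq_zero _).mpr fun x hx => ?_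
  rw [← map₁_retr_coordEmb ρ he x]
  refine (congrArg _ (loc₁_indK_injective hT h2 ?_)).trans (map_zero _)
  rw [map_zero]
  funext v
  obtain ⟨z, rfl⟩ := cl₁_surjective x
  have h := congrFun hx v
  have h' := congrArg (map₁ (IsLevelsHom.id (glev (decAt (v : Nat.Primes)).subtype))
    (DualPair.equivariantAt (coordEmb_equivariant (factors_infl ρ)) (v : Nat.Primes))) h
  rw [show (0 : P1 T (infl ρ)) v = 0 from rfl, map_zero] at h'
  exact Eq.trans rfl h'

end Fermat.CFT.Euler
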