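import Fermat.Agent.CFT.Euler.Lattice

/-!
# Integral representations with equal characters

Over `ℚ` a representation of a finite group is determined by its character, so additive functions
of reductions of integral representations only depend on the character.
-/

set_option autoImplicit false
set_option linter.unusedSectionVars false

noncomputable section

namespace Fermat.CFT.Euler

/-! ### Characters determine rational representations -/

section Character

variable {G : Type} [Group G] [Finite G]

/-- The character of a direct sum is the sum of the characters. -/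
lemma character_eq_add_of_isCompl {V : Type} [AddCommGroup V] [Module ℚ V]
    [FiniteDimensional ℚ V] (ρ : Representation ℚ G V) {U W : Subrepresentation ρ}
    (h : IsCompl U.toSubmodule W.toSubmodule) (g : G) :
    ρ.character g = U.toRepresentation.character g + W.toRepresentation.character g := by
  rw [Representation.character, Representation.character, Representation.character,
    ← LinearMap.trace_prodMap', ← LinearMap.trace_conj' _
      (Submodule.prodEquivOfIsCompl _ _ h)]
  congr 1
  refine LinearMap.ext fun x => ?_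
  obtain ⟨y, rfl⟩ := (Submodule.prodEquivOfIsCompl _ _ h).surjective x
  simp [LinearEquiv.conj_apply, Subrepresentation.toRepresentation]

/-- Every rational subrepresentation has an invariant complement. -/
lemma exists_isCompl_subrepresentation {V : Type} [AddCommGroup V] [Module ℚ V]
    (ρ : Representation ℚ G V) (U : Subrepresentation ρ) :
    ∃ W : Subrepresentation ρ, IsCompl U.toSubmodule W.toSubmodule := by
  obtain ⟨W, hW⟩ := exists_isCompl U
  refine ⟨W, ?_, ?_⟩
  · rw [disjoint_iff, ← Subrepresentation.toSubmodule_inf, hW.inf_eq_bot]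
    rfl
  · rw [codisjoint_iff, ← Subrepresentation.toSubmodule_sup, hW.sup_eq_top]
    rfl

/-- Rational representations of a finite group with the same character are isomorphic. -/
theorem exists_equiv_of_character_eq : ∀ (n : ℕ) (V W : Type) [AddCommGroup V] [Module ℚ V]
    [FiniteDimensional ℚ V] [AddCommGroup W] [Module ℚ W] [FiniteDimensional ℚ W]
    (ρ : Representation ℚ G V) (σ : Representation ℚ G W), Module.finrank ℚ V = n →
    (∀ g, ρ.character g = σ.character g) →
    ∃ e : V ≃ₗ[ℚ] W, ∀ g x, e (ρ g x) = σ g (e x) := by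
  intro n
  induction n using Nat.strong_induction_on with
  | _ n ih =>
  intro V W _ _ _ _ _ _ ρ σ hn hχ
  cases nonempty_fintype G
  have hdim : Module.finrank ℚ W = Module.finrank ℚ V := by
    have h := hχ 1
    rw [Representation.char_one, Representation.char_one] at h
    exact_mod_cast h.symm
  rcases Nat.eq_zero_or_pos n with h0 | hpos
  · subst h0
    have : Subsingleton V := Module.finrank_zero_iff.mp hn
    have : Subsingleton W := Module.finrank_zero_iff.mp (hdim.trans hn)
    exact ⟨LinearEquiv.ofBijective 0 ⟨fun a b _ => Subsingleton.elim a b,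
      fun y => ⟨0, Subsingleton.elim _ _⟩⟩, fun g x => Subsingleton.elim _ _⟩
  have : Invertible (Nat.card G : ℚ) := invertibleOfNonzero (Nat.cast_ne_zero.mpr
    Nat.card_pos.ne')
  have heq : (Module.finrank ℚ (ρ.IntertwiningMap σ) : ℚ) =
      Module.finrank ℚ (ρ.IntertwiningMap ρ) := by
    rw [← Representation.card_inv_mul_sum_char_mul_char_eq_finrank,
      ← Representation.card_inv_mul_sum_char_mul_char_eq_finrank]
    simp [hχ]
  have : Nontrivial V := Module.nontrivial_of_finrank_pos (hn.symm ▸ hpos)
  have : Nontrivial (ρ.IntertwiningMap ρ) := by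
    obtain ⟨v, hv⟩ := exists_ne (0 : V)
    exact ⟨⟨Representation.IntertwiningMap.id ρ, 0, fun h => hv (by
      simpa using DFunLike.congr_fun h v)⟩⟩
  have hpos' : 0 < Module.finrank ℚ (ρ.IntertwiningMap σ) := by
    rw [Nat.cast_inj.mp heq]
    exact Module.finrank_pos
  have : Nontrivial (ρ.IntertwiningMap σ) := Module.nontrivial_of_finrank_pos hpos'
  obtain ⟨f, hf⟩ := exists_ne (0 : ρ.IntertwiningMap σ)
  obtain ⟨V', hV'⟩ := exists_isCompl_subrepresentation ρ f.ker
  obtain ⟨W', hW'⟩ := exists_isCompl_subrepresentation σ f.range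
  -- `f` identifies the complement of its kernel with its range
  let e₀ : V'.toSubmodule ≃ₗ[ℚ] f.range.toSubmodule := LinearEquiv.ofBijective
    (f.toLinearMap.restrict (p := V'.toSubmodule) (q := f.range.toSubmodule) fun x _ =>
      ⟨x, rfl⟩) <| by
    refine ⟨fun a b h => ?_, fun y => ?_⟩
    · apply Subtype.ext
      have h1 : f.toLinearMap a = f.toLinearMap b := congrArg Subtype.val h
      have h2 : ((a : V) - b) ∈ f.ker.toSubmodule ⊓ V'.toSubmodule :=
        ⟨(Representation.IntertwiningMap.mem_ker ρ σ f _).mpr (by simpa [sub_eq_zero] using h1),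
          V'.toSubmodule.sub_mem a.2 b.2⟩
      rw [hV'.inf_eq_bot, Submodule.mem_bot, sub_eq_zero] at h2
      exact h2
    · obtain ⟨x, hx⟩ := (Representation.IntertwiningMap.mem_range ρ σ f _).mp y.2
      obtain ⟨a, ha, b, hb, rfl⟩ := Submodule.mem_sup.mp
        (hV'.sup_eq_top.symm ▸ Submodule.mem_top : x ∈ f.ker.toSubmodule ⊔ V'.toSubmodule)
      refine ⟨⟨b, hb⟩, Subtype.ext ?_⟩
      have ha' : f a = 0 := (Representation.IntertwiningMap.mem_ker ρ σ f a).mp ha
      rw [← hx]
      simp [ha']
  have hequ : ∀ g x, e₀ (V'.toRepresentation g x) = f.range.toRepresentation g (e₀ x) :=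
    fun g x => Subtype.ext (Representation.IntertwiningMap.isIntertwining ρ σ f g x)
  have hχ₀ : ∀ g, V'.toRepresentation.character g = f.range.toRepresentation.character g := by
    intro g
    rw [Representation.character, Representation.character, ← LinearMap.trace_conj' _ e₀]
    congr 1
    refine LinearMap.ext fun x => ?_
    obtain ⟨y, rfl⟩ := e₀.surjective x
    simp [LinearEquiv.conj_apply, hequ]
  have hχ₁ : ∀ g, f.ker.toRepresentation.character g = W'.toRepresentation.character g := by
    intro g
    have h := hχ g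
    rw [character_eq_add_of_isCompl ρ hV', character_eq_add_of_isCompl σ hW', hχ₀] at h
    linarith
  have hlt : Module.finrank ℚ f.ker.toSubmodule < n := by
    rw [← hn]
    refine Submodule.finrank_lt fun h => hf ?_
    refine Representation.IntertwiningMap.ext (LinearMap.ext fun x => ?_)
    exact (Representation.IntertwiningMap.mem_ker ρ σ f x).mp (h.symm ▸ Submodule.mem_top : x ∈
      f.ker.toSubmodule)
  obtain ⟨e₁, he₁⟩ := ih _ hlt _ _ f.ker.toRepresentation W'.toRepresentation rfl hχ₁
  let E : V ≃ₗ[ℚ] W := (Submodule.prodEquivOfIsCompl _ _ hV').symm ≪≫ₗ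
    LinearEquiv.prodComm ℚ _ _ ≪≫ₗ (e₀.prodCongr e₁) ≪≫ₗ
    Submodule.prodEquivOfIsCompl _ _ hW'
  refine ⟨E, fun g x => ?_⟩
  obtain ⟨⟨a, b⟩, rfl⟩ := (Submodule.prodEquivOfIsCompl _ _ hV').surjective x
  have key : ∀ (a : f.ker.toSubmodule) (b : V'.toSubmodule),
      E ((a : V) + b) = (e₀ b : W) + (e₁ a : W) := fun a b => by
    have h : (a : V) + b = Submodule.prodEquivOfIsCompl _ _ hV' (a, b) := rfl
    rw [h]
    simp [E]
  change E (ρ g ((a : V) + b)) = σ g (E ((a : V) + b))
  rw [map_add]
  exact (key (f.ker.toRepresentation g a) (V'.toRepresentation g b)).trans (by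
    rw [key, map_add, hequ, he₁]
    rfl)

end Character

/-! ### Clearing denominators -/

variable {ι κ : Type} [Fintype ι] [DecidableEq ι] [Fintype κ] [DecidableEq κ]

/-- A rational matrix has a nonzero integer multiple with integer entries. -/
lemma exists_int_matrix (E : Matrix κ ι ℚ) :
    ∃ (F : Matrix κ ι ℤ) (d : ℤ), d ≠ 0 ∧ F.map (Int.cast : ℤ → ℚ) = (d : ℚ) • E := by
  classical
  set d : ℕ := ∏ i : κ × ι, (E i.1 i.2).den
  have hd : ∀ i j, (E i j).den ∣ d := fun i j =>
    Finset.dvd_prod_of_mem (fun i : κ × ι => (E i.1 i.2).den) (Finset.mem_univ (i, j))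
  choose q hq using hd
  refine ⟨Matrix.of fun i j => (E i j).num * (q i j : ℤ), d,
    Nat.cast_ne_zero.mpr (Finset.prod_ne_zero_iff.mpr fun i _ => (E i.1 i.2).den_nz), ?_⟩
  ext i j
  simp only [Matrix.map_apply, Matrix.of_apply, Matrix.smul_apply, smul_eq_mul, Int.cast_mul,
    Int.cast_natCast]
  rw [hq i j, Nat.cast_mul, mul_assoc, mul_comm (q i j : ℚ), ← mul_assoc,
    mul_comm ((E i j).den : ℚ), Rat.mul_den_eq_num]

variable {p : ℕ} [Fact p.Prime] {G : Type} [Group G] [Finite G]

/-- Additive functions of reductions only depend on the character. -/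
theorem redRep_eq_of_trace_eq (Φ : RepFun p G) (A : G →* Matrix ι ι ℤ) (B : G →* Matrix κ κ ℤ)
    (h : ∀ g, (A g).trace = (B g).trace) :
    Φ.toFun (ι → ZMod p) (redRep p A) = Φ.toFun (κ → ZMod p) (redRep p B) := by
  let cast : ℤ →+* ℚ := Int.castRingHom ℚ
  let ρ : Representation ℚ G (ι → ℚ) :=
    ((Matrix.toLinAlgEquiv' (R := ℚ) (n := ι)).toAlgHom.toRingHom.comp
    cast.mapMatrix).toMonoidHom.comp A
  let σ : Representation ℚ G (κ → ℚ) :=
    ((Matrix.toLinAlgEquiv' (R := ℚ) (n := κ)).toAlgHom.toRingHom.comp
    cast.mapMatrix).toMonoidHom.comp B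
  have hρ : ∀ g, ρ g = Matrix.toLin' ((A g).map cast) := fun g => rfl
  have hσ : ∀ g, σ g = Matrix.toLin' ((B g).map cast) := fun g => rfl
  -- Equal characters: the representations are isomorphic over `ℚ`.
  obtain ⟨e, he⟩ := exists_equiv_of_character_eq _ _ _ ρ σ rfl fun g => by
    rw [Representation.character, Representation.character, hρ, hσ, Matrix.trace_toLin'_eq,
      Matrix.trace_toLin'_eq]
    simp only [Matrix.trace, Matrix.diag_apply, Matrix.map_apply, ← map_sum]
    exact congrArg cast (h g)
  -- Clearing denominators gives integral intertwiners both ways, composing to a scalar.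
  obtain ⟨F, a, ha, hF⟩ := exists_int_matrix (LinearMap.toMatrix' e.toLinearMap)
  obtain ⟨F', b, hb, hF'⟩ := exists_int_matrix (LinearMap.toMatrix' e.symm.toLinearMap)
  have hinj : ∀ {m n : Type} {M N : Matrix m n ℤ}, M.map cast = N.map cast → M = N :=
    fun h => Matrix.map_injective Int.cast_injective h
  refine redRep_eq_of_intertwining Φ F F' (fun g => hinj ?_) (d := a * b) (mul_ne_zero ha hb)
    (hinj ?_) (hinj ?_)
  · have h1 : ((B g).map cast) * LinearMap.toMatrix' e.toLinearMap =
        LinearMap.toMatrix' e.toLinearMap * ((A g).map cast) := by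
      apply Matrix.toLin'.injective
      rw [Matrix.toLin'_mul, Matrix.toLin'_mul, Matrix.toLin'_toMatrix', ← hρ, ← hσ]
      exact LinearMap.ext fun x => (he g x).symm
    change (B g * F).map cast = (F * A g).map cast
    rw [Matrix.map_mul, Matrix.map_mul]
    change (B g).map cast * F.map (Int.cast : ℤ → ℚ) = F.map (Int.cast : ℤ → ℚ) * (A g).map cast
    rw [hF, Matrix.mul_smul, h1, Matrix.smul_mul]
  · show (F' * F).map cast = ((a * b) • (1 : Matrix ι ι ℤ)).map cast
    rw [Matrix.map_mul]
    change F'.map (Int.cast : ℤ → ℚ) * F.map (Int.cast : ℤ → ℚ) = _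
    rw [hF, hF', Matrix.smul_mul, Matrix.mul_smul, smul_smul, ← LinearMap.toMatrix'_comp]
    ext i j
    simp only [Matrix.smul_apply, Matrix.map_apply, Matrix.one_apply, smul_eq_mul,
      LinearMap.toMatrix'_apply, LinearMap.comp_apply, LinearEquiv.coe_coe,
      LinearEquiv.symm_apply_apply]
    split_ifs <;> simp_all [cast, mul_comm]
  · show (F * F').map cast = ((a * b) • (1 : Matrix κ κ ℤ)).map cast
    rw [Matrix.map_mul]
    change F.map (Int.cast : ℤ → ℚ) * F'.map (Int.cast : ℤ → ℚ) = _
    rw [hF, hF', Matrix.smul_mul, Matrix.mul_smul, smul_smul, ← LinearMap.toMatrix'_comp]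
    ext i j
    simp only [Matrix.smul_apply, Matrix.map_apply, Matrix.one_apply, smul_eq_mul,
      LinearMap.toMatrix'_apply, LinearMap.comp_apply, LinearEquiv.coe_coe,
      LinearEquiv.apply_symm_apply]
    split_ifs <;> simp_all [cast]

/-! ### Permutation representations -/

variable {X Y : Type} [Fintype X] [DecidableEq X] [Fintype Y] [DecidableEq Y]

/-- The permutation matrices of an action. -/
def permMat (a : G →* Equiv.Perm X) : G →* Matrix X X ℤ where
  toFun g := Matrix.of fun x y => if a g y = x then 1 else 0
  map_one' := by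
    ext x y
    simp [Matrix.one_apply, eq_comm]
  map_mul' g h := by
    ext x y
    simp [Matrix.mul_apply]

/-- The reduction of a permutation representation. -/
def permRep (p : ℕ) [Fact p.Prime] (a : G →* Equiv.Perm X) :
    Representation (ZMod p) G (X → ZMod p) :=
  redRep p (permMat a)

/-- The permutation representation, written out. -/
lemma permRep_apply (a : G →* Equiv.Perm X) (g : G) (f : X → ZMod p) (x : X) :
    permRep p a g f x = f ((a g).symm x) := by
  simp [permRep, redRep, permMat, Matrix.mulVec, dotProduct, ← Equiv.eq_symm_apply]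

/-- The trace of a permutation matrix counts the fixed points. -/
lemma trace_permMat (a : G →* Equiv.Perm X) (g : G) :
    (permMat a g).trace = ({x | a g x = x} : Finset X).card := by
  simp [permMat, Matrix.trace, Finset.sum_boole]

/-- The action on a disjoint union. -/
def sumAct (a : G →* Equiv.Perm X) (b : G →* Equiv.Perm Y) : G →* Equiv.Perm (X ⊕ Y) :=
  (Equiv.Perm.sumCongrHom X Y).comp (a.prod b)

/-- The trace on a disjoint union is the sum of the traces. -/
lemma trace_permMat_sum (a : G →* Equiv.Perm X) (b : G →* Equiv.Perm Y) (g : G) :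
    (permMat (sumAct a b) g).trace = (permMat a g).trace + (permMat b g).trace := by
  simp only [Matrix.trace, Matrix.diag_apply, Fintype.sum_sum_type]
  simp [permMat, sumAct]

/-- The value on a disjoint union of permutation representations is the sum. -/
lemma permRep_sum (Φ : RepFun p G) (a : G →* Equiv.Perm X) (b : G →* Equiv.Perm Y) :
    Φ.toFun _ (permRep p (sumAct a b)) =
      Φ.toFun _ (permRep p a) + Φ.toFun _ (permRep p b) := by
  rw [← Φ.prod]
  refine Φ.congr_of_bijective (LinearEquiv.sumArrowLequivProdArrow X Y (ZMod p)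
    (ZMod p)).toLinearMap
    (fun g f => ?_) (LinearEquiv.bijective _)
  refine Prod.ext (funext fun x => ?_) (funext fun y => ?_) <;>
    simp [permRep_apply, sumAct]

/-- Permutation representations with the same fixed point counts have the same value. -/
lemma permRep_eq_of_trace_eq (Φ : RepFun p G) (a : G →* Equiv.Perm X) (b : G →* Equiv.Perm Y)
    (h : ∀ g, (permMat a g).trace = (permMat b g).trace) :
    Φ.toFun _ (permRep p a) = Φ.toFun _ (permRep p b) :=
  redRep_eq_of_trace_eq Φ _ _ h

end Fermat.CFT.Euler
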