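import Mathlib

/-!
# Additive functions on representations over `ℤ/p`

`RepFun` is an integer attached to each finite-dimensional representation, additive in exact
sequences; its values on zero, on products and on isomorphic representations.
-/

set_option autoImplicit false

noncomputable section

namespace Fermat.CFT.Euler

variable {p : ℕ} [hp : Fact p.Prime] {G : Type} [Group G]

/-- An integer for every finite-dimensional representation, additive in exact sequences. -/
structure RepFun (p : ℕ) [Fact p.Prime] (G : Type) [Group G] where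
  /-- The integer attached to a representation. -/
  toFun : ∀ (M : Type) [AddCommGroup M] [Module (ZMod p) M] [FiniteDimensional (ZMod p) M],
    Representation (ZMod p) G M → ℤ
  /-- The integer is additive in short exact sequences. -/
  add : ∀ {A B C : Type} [AddCommGroup A] [Module (ZMod p) A] [FiniteDimensional (ZMod p) A]
    [AddCommGroup B] [Module (ZMod p) B] [FiniteDimensional (ZMod p) B]
    [AddCommGroup C] [Module (ZMod p) C] [FiniteDimensional (ZMod p) C]
    (ρA : Representation (ZMod p) G A) (ρB : Representation (ZMod p) G B)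
    (ρC : Representation (ZMod p) G C) (f : A →ₗ[ZMod p] B) (g : B →ₗ[ZMod p] C),
    (∀ s a, f (ρA s a) = ρB s (f a)) → (∀ s b, g (ρB s b) = ρC s (g b)) →
    Function.Injective f → Function.Surjective g → Function.Exact f g →
    toFun B ρB = toFun A ρA + toFun C ρC

namespace RepFun

variable (Φ : RepFun p G) {A B C : Type} [AddCommGroup A] [Module (ZMod p) A]
  [FiniteDimensional (ZMod p) A] [AddCommGroup B] [Module (ZMod p) B]
  [FiniteDimensional (ZMod p) B] [AddCommGroup C] [Module (ZMod p) C]
  [FiniteDimensional (ZMod p) C] {ρA : Representation (ZMod p) G A}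
  {ρB : Representation (ZMod p) G B} {ρC : Representation (ZMod p) G C}

/-- The value on zero is zero. -/
lemma eq_zero_of_subsingleton [Subsingleton A] (ρA : Representation (ZMod p) G A) :
    Φ.toFun A ρA = 0 := by
  have h := Φ.add ρA ρA ρA LinearMap.id LinearMap.id (fun _ _ => rfl) (fun _ _ => rfl)
    (fun _ _ h => h) (fun a => ⟨a, rfl⟩)
    fun y => ⟨fun _ => ⟨y, rfl⟩, fun _ => Subsingleton.elim _ _⟩
  omega

/-- Isomorphic representations have the same value. -/
lemma congr_of_bijective (f : A →ₗ[ZMod p] B) (hf : ∀ s a, f (ρA s a) = ρB s (f a))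
    (hb : Function.Bijective f) : Φ.toFun A ρA = Φ.toFun B ρB := by
  have h := Φ.add ρA ρB (1 : Representation (ZMod p) G PUnit) f 0 hf (fun _ _ => rfl) hb.1
    (fun c => ⟨0, Subsingleton.elim _ _⟩) fun y => ⟨fun _ => hb.2 y, fun _ => Subsingleton.elim _ _⟩
  rw [Φ.eq_zero_of_subsingleton (1 : Representation (ZMod p) G PUnit), add_zero] at h
  exact h.symm

end RepFun

/-! ### Subrepresentations -/

variable {M N : Type} [AddCommGroup M] [Module (ZMod p) M] [AddCommGroup N] [Module (ZMod p) N]

/-- The action on an invariant subspace. -/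
def subRep (ρ : Representation (ZMod p) G M) (W : Submodule (ZMod p) M)
    (hW : ∀ g, ∀ x ∈ W, ρ g x ∈ W) : Representation (ZMod p) G W where
  toFun g := (ρ g).restrict (hW g)
  map_one' := LinearMap.ext fun x => Subtype.ext (by
    change ρ 1 (x : M) = x
    rw [map_one, Module.End.one_apply])
  map_mul' g h := LinearMap.ext fun x => Subtype.ext (by
    change ρ (g * h) (x : M) = ρ g (ρ h x)
    rw [map_mul, Module.End.mul_apply])

/-- A subrepresentation acts by restriction. -/
@[simp] lemma coe_subRep (ρ : Representation (ZMod p) G M) (W : Submodule (ZMod p) M)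
    (hW : ∀ g, ∀ x ∈ W, ρ g x ∈ W) (g : G) (x : W) : (subRep ρ W hW g x : M) = ρ g x := rfl

/-- The action on a product. -/
def prodRep (ρ : Representation (ZMod p) G M) (σ : Representation (ZMod p) G N) :
    Representation (ZMod p) G (M × N) where
  toFun g := LinearMap.prodMap (ρ g) (σ g)
  map_one' := LinearMap.ext fun x => by simp
  map_mul' g h := LinearMap.ext fun x => by simp [Module.End.mul_apply]

/-- A product acts componentwise. -/
@[simp] lemma prodRep_apply (ρ : Representation (ZMod p) G M) (σ : Representation (ZMod p) G N)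
    (g : G) (x : M × N) : prodRep ρ σ g x = (ρ g x.1, σ g x.2) := rfl

namespace RepFun

variable (Φ : RepFun p G) [FiniteDimensional (ZMod p) M] [FiniteDimensional (ZMod p) N]

/-- The value on a product is the sum of the values. -/
lemma prod (ρ : Representation (ZMod p) G M) (σ : Representation (ZMod p) G N) :
    Φ.toFun (M × N) (prodRep ρ σ) = Φ.toFun M ρ + Φ.toFun N σ :=
  Φ.add ρ (prodRep ρ σ) σ (LinearMap.inl _ M N) (LinearMap.snd _ M N)
    (fun s a => by simp) (fun s b => rfl) LinearMap.inl_injective Prod.snd_surjective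
    Function.Exact.inl_snd

/-- The value on the whole space as a subrepresentation. -/
lemma of_eq_top {ρ : Representation (ZMod p) G M} {W : Submodule (ZMod p) M}
    {hW : ∀ g, ∀ x ∈ W, ρ g x ∈ W} (h : W = ⊤) :
    Φ.toFun W (subRep ρ W hW) = Φ.toFun M ρ :=
  Φ.congr_of_bijective W.subtype (fun _ _ => rfl)
    ⟨Subtype.val_injective, fun x => ⟨⟨x, h ▸ trivial⟩, rfl⟩⟩

/-- The value on the zero subrepresentation is zero. -/
lemma of_eq_bot {ρ : Representation (ZMod p) G M} {W : Submodule (ZMod p) M}
    {hW : ∀ g, ∀ x ∈ W, ρ g x ∈ W} (h : W = ⊥) : Φ.toFun W (subRep ρ W hW) = 0 := by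
  have : Subsingleton W := ⟨fun a b => Subtype.ext <| by
    rw [(Submodule.eq_bot_iff W).mp h _ a.2, (Submodule.eq_bot_iff W).mp h _ b.2]⟩
  exact Φ.eq_zero_of_subsingleton _

end RepFun

end Fermat.CFT.Euler
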